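import Fermat.Agent.ExplicitReciprocity.LocalPowers

/-!
# The symbol of `U_i` with `U_j` for `i + j = p`

`p` odd, `ζ` of order `p`, `π = ζ - 1`. On `U_p` the symbol with `π` is
`(1 + c π ^ p, π) = ζ ^ (-c)`
and for `i + j = p`, `i, j ≥ 1`, `(1 + a π ^ i, 1 + b π ^ j) = ζ ^ (i a b)`.
-/

set_option autoImplicit false
set_option linter.unusedSectionVars false
set_option linter.style.haveILetI false

noncomputable section

open NumberField IsDedekindDomain Finset WithZero
open FA.HilbertN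
open scoped Classical

namespace FA.ExplicitLaw

section symbol

variable {p : ℕ} [hp : Fact p.Prime] {n : ℕ} {K : Type*} [Field K] [NumberField K]
  [hcyc : IsCyclotomicExtension {p ^ (n + 1)} ℚ K] [HasEnoughRootsOfUnity K (p ^ (n + 1))]
  {v : HeightOneSpectrum (𝓞 K)}

variable (n)

omit hcyc in
theorem pairing_pow_card (x y : K) : pairing v p (n + 1) x y ^ p ^ (n + 1) = 1 :=
  Subtype.ext ((mem_rootsOfUnity _ _).1 (pairing v p (n + 1) x y).2)

omit hcyc in
/-- `-1` is a power for `p` odd. -/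
theorem pairing_neg_one_right (hp2 : p ≠ 2) (x : K) : pairing v p (n + 1) x (-1) = 1 := by
  have h := pairing_pow_right (v := v) p (n + 1) x (neg_ne_zero.2 (one_ne_zero (α := K)))
    (p ^ (n + 1))
  rwa [(hp.out.odd_of_ne_two hp2).pow.neg_one_pow, pairing_pow_card] at h

variable (hv : (p : 𝓞 K) ∈ v.asIdeal)
include hv

theorem valuation_intCast_eq_one {c : ℤ} (hc : ¬ (p : ℤ) ∣ c) : v.valuation K (c : K) = 1 := by
  rw [← map_intCast (algebraMap (𝓞 K) K), v.valuation_of_algebraMap,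
    v.intValuation_eq_one_iff_mem_primeCompl]
  intro h
  refine v.isPrime.ne_top ((Ideal.eq_top_iff_one _).2 ?_)
  obtain ⟨s, t, hst⟩ :=
    (Nat.prime_iff_prime_int.1 hp.out).irreducible.coprime_iff_not_dvd.2 hc
  have h1 := congrArg (Int.cast : ℤ → 𝓞 K) hst
  push_cast at h1
  rw [← h1]
  exact v.asIdeal.add_mem (v.asIdeal.mul_mem_left _ hv) (v.asIdeal.mul_mem_left _ h)

/-- A unit next to a deeper one. -/
theorem pairing_congr_lvl {i j : ℕ} (hi : 1 ≤ i) (hij : powBound p n < i + j) {a a' b : K}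
    (ha : v.valuation K a = 1) (h : Lvl v i (a' - a)) (hb : Lvl v j (b - 1)) :
    pairing v p (n + 1) a' b = pairing v p (n + 1) a b := by
  have ha0 : a ≠ 0 := fun h0 => by simp [h0] at ha
  have hd : Lvl v i (a' / a - 1) := by
    rw [div_sub_one ha0]
    exact h.div ha
  rw [show a' = a * (a' / a) by rw [mul_div_cancel₀ _ ha0],
    pairing_mul_left p (n + 1) ha0 (ne_zero_of_lvl hi hd),
    pairing_eq_one_of_lvl n hv hij hd hb, mul_one]

end symbol

variable {p : ℕ} [hp : Fact p.Prime] {K : Type*} [Field K] [NumberField K]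
  [hcyc : IsCyclotomicExtension {p ^ (0 + 1)} ℚ K] [HasEnoughRootsOfUnity K (p ^ (0 + 1))]
  {v : HeightOneSpectrum (𝓞 K)} (hv : (p : 𝓞 K) ∈ v.asIdeal) {ζ : K}
  (hζ : IsPrimitiveRoot ζ (p ^ (0 + 1))) (hp2 : p ≠ 2)

omit hp hcyc [HasEnoughRootsOfUnity K (p ^ (0 + 1))] in
theorem powBound_zero [Fact p.Prime] : powBound p 0 = p := by
  have := (Fact.out : p.Prime).two_le
  simp [powBound, ramExp]
  omega

include hv hcyc hζ

theorem lvl_zeta_sub_one : Lvl v 1 (ζ - 1) := (valuation_root_sub_one hv hζ).le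

theorem lvl_prime_zero : Lvl v (p - 1) (p : K) := by simpa [ramExp] using lvl_prime 0 hv

/-- `π ^ (p - 1) ≡ -p` modulo `π ^ p`. -/
theorem lvl_pi_pow_add_prime : Lvl v p ((ζ - 1) ^ (p - 1) + p) := by
  obtain ⟨w, hw, e⟩ := exists_lvl_expand (p := p) hv ((lvl_zeta_sub_one hv hζ).mono (Nat.zero_le 1))
  have hne : ζ - 1 ≠ 0 := sub_ne_zero.2 (hζ.ne_one (one_lt_pow₀ hp.out.one_lt (by omega)))
  rw [add_sub_cancel, show ζ ^ p = 1 by simpa using hζ.pow_eq_one] at e
  obtain ⟨q, hq⟩ : ∃ q, p = q + 1 := ⟨p - 1, by have := hp.out.two_le; omega⟩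
  have he : (ζ - 1) ^ (p - 1) + p = -((p : K) * (ζ - 1) * w) := by
    refine mul_left_cancel₀ hne ?_
    rw [show p - 1 = q by omega, show (ζ - 1) ^ p = (ζ - 1) ^ q * (ζ - 1) by
      rw [← pow_succ, ← hq]] at *
    linear_combination -e
  rw [he]
  refine ((((lvl_prime_zero hv hζ).mul (lvl_zeta_sub_one hv hζ)).mul hw).mono ?_).neg
  omega

include hp2

/-- An integer prime to `p` is invisible to `U_p`. -/
theorem pairing_lvl_intCast {A : K} (hA : Lvl v p (A - 1)) {c : ℤ} (hc : ¬ (p : ℤ) ∣ c) :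
    pairing v p (0 + 1) A (c : K) = 1 := by
  have hpow : Lvl v 1 ((c : K) ^ (p - 1) - 1) := by
    obtain ⟨d, hd⟩ : (p : ℤ) ∣ c ^ (p - 1) - 1 := by
      rw [← ZMod.intCast_zmod_eq_zero_iff_dvd, Int.cast_sub, Int.cast_pow, Int.cast_one,
        ZMod.pow_card_sub_one_eq_one (fun h => hc ((ZMod.intCast_zmod_eq_zero_iff_dvd c p).1 h)),
        sub_self]
    have h := congrArg (Int.cast : ℤ → K) hd
    push_cast at h
    rw [h]
    exact ((lvl_prime_zero hv hζ).mul (lvl_intCast d)).mono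
      (by have := hp.out.two_le; omega)
  have h1 := pairing_pow_right (v := v) p (0 + 1) A
    (Int.cast_ne_zero.2 (fun h => hc (h ▸ dvd_zero _)) : (c : K) ≠ 0) (p - 1)
  rw [pairing_eq_one_of_lvl 0 hv (by rw [powBound_zero]; omega : powBound p 0 < p + 1) hA hpow]
    at h1
  have h2 : pairing v p (0 + 1) A (c : K) ^ p = 1 := by
    simpa using pairing_pow_card (v := v) (p := p) 0 A (c : K)
  rw [← one_mul (pairing v p (0 + 1) A (c : K))]
  nth_rewrite 1 [h1]
  rwa [← pow_succ, Nat.sub_add_cancel hp.out.one_le]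

/-- **`(1 + c π ^ p, π) = ζ ^ (-c)`.** -/
theorem pairing_pi_eq {ξ : rootsOfUnity (p ^ (0 + 1)) K} (hξ : ((ξ : Kˣ) : K) = ζ) {A : K} {c : ℤ}
    (hA : Lvl v (p + 1) (A - (1 + (c : K) * (ζ - 1) ^ p))) :
    pairing v p (0 + 1) A (ζ - 1) = ξ ^ (-c) := by
  set π := ζ - 1 with hπ
  have hπl : Lvl v 1 π := lvl_zeta_sub_one hv hζ
  have hπ0 : π ≠ 0 := sub_ne_zero.2 (hζ.ne_one (one_lt_pow₀ hp.out.one_lt (by omega)))
  have hp3 : 3 ≤ p := by have := hp.out.two_le; omega
  have hζ' : 1 + π = ζ := add_sub_cancel 1 ζ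
  have hζ1 : Lvl v 1 (ζ - 1) := hπl
  -- the symbol with `ζ`
  set B := 1 + (c : K) * π ^ (p - 1) with hB
  have hBl : Lvl v (p - 1) (B - 1) := by
    rw [hB, add_sub_cancel_left]
    simpa using (lvl_intCast c).mul (hπl.pow (p - 1))
  have hB0 : B ≠ 0 := ne_zero_of_lvl (by omega) hBl
  have hpN : ¬ (p : ℤ) ∣ 1 - c * p := fun h => by
    have h1 := dvd_add h (dvd_mul_left (p : ℤ) c)
    rw [sub_add_cancel] at h1
    exact hp.out.ne_one (Nat.dvd_one.1 (Int.natCast_dvd_natCast.1 (by exact_mod_cast h1)))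
  have hBζ : pairing v p (0 + 1) B ζ = ξ ^ (-c) := by
    rw [pairing_congr_lvl 0 hv (by omega : 1 ≤ p) (by rw [powBound_zero]; omega)
      (valuation_intCast_eq_one hv hpN) (a' := B) ?_ hζ1]
    · refine Subtype.ext (Units.ext ?_)
      rw [SubgroupClass.coe_zpow, Units.val_zpow_eq_zpow_val, hξ]
      have hfin : Module.finrank ℚ K = p - 1 := by
        rw [IsCyclotomicExtension.finrank (n := p ^ (0 + 1)) K
          (Polynomial.cyclotomic.irreducible_rat (pow_pos hp.out.pos _)),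
          Nat.totient_prime_pow_succ hp.out, pow_zero, one_mul]
      refine pairing_zeta_of_norm hv hζ (N := (1 - c * p) ^ (p - 1)) (D := 1) (t := -c)
        (fun h => hpN ((Nat.prime_iff_prime_int.1 hp.out).dvd_of_dvd_pow h))
        (fun h => hp.out.ne_one
          (Nat.dvd_one.1 (Int.natCast_dvd_natCast.1 (by exact_mod_cast h)))) ?_ ?_
      · rw [show ((1 - c * p : ℤ) : K) = algebraMap ℚ K ((1 - c * p : ℤ) : ℚ) from
          (map_intCast _ _).symm, Algebra.norm_algebraMap, hfin]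
        push_cast
        ring
      · obtain ⟨r, hr⟩ := exists_one_add_pow_natCast (R := ℤ) (-(c * p)) (p - 1)
        rw [← sub_eq_add_neg] at hr
        rw [hr, Nat.cast_sub hp.out.one_le]
        exact ⟨-c + c ^ 2 * r + c ^ 2 * (p - 1) - c ^ 3 * r * p, by ring⟩
    · rw [hB, show 1 + (c : K) * π ^ (p - 1) - ((1 - c * p : ℤ) : K) =
          (c : K) * (π ^ (p - 1) + p) by push_cast; ring]
      simpa using (lvl_intCast c).mul (lvl_pi_pow_add_prime hv hζ)
  -- the relation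
  set E := 1 + π * ((c : K) * π ^ (p - 1)) / (1 + π) with hE
  have hζv : v.valuation K (1 + π) = 1 :=
    valuation_eq_one_of_lvl le_rfl (by rwa [add_sub_cancel_left] : Lvl v 1 (1 + π - 1))
  have hnum : π * ((c : K) * π ^ (p - 1)) = (c : K) * π ^ p := by
    rw [mul_left_comm, ← pow_succ', Nat.sub_add_cancel hp.out.one_le]
  have hπp : Lvl v p ((c : K) * π ^ p) := by simpa using (lvl_intCast c).mul (hπl.pow p)
  have hEl : Lvl v p (E - 1) := by
    rw [hE, add_sub_cancel_left, hnum]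
    exact hπp.div hζv
  have hst := pairing_one_add_one_add (v := v) (p := p) 0 (x := π) (y := (c : K) * π ^ (p - 1))
    hπ0 (fun h => by simp [h] at hζv) hB0 (ne_zero_of_lvl (by omega) hEl)
  rw [← hE, ← hB, hζ', pairing_symm 0 B ζ, hBζ, mul_inv_eq_one,
    show -π * B = (-1) * (π * B) by ring,
    pairing_mul_right p (0 + 1) _ (neg_ne_zero.2 one_ne_zero) (mul_ne_zero hπ0 hB0),
    pairing_neg_one_right 0 hp2, one_mul, pairing_mul_right p (0 + 1) _ hπ0 hB0,
    pairing_eq_one_of_lvl 0 hv (by rw [powBound_zero]; omega) hEl hBl, mul_one] at hst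
  rw [← hst]
  have hdiff : Lvl v (p + 1) (A - E) := by
    have h2 : E - (1 + (c : K) * π ^ p) = -((c : K) * π ^ p * π) / (1 + π) := by
      rw [hE, hnum, eq_div_iff (fun h => by simp [h] at hζv), sub_mul, add_mul,
        div_mul_cancel₀ _ (fun h => by simp [h] at hζv)]
      ring
    rw [show A - E = (A - (1 + (c : K) * π ^ p)) - (E - (1 + (c : K) * π ^ p)) by ring, h2]
    exact hA.sub (((hπp.mul hπl).neg).div hζv)
  have hEv : v.valuation K E = 1 := valuation_eq_one_of_lvl (by omega) hEl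
  have hE0 : E ≠ 0 := ne_zero_of_lvl (by omega) hEl
  have hd : Lvl v (p + 1) (A / E - 1) := by
    rw [div_sub_one hE0]
    exact hdiff.div hEv
  rw [show A = E * (A / E) by rw [mul_div_cancel₀ _ hE0],
    pairing_mul_left p (0 + 1) hE0 (ne_zero_of_lvl (by omega) hd),
    pairing_of_lvl_left 0 hv (by rw [powBound_zero]; omega) hd, mul_one]

/-- **The symbol on the border.** -/
theorem pairing_borderline {ξ : rootsOfUnity (p ^ (0 + 1)) K} (hξ : ((ξ : Kˣ) : K) = ζ) {i j : ℕ}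
    (hi : 1 ≤ i) (hj : 1 ≤ j) (hij : i + j = p) {a b : ℤ} {A B : K}
    (hA : Lvl v (i + 1) (A - (1 + (a : K) * (ζ - 1) ^ i)))
    (hB : Lvl v (j + 1) (B - (1 + (b : K) * (ζ - 1) ^ j))) :
    pairing v p (0 + 1) A B = ξ ^ ((i : ℤ) * a * b) := by
  set π := ζ - 1 with hπ
  have hπl : Lvl v 1 π := lvl_zeta_sub_one hv hζ
  have hπ0 : π ≠ 0 := sub_ne_zero.2 (hζ.ne_one (one_lt_pow₀ hp.out.one_lt (by omega)))
  have hp3 : 3 ≤ p := by have := hp.out.two_le; omega
  have hb0 : powBound p 0 = p := powBound_zero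
  have hai : Lvl v i ((a : K) * π ^ i) := by simpa using (lvl_intCast a).mul (hπl.pow i)
  have hbj : Lvl v j ((b : K) * π ^ j) := by simpa using (lvl_intCast b).mul (hπl.pow j)
  have hBl : Lvl v j (B - 1) := by
    rw [show B - 1 = (B - (1 + (b : K) * π ^ j)) + (b : K) * π ^ j by ring]
    exact (hB.mono (Nat.le_succ j)).add hbj
  have hxi : Lvl v i (A - 1) := by
    rw [show A - 1 = (A - (1 + (a : K) * π ^ i)) + (a : K) * π ^ i by ring]
    exact (hA.mono (Nat.le_succ i)).add hai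
  by_cases hpa : (p : ℤ) ∣ a
  · obtain ⟨d, rfl⟩ := hpa
    have h1 : Lvl v (i + 1) (A - 1) := by
      rw [show A - 1 = (A - (1 + ((p * d : ℤ) : K) * π ^ i)) + (p : K) * ((d : K) * π ^ i) by
        push_cast; ring]
      exact hA.add (((lvl_prime_zero hv hζ).mul ((lvl_intCast d).mul (hπl.pow i))).mono (by omega))
    rw [pairing_eq_one_of_lvl 0 hv (by omega : powBound p 0 < i + 1 + j) h1 hBl,
      show (i : ℤ) * (p * d) * b = ((p ^ (0 + 1) : ℕ) : ℤ) * (i * d * b) by push_cast; ring,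
      zpow_mul, zpow_natCast,
      show ξ ^ p ^ (0 + 1) = 1 from Subtype.ext ((mem_rootsOfUnity _ _).1 ξ.2), one_zpow]
  have hav : v.valuation K ((a : K) * π ^ i) = exp (-(i : ℤ)) := by
    rw [map_mul, valuation_intCast_eq_one hv hpa, one_mul, map_pow, valuation_root_sub_one hv hζ,
      ← exp_nsmul]
    simp
  have ha0 : (a : K) * π ^ i ≠ 0 := fun h => by
    rw [h, map_zero] at hav
    exact exp_ne_zero hav.symm
  set x := A - 1 with hx
  set y := B - 1 with hy
  set w := x / ((a : K) * π ^ i) with hw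
  have hwl : Lvl v 1 (w - 1) := by
    rw [hw, div_sub_one ha0, Lvl, map_div₀, hav, div_le_iff₀ exp_pos, ← exp_add,
      show x - (a : K) * π ^ i = A - (1 + (a : K) * π ^ i) by rw [hx]; ring]
    exact hA.trans (exp_le_exp.2 (by push_cast; omega))
  have hw0 : w ≠ 0 := ne_zero_of_lvl le_rfl hwl
  have hx0 : x ≠ 0 := fun h => hw0 (by rw [hw, h, zero_div])
  have hA1 : 1 + x = A := add_sub_cancel 1 A
  have hB1 : 1 + y = B := add_sub_cancel 1 B
  have hAv : v.valuation K A = 1 := valuation_eq_one_of_lvl hi hxi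
  set E := 1 + x * y / (1 + x) with hE
  have hEl : Lvl v p (E - 1) := by
    rw [hE, add_sub_cancel_left, hA1]
    exact ((hxi.mul hBl).mono (by omega)).div hAv
  have hEc : Lvl v (p + 1) (E - (1 + ((a * b : ℤ) : K) * π ^ p)) := by
    have hxa : Lvl v (i + 1) (x - (a : K) * π ^ i) := by
      rw [show x - (a : K) * π ^ i = A - (1 + (a : K) * π ^ i) by rw [hx]; ring]; exact hA
    have hyb : Lvl v (j + 1) (y - (b : K) * π ^ j) := by
      rw [show y - (b : K) * π ^ j = B - (1 + (b : K) * π ^ j) by rw [hy]; ring]; exact hB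
    have hA0 : (1 : K) + x ≠ 0 := by
      rw [hA1]; exact fun h => by simp [h] at hAv
    have e : E - (1 + ((a * b : ℤ) : K) * π ^ p) = (x * (y - (b : K) * π ^ j) +
        (x - (a : K) * π ^ i) * ((b : K) * π ^ j) - (a : K) * π ^ i * ((b : K) * π ^ j) * x) /
          (1 + x) := by
      rw [hE, eq_div_iff hA0, sub_mul, add_mul, div_mul_cancel₀ _ hA0, ← hij, pow_add]
      push_cast
      ring
    rw [e, hA1]
    refine Lvl.div ?_ hAv
    exact (((hxi.mul hyb).mono (by omega)).add ((hxa.mul hbj).mono (by omega))).sub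
      (((hai.mul hbj).mul hxi).mono (by omega))
  have hst := pairing_one_add_one_add (v := v) (p := p) 0 (x := x) (y := y) hx0
    (by rw [hA1]; exact ne_zero_of_lvl hi hxi) (by rw [hB1]; exact ne_zero_of_lvl hj hBl)
    (ne_zero_of_lvl (by omega) hEl)
  have hxw : -x * (1 + y) = (-1) * ((a : K) * (π ^ i * (w * B))) := by
    rw [hB1, ← mul_assoc (a : K), ← mul_assoc ((a : K) * π ^ i), hw, mul_div_cancel₀ _ ha0]
    ring
  have haK : (a : K) ≠ 0 := left_ne_zero_of_mul ha0
  have hπi : π ^ i ≠ 0 := pow_ne_zero _ hπ0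
  have hBne : B ≠ 0 := ne_zero_of_lvl hj hBl
  rw [← hE, hxw, hA1, hB1,
    pairing_mul_right p (0 + 1) _ (neg_ne_zero.2 one_ne_zero)
      (mul_ne_zero haK (mul_ne_zero hπi (mul_ne_zero hw0 hBne))),
    pairing_neg_one_right 0 hp2, one_mul,
    pairing_mul_right p (0 + 1) _ haK (mul_ne_zero hπi (mul_ne_zero hw0 hBne)),
    pairing_lvl_intCast hv hζ hp2 hEl hpa, one_mul,
    pairing_mul_right p (0 + 1) _ hπi (mul_ne_zero hw0 hBne),
    pairing_mul_right p (0 + 1) _ hw0 hBne,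
    pairing_eq_one_of_lvl 0 hv (by omega : powBound p 0 < p + 1) hEl hwl,
    pairing_eq_one_of_lvl 0 hv (by omega : powBound p 0 < p + j) hEl hBl, mul_one, mul_one,
    pairing_pow_right p (0 + 1) _ hπ0, pairing_pi_eq hv hζ hp2 hξ hEc] at hst
  rw [eq_inv_of_mul_eq_one_right hst, ← zpow_natCast (G := rootsOfUnity (p ^ (0 + 1)) K),
    ← zpow_mul, ← zpow_neg]
  congr 1
  ring

end FA.ExplicitLaw
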