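import Fermat.Agent.ExplicitReciprocity.Reciprocity
import Fermat.Agent.LubinTate.Coleman.ColemanMap

/-!
# The laws of Artin, Hasse and Iwasawa

The explicit law at `g = ± (1 + X)`, `± X`, `((1 + X) ^ a - 1) / X` and at the series of Coleman of
a norm compatible system of units.
-/

set_option autoImplicit false
set_option linter.unusedSectionVars false
set_option linter.style.haveILetI false

noncomputable section

open NumberField IsDedekindDomain Finset
open FA.HilbertN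
open Fermat.Agent.LubinTate
open scoped Classical

namespace FA.ExplicitLaw

variable {p : ℕ} [hp : Fact p.Prime]

local notation "Λ" => PowerSeries ℤ_[p]

/-! ### The series -/

/-- The sign `(-1) ^ (p - 1)`. -/
abbrev normSign (p : ℕ) [Fact p.Prime] : ℤ_[p] := (-1) ^ (p - 1)

theorem normSeries_X : normSeries p (PowerSeries.X : Λ) =
    PowerSeries.C (normSign p) * PowerSeries.X := by
  have : FaithfulSMul ℤ_[p] (AlgebraicClosure ℚ_[p]) := by
    rw [faithfulSMul_iff_algebraMap_injective,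
      IsScalarTower.algebraMap_eq ℤ_[p] ℚ_[p] (AlgebraicClosure ℚ_[p])]
    exact (algebraMap ℚ_[p] _).injective.comp (IsFractionRing.injective ℤ_[p] ℚ_[p])
  obtain ⟨lam, hlam⟩ := exists_torsionTower (Ω := AlgebraicClosure ℚ_[p])
    (PadicInt.irreducible_p (p := p))
  refine cycloSubst_injective p (evalLev_injective (K := ℚ_[p]) PadicInt.irreducible_p hlam
    fun k => ?_)
  set ev := fun j => (evalLev (K := ℚ_[p]) PadicInt.irreducible_p hlam j).comp (cycloSubst p)
  have hval : ∀ j, ((ev j (1 + PowerSeries.X) : lev ℚ_[p] lam j) : AlgebraicClosure ℚ_[p]) =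
      cycloZeta hlam j ^ 1 := fun j => by
    change torsionValue hlam j (cycloSubst p (1 + PowerSeries.X)) = _
    rw [map_add, map_one, cycloSubst, PowerSeries.substAlgHom_X, map_add, map_one, cycloZeta,
      pow_one]
  have hX : ∀ j, ev j (PowerSeries.X : Λ) = ev j (1 + PowerSeries.X) - 1 := fun j => by
    rw [map_add, map_one, add_sub_cancel_left]
  rw [← levNorm_evalLev_cycloSubst]
  change levNorm hlam k (ev (k + 1) PowerSeries.X) =
    ev k (PowerSeries.C (normSign p) * PowerSeries.X)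
  rw [map_mul, hX, hX, levNorm_cycloZeta_sub_one hlam (Nat.Prime.not_dvd_one hp.out) k _ _
      (hval (k + 1)) (hval k), normSign, map_pow, map_neg, map_one, map_pow, map_neg, map_one]
  obtain ⟨q, hq⟩ : ∃ q, p = q + 1 := ⟨p - 1, by have := hp.out.two_le; omega⟩
  rw [show p - 1 = q by omega, show (-1 : lev ℚ_[p] lam k) ^ p = (-1) ^ q * -1 from
    (congrArg ((-1 : lev ℚ_[p] lam k) ^ ·) hq).trans (pow_succ _ q)]
  ring

theorem normSeries_normSign_mul {g : Λ} (hg : normSeries p g = PowerSeries.C (normSign p) * g) :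
    normSeries p (PowerSeries.C (normSign p) * g) = PowerSeries.C (normSign p) * g := by
  rw [map_mul, normSeries_C, hg, ← mul_assoc, ← map_mul, normSign, ← pow_mul,
    show (p - 1) * p = p * (p - 1) from mul_comm _ _,
    Even.neg_one_pow (Nat.even_mul_pred_self p), one_mul]

variable {C : Type*} [NontriviallyNormedField C] [CompleteSpace C]
  [IsUltrametricDist C] [NormedAlgebra ℚ_[p] C]

theorem dlogValue_C_mul {z : C} (hz : ‖z‖ < 1) {s : ℤ_[p]} (hs : s ≠ 0) (g : Λ) :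
    dlogValue (PowerSeries.C s * g) z = dlogValue g z := by
  have hD : amiceD (PowerSeries.C s * g : Λ) = PowerSeries.C s * amiceD g := by
    rw [amiceD_mul, show amiceD (PowerSeries.C s : Λ) = 0 by
      rw [amiceD, PowerSeries.derivative_C, mul_zero], zero_mul, zero_add]
  have hs0 : (coeffHom s : C) ≠ 0 := by
    rw [coeffHom, RingHom.comp_apply]
    exact (_root_.map_ne_zero _).2 (PadicInt.coe_ne_zero.2 hs)
  rw [dlogValue, dlogValue, hD, seriesValue_mul hz, seriesValue_mul hz, seriesValue_C,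
    mul_div_mul_left _ _ hs0]

theorem coeffHom_normSign : ((coeffHom (p := p)) (normSign p) : C) = (-1) ^ (p - 1) := by
  rw [map_pow, map_neg, map_one]

theorem seriesValue_one_add_X {z : C} (hz : ‖z‖ < 1) :
    seriesValue z (1 + PowerSeries.X : Λ) = 1 + z := by
  rw [seriesValue_add hz, seriesValue_one, seriesValue_X]

/-- The value of `((1 + X) ^ a - 1) / X`. -/
theorem seriesValue_cycloSeries_mul {z : C} (hz : ‖z‖ < 1) (a : ℕ) :
    z * seriesValue z (cycloSeries ℤ_[p] a) = (1 + z) ^ a - 1 := by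
  have h := congrArg (seriesHom hz) (X_mul_cycloSeries (R := ℤ_[p]) a)
  rw [map_mul, map_sub, map_pow, map_add, map_one, seriesHom_apply, seriesHom_apply,
    seriesValue_X] at h
  exact h

theorem dlogValue_cycloSeries {z : C} (hz : ‖z‖ < 1) (hz0 : z ≠ 0) {a : ℕ}
    (ha : (1 + z) ^ a ≠ 1) :
    dlogValue (cycloSeries ℤ_[p] a) z =
      (a : C) * (1 + z) ^ a / ((1 + z) ^ a - 1) - (1 + z) / z := by
  have h := congrArg (fun F : Λ => seriesHom hz (amiceD F)) (X_mul_cycloSeries (R := ℤ_[p]) a)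
  simp only [amiceD_mul] at h
  rw [show amiceD (PowerSeries.X : Λ) = 1 + PowerSeries.X by
      rw [amiceD, PowerSeries.derivative_X, mul_one],
    show amiceD ((1 + PowerSeries.X) ^ a - 1 : Λ) = (a : Λ) * (1 + PowerSeries.X) ^ a by
      rw [← amiceD_one_add_X_pow, amiceD, amiceD, map_sub, Derivation.map_one_eq_zero, sub_zero],
    map_add, map_mul, map_mul, map_mul, map_natCast, map_pow, map_add, map_one, seriesHom_apply,
    seriesHom_apply, seriesHom_apply, seriesValue_X] at h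
  have hv := seriesValue_cycloSeries_mul (p := p) hz a
  have hne : seriesValue z (cycloSeries ℤ_[p] a) ≠ 0 := fun h0 => by
    rw [h0, mul_zero, eq_comm, sub_eq_zero] at hv
    exact ha hv
  rw [dlogValue, ← hv]
  field_simp
  linear_combination h

/-! ### The law -/

variable [CharZero C] [IsAlgClosed C] {n : ℕ} {K : Type*} [Field K] [NumberField K]
  [hcyc : IsCyclotomicExtension {p ^ (n + 1)} ℚ K] [HasEnoughRootsOfUnity K (p ^ (n + 1))]
  {v : HeightOneSpectrum (𝓞 K)} (hv : (p : 𝓞 K) ∈ v.asIdeal) {ζ : K}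
  (hζ : IsPrimitiveRoot ζ (p ^ (n + 1))) (ι : K →+* C)
include hv hcyc hζ

/-- **Any exponent in the class.** -/
theorem hilbertSymbol_eq_zeta_zpow {g : Λ} (hg : normSeries p g = g) (x b : Kˣ)
    (hx : v.valuation K ((x : K) - 1) < 1) (hgne : seriesValue (ι ζ - 1) g ≠ 0)
    (hb : ‖ι (b : K) - seriesValue (ι ζ - 1) g‖ ≤
      ((p : ℝ)⁻¹) ^ (n + 3) * ‖seriesValue (ι ζ - 1) g‖) {t : ℤ}
    (ht : ‖(t : C) + explicitSum ζ (x : K) g / (p : C) ^ (n + 1)‖ ≤ ((p : ℝ)⁻¹) ^ (n + 1)) :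
    ((hilbertSymbol (p ^ (n + 1)) v x b : Kˣ) : K) = ζ ^ t := by
  obtain ⟨t₀, ht₀, hs⟩ := exists_explicit_exponent hv hζ ι hg x b hx hgne hb
  have hdiff : ‖((t₀ - t : ℤ) : C)‖ ≤ ((p : ℝ)⁻¹) ^ (n + 1) := by
    rw [Int.cast_sub, ← sub_sub_sub_cancel_right _ _
      (-(explicitSum (C := C) ζ (x : K) g / (p : C) ^ (n + 1))), sub_neg_eq_add, sub_neg_eq_add,
      sub_eq_add_neg]
    exact (IsUltrametricDist.norm_add_le_max _ _).trans (max_le ht₀ (by rwa [norm_neg]))
  rw [FA.Brumer.norm_intCast p, inv_pow, ← zpow_natCast, ← zpow_neg,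
    Padic.norm_int_le_pow_iff_dvd] at hdiff
  have hζ0 : ζ ≠ 0 := hζ.ne_zero (pow_ne_zero _ hp.out.ne_zero)
  rw [hs, ← div_eq_one_iff_eq (zpow_ne_zero _ hζ0), ← zpow_sub₀ hζ0, hζ.zpow_eq_one_iff_dvd]
  exact_mod_cast hdiff

omit hv in
theorem norm_embedding_sub_one_lt (σ : K →+* C) : ‖σ ζ - 1‖ < 1 :=
  norm_sub_one_lt_of_pow_eq_one (n + 1)
    (by rw [← map_pow, hζ.pow_eq_one, map_one])

/-- **The law of Artin and Hasse for the root of unity.** -/
theorem exists_exponent_root (x b : Kˣ) (hx : v.valuation K ((x : K) - 1) < 1)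
    (hb : (b : K) = (-1) ^ (p - 1) * ζ) :
    ∃ t : ℤ, ‖(t : C) + (∑ σ : K →+* C, logOne (σ (x : K) - 1)) / (p : C) ^ (n + 1)‖ ≤
        ((p : ℝ)⁻¹) ^ (n + 1) ∧
      ((hilbertSymbol (p ^ (n + 1)) v x b : Kˣ) : K) = ζ ^ t := by
  obtain ⟨ι⟩ : Nonempty (K →+* C) := ⟨(IsAlgClosed.lift : K →ₐ[ℚ] C).toRingHom⟩
  have hz := norm_embedding_sub_one_lt hζ ι
  have hval : seriesValue (ι ζ - 1) (PowerSeries.C (normSign p) * (1 + PowerSeries.X)) =
      ι (b : K) := by
    rw [seriesValue_mul hz, seriesValue_C, seriesValue_one_add_X hz, coeffHom_normSign,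
      add_sub_cancel, hb, map_mul, map_pow, map_neg, map_one]
  have hne : ι (b : K) ≠ 0 := (_root_.map_ne_zero ι).2 b.ne_zero
  obtain ⟨t, ht, hs⟩ := exists_explicit_exponent hv hζ ι
    (normSeries_normSign_mul (normSeries_one_add_X_sign p)) x b hx (hval.symm ▸ hne)
    (by rw [hval, sub_self, norm_zero]; positivity)
  refine ⟨t, ?_, hs⟩
  rwa [explicitSum, Finset.sum_congr rfl fun σ _ => ?_] at ht
  have hzσ := norm_embedding_sub_one_lt hζ σ
  rw [dlogValue_C_mul hzσ (pow_ne_zero _ (neg_ne_zero.2 one_ne_zero)), dlogValue,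
    show amiceD (1 + PowerSeries.X : Λ) = 1 + PowerSeries.X by
      rw [amiceD, map_add, Derivation.map_one_eq_zero, PowerSeries.derivative_X, zero_add, mul_one],
    div_self, mul_one]
  rw [seriesValue_one_add_X hzσ, add_sub_cancel]
  exact (_root_.map_ne_zero σ).2 (hζ.ne_zero (pow_ne_zero _ hp.out.ne_zero))

/-- **The law of Artin and Hasse for the uniformizer.** -/
theorem exists_exponent_uniformizer (x b : Kˣ) (hx : v.valuation K ((x : K) - 1) < 1)
    (hb : (b : K) = (-1) ^ (p - 1) * (ζ - 1)) :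
    ∃ t : ℤ, ‖(t : C) + (∑ σ : K →+* C, logOne (σ (x : K) - 1) * σ (ζ / (ζ - 1))) /
        (p : C) ^ (n + 1)‖ ≤ ((p : ℝ)⁻¹) ^ (n + 1) ∧
      ((hilbertSymbol (p ^ (n + 1)) v x b : Kˣ) : K) = ζ ^ t := by
  obtain ⟨ι⟩ : Nonempty (K →+* C) := ⟨(IsAlgClosed.lift : K →ₐ[ℚ] C).toRingHom⟩
  have hz := norm_embedding_sub_one_lt hζ ι
  have hval : seriesValue (ι ζ - 1) (PowerSeries.C (normSign p) * PowerSeries.X) = ι (b : K) := by
    rw [seriesValue_mul hz, seriesValue_C, seriesValue_X, coeffHom_normSign, hb, map_mul, map_pow,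
      map_neg, map_one, map_sub, map_one]
  have hne : ι (b : K) ≠ 0 := (_root_.map_ne_zero ι).2 b.ne_zero
  obtain ⟨t, ht, hs⟩ := exists_explicit_exponent hv hζ ι
    (normSeries_normSign_mul normSeries_X) x b hx (hval.symm ▸ hne)
    (by rw [hval, sub_self, norm_zero]; positivity)
  refine ⟨t, ?_, hs⟩
  rwa [explicitSum, Finset.sum_congr rfl fun σ _ => ?_] at ht
  have hzσ := norm_embedding_sub_one_lt hζ σ
  rw [dlogValue_C_mul hzσ (pow_ne_zero _ (neg_ne_zero.2 one_ne_zero)), dlogValue,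
    show amiceD (PowerSeries.X : Λ) = 1 + PowerSeries.X by
      rw [amiceD, PowerSeries.derivative_X, mul_one],
    seriesValue_one_add_X hzσ, seriesValue_X, add_sub_cancel, map_div₀, map_sub, map_one]

/-- **The law for the cyclotomic units.** -/
theorem exists_exponent_cyclotomic {a : ℕ} (ha : ¬ p ∣ a) (x b : Kˣ)
    (hx : v.valuation K ((x : K) - 1) < 1) (hb : (b : K) = (ζ ^ a - 1) / (ζ - 1)) :
    ∃ t : ℤ, ‖(t : C) + (∑ σ : K →+* C, logOne (σ (x : K) - 1) *
          σ ((a : K) * ζ ^ a / (ζ ^ a - 1) - ζ / (ζ - 1))) / (p : C) ^ (n + 1)‖ ≤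
        ((p : ℝ)⁻¹) ^ (n + 1) ∧
      ((hilbertSymbol (p ^ (n + 1)) v x b : Kˣ) : K) = ζ ^ t := by
  have h1 : ζ - 1 ≠ 0 := sub_ne_zero.2 (hζ.ne_one (one_lt_pow₀ hp.out.one_lt n.succ_ne_zero))
  have h2 : ζ ^ a ≠ 1 := fun h => ha ((dvd_pow_self p n.succ_ne_zero).trans
    ((hζ.pow_eq_one_iff_dvd a).1 h))
  obtain ⟨ι⟩ : Nonempty (K →+* C) := ⟨(IsAlgClosed.lift : K →ₐ[ℚ] C).toRingHom⟩
  have hne : ι (b : K) ≠ 0 := (_root_.map_ne_zero ι).2 b.ne_zero
  have hz := norm_embedding_sub_one_lt hζ ι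
  have hval : seriesValue (ι ζ - 1) (cycloSeries ℤ_[p] a) = ι (b : K) := by
    have h := seriesValue_cycloSeries_mul (p := p) hz a
    rw [add_sub_cancel] at h
    rw [hb, map_div₀, map_sub, map_pow, map_sub, map_one, ← h, mul_div_cancel_left₀]
    rw [← map_one ι, ← map_sub]
    exact (_root_.map_ne_zero ι).2 h1
  have hfix : normSeries p (cycloSeries ℤ_[p] a) = cycloSeries ℤ_[p] a := by
    have : FaithfulSMul ℤ_[p] (AlgebraicClosure ℚ_[p]) := by
      rw [faithfulSMul_iff_algebraMap_injective,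
        IsScalarTower.algebraMap_eq ℤ_[p] ℚ_[p] (AlgebraicClosure ℚ_[p])]
      exact (algebraMap ℚ_[p] _).injective.comp (IsFractionRing.injective ℤ_[p] ℚ_[p])
    obtain ⟨lam, hlam⟩ := exists_torsionTower (Ω := AlgebraicClosure ℚ_[p])
      (PadicInt.irreducible_p (p := p))
    exact (normSeries_eq_self_iff p _).2 (colemanNorm_cycloSeries hlam ha)
  obtain ⟨t, ht, hs⟩ := exists_explicit_exponent hv hζ ι hfix x b hx (hval.symm ▸ hne)
    (by rw [hval, sub_self, norm_zero]; positivity)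
  refine ⟨t, ?_, hs⟩
  rwa [explicitSum, Finset.sum_congr rfl fun σ _ => ?_] at ht
  have hzσ := norm_embedding_sub_one_lt hζ σ
  rw [dlogValue_cycloSeries hzσ (sub_ne_zero.2 fun h => h1 (by
      rw [sub_eq_zero]; exact σ.injective (by rw [h, map_one])))
    (by rw [add_sub_cancel, ← map_pow, ← map_one σ]; exact fun h => h2 (σ.injective h)),
    add_sub_cancel, map_sub, map_div₀, map_div₀, map_mul, map_natCast, map_sub, map_sub, map_pow,
    map_one]

/-! ### Norm compatible units -/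

variable [Algebra ℤ_[p] C] [IsScalarTower ℤ_[p] ℚ_[p] C] {lam : ℕ → C}
  (hlam : IsTorsionTower (p : ℤ_[p]) lam)

omit hv hcyc hζ in
theorem norm_le_one_of_isIntegral_padicInt {y : C} (hy : IsIntegral ℤ_[p] y) : ‖y‖ ≤ 1 := by
  obtain ⟨f, hf, hroot⟩ := hy
  refine not_lt.mp fun h => ?_
  have hlead : y ^ f.natDegree =
      -∑ i ∈ range f.natDegree, algebraMap ℤ_[p] C (f.coeff i) * y ^ i := by
    have h1 := hroot
    rw [← Polynomial.aeval_def, Polynomial.aeval_eq_sum_range, Finset.sum_range_succ,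
      hf.coeff_natDegree, one_smul] at h1
    simp only [Algebra.smul_def] at h1
    linear_combination h1
  have hlt : ‖∑ i ∈ range f.natDegree, algebraMap ℤ_[p] C (f.coeff i) * y ^ i‖ <
      ‖y‖ ^ f.natDegree := by
    rcases Nat.eq_zero_or_pos f.natDegree with h0 | h0
    · simp [h0]
    refine lt_of_le_of_lt (IsUltrametricDist.norm_sum_le_of_forall_le_of_nonneg
      (pow_nonneg (norm_nonneg y) (f.natDegree - 1)) fun i hi => ?_)
      (pow_lt_pow_right₀ h (by omega))
    rw [norm_mul, norm_pow, IsScalarTower.algebraMap_apply ℤ_[p] ℚ_[p] C, norm_algebraMap']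
    refine le_trans (mul_le_of_le_one_left (pow_nonneg (norm_nonneg y) i) ?_)
      (pow_le_pow_right₀ h.le (by rw [Finset.mem_range] at hi; omega))
    exact (f.coeff i).norm_le_one
  rw [← norm_pow, hlead, norm_neg] at hlt
  exact hlt.false

omit hv hcyc hζ in
/-- The values on the tower are the values of series. -/
theorem seriesValue_cycloZeta (k : ℕ) (g : Λ) :
    seriesValue (cycloZeta hlam k - 1) g = torsionValue hlam k (cycloSubst p g) := by
  have hz : ‖cycloZeta hlam k - 1‖ < 1 :=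
    norm_sub_one_lt_of_pow_eq_one (k + 1) (isPrimitiveRoot_cycloZeta hlam k).pow_eq_one
  refine (eq_seriesValue hz ((torsionValue hlam k).toRingHom.comp (cycloSubst p).toRingHom)
    (fun c => ?_) ?_ (fun f => ?_) g).symm
  · show torsionValue hlam k (cycloSubst p (PowerSeries.C c)) = coeffHom c
    rw [PowerSeries.C_eq_algebraMap, AlgHom.commutes, AlgHom.commutes,
      IsScalarTower.algebraMap_apply ℤ_[p] ℚ_[p] C]
    rfl
  · show torsionValue hlam k (cycloSubst p PowerSeries.X) = _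
    rw [cycloSubst, PowerSeries.substAlgHom_X, cycloZeta, add_sub_cancel_left]
  · exact norm_le_one_of_isIntegral_padicInt
      ((isIntegral_evalAt (K := ℚ_[p]) PadicInt.irreducible_p k
        (isTorsionGenerator_levGen (K := ℚ_[p]) PadicInt.irreducible_p hlam k) _).map
        ((lev ℚ_[p] lam k).val.restrictScalars ℤ_[p]))

/-- **The law for norm compatible units.** -/
theorem exists_exponent_units (hι : ι ζ = cycloZeta hlam n) (u : normUnits ℚ_[p] hlam) {g : Λ}
    (hg : normSeries p g = g) (hgu : ∀ k, torsionValue hlam k (cycloSubst p g) =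
      ((((u : ∀ k, (lev ℚ_[p] lam k)ˣ) k : (lev ℚ_[p] lam k)ˣ) : lev ℚ_[p] lam k) : C))
    (x b : Kˣ) (hx : v.valuation K ((x : K) - 1) < 1)
    (hb : ‖ι (b : K) - ((((u : ∀ k, (lev ℚ_[p] lam k)ˣ) n : (lev ℚ_[p] lam n)ˣ) :
      lev ℚ_[p] lam n) : C)‖ ≤ ((p : ℝ)⁻¹) ^ (n + 3)) :
    ∃ t : ℤ, ‖(t : C) + explicitSum ζ (x : K) g / (p : C) ^ (n + 1)‖ ≤ ((p : ℝ)⁻¹) ^ (n + 1) ∧
      ((hilbertSymbol (p ^ (n + 1)) v x b : Kˣ) : K) = ζ ^ t := by
  have hz := norm_embedding_sub_one_lt hζ ι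
  have hunit : ‖seriesValue (ι ζ - 1) g‖ = 1 := by
    rw [hι, seriesValue_cycloZeta hlam, hgu n]
    set uk := ((u : ∀ k, (lev ℚ_[p] lam k)ˣ) n)
    have hu := u.2.1 n
    have h1 : ∀ y : lev ℚ_[p] lam n, IsIntegral ℤ_[p] y → ‖(y : C)‖ ≤ 1 := fun y hy =>
      norm_le_one_of_isIntegral_padicInt (hy.map ((lev ℚ_[p] lam n).val.restrictScalars ℤ_[p]))
    refine le_antisymm (h1 _ hu.1) (le_of_not_gt fun hlt => ?_)
    have h2 : ((uk : lev ℚ_[p] lam n) : C) * ((uk⁻¹ : (lev ℚ_[p] lam n)ˣ) : lev ℚ_[p] lam n) = 1 :=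
      congrArg Subtype.val uk.mul_inv
    have h3 := congrArg norm h2
    rw [norm_mul, norm_one] at h3
    exact (mul_lt_one_of_nonneg_of_lt_one_left (norm_nonneg _) hlt (h1 _ hu.2)).ne h3
  refine exists_explicit_exponent hv hζ ι hg x b hx
    (norm_pos_iff.1 (by rw [hunit]; exact one_pos)) ?_
  rw [hunit, mul_one, hι, seriesValue_cycloZeta hlam, hgu n]
  exact hb

end FA.ExplicitLaw
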