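import Mathlib

/-!
# The conjugates between two cyclotomic levels

If `M` has the roots of unity of order `p ^ (n + d + 1)` and `K` those of order `p ^ (n + 1)`, the
automorphisms of `M/K` are `ξ ↦ ξ θ ^ i`, `θ = ξ ^ (p ^ (n + 1))`, `i < p ^ d`.
-/

set_option autoImplicit false
set_option linter.unusedSectionVars false
set_option linter.style.haveILetI false

noncomputable section

namespace FA.ExplicitLaw

variable (p : ℕ) [hp : Fact p.Prime] {n d : ℕ} {K : Type*} [Field K] [NumberField K]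
  [IsCyclotomicExtension {p ^ (n + 1)} ℚ K] {M : Type*} [Field M] [NumberField M]
  [IsCyclotomicExtension {p ^ (n + d + 1)} ℚ M] [Algebra K M]
  {ξ : M} (hξ : IsPrimitiveRoot ξ (p ^ (n + d + 1))) {ζ : K}
  (hζ : algebraMap K M ζ = ξ ^ p ^ d)
include hξ hζ

omit hζ in
theorem finrank_cyclo_level : Module.finrank K M = p ^ d := by
  have h := Module.finrank_mul_finrank ℚ K M
  rw [IsCyclotomicExtension.finrank (n := p ^ (n + 1)) K
      (Polynomial.cyclotomic.irreducible_rat (pow_pos hp.out.pos _)),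
    IsCyclotomicExtension.finrank (n := p ^ (n + d + 1)) M
      (Polynomial.cyclotomic.irreducible_rat (pow_pos hp.out.pos _)),
    Nat.totient_prime_pow_succ hp.out, Nat.totient_prime_pow_succ hp.out, pow_add p n d] at h
  exact Nat.eq_of_mul_eq_mul_left (mul_pos (pow_pos hp.out.pos _)
    (show 0 < p - 1 by have := hp.out.two_le; omega)) (h.trans (by ring))

/-- **The automorphisms of `M/K`.** -/
theorem exists_conjugates : ∃ e : Fin (p ^ d) ≃ (M ≃ₐ[K] M),
    ∀ i, e i ξ = ξ * (ξ ^ p ^ (n + 1)) ^ (i : ℕ) := by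
  haveI : NeZero (p ^ (n + d + 1)) := ⟨pow_ne_zero _ hp.out.ne_zero⟩
  haveI : NeZero (p ^ d) := ⟨pow_ne_zero _ hp.out.ne_zero⟩
  haveI : IsGalois ℚ M := IsCyclotomicExtension.isGalois {p ^ (n + d + 1)} ℚ M
  haveI : IsGalois K M := IsGalois.tower_top_of_isGalois ℚ K M
  set θ := ξ ^ p ^ (n + 1) with hθ
  have hθp : IsPrimitiveRoot θ (p ^ d) := hξ.pow (pow_pos hp.out.pos _) (by
    rw [← pow_add]; congr 1; omega)
  have hξ0 : ξ ≠ 0 := hξ.ne_zero (NeZero.ne _)
  have hex : ∀ σ : M ≃ₐ[K] M, ∃ i : Fin (p ^ d), σ ξ = ξ * θ ^ (i : ℕ) := fun σ => by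
    have h : (σ ξ / ξ) ^ p ^ d = 1 := by
      rw [div_pow, ← map_pow, ← hζ, σ.commutes, div_self]
      rw [hζ]
      exact pow_ne_zero _ hξ0
    obtain ⟨i, hi, hie⟩ := hθp.eq_pow_of_pow_eq_one h
    exact ⟨⟨i, hi⟩, by rw [hie, mul_div_cancel₀ _ hξ0]⟩
  choose f hf using hex
  have hinj : Function.Injective f := fun σ τ h => by
    have h1 : σ ξ = τ ξ := by rw [hf σ, hf τ, h]
    have h2 : (σ.restrictScalars ℚ).toAlgHom = (τ.restrictScalars ℚ).toAlgHom :=
      (hξ.powerBasis ℚ).algHom_ext (by rw [IsPrimitiveRoot.powerBasis_gen]; exact h1)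
    exact AlgEquiv.ext fun x => AlgHom.congr_fun h2 x
  have hbij : Function.Bijective f := by
    refine (Fintype.bijective_iff_injective_and_card f).2 ⟨hinj, ?_⟩
    rw [Fintype.card_fin, ← Nat.card_eq_fintype_card, IsGalois.card_aut_eq_finrank,
      finrank_cyclo_level p hξ]
  exact ⟨(Equiv.ofBijective f hbij).symm, fun i => by
    rw [hf]
    congr 3
    exact (Equiv.ofBijective f hbij).apply_symm_apply i⟩

end FA.ExplicitLaw
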