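import Mathlib

/-!
# Norms of `1 + p ^ k ζ` from cyclotomic fields of prime power order

In the field of the roots of unity of order `p ^ n` the norm of `1 + p ^ k ζ ^ j` is congruent to
`1 + p ^ k` times the trace of `ζ ^ j` modulo `p ^ (2 n)`, as soon as `n + 2 ≤ 2 k`.
-/

set_option autoImplicit false
set_option linter.unusedSectionVars false
set_option linter.style.haveILetI false

noncomputable section

open Polynomial Finset
open scoped IntermediateField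

namespace FA.ExplicitLaw

/-- Repeated `p`-th powers of `1 + p ^ j z`. -/
theorem exists_one_add_pow_prime_pow {R : Type*} [CommRing R] (p : ℕ) {j : ℕ} (hj : 1 ≤ j)
    (z : R) (t : ℕ) : ∃ w : R, (1 + (p : R) ^ j * z) ^ p ^ t =
      1 + (p : R) ^ (j + t) * z + (p : R) ^ (2 * j + t - 1) * w := by
  induction t with
  | zero => exact ⟨0, by simp⟩
  | succ t ih =>
    obtain ⟨w, hw⟩ := ih
    set a := (p : R) ^ (j + t) * z + (p : R) ^ (2 * j + t - 1) * w with ha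
    obtain ⟨s, rfl⟩ : ∃ s, j = s + 1 := ⟨j - 1, by omega⟩
    have hda : a = (p : R) ^ (s + 1 + t) * (z + (p : R) ^ s * w) := by
      rw [ha, show 2 * (s + 1) + t - 1 = s + 1 + t + s by omega, pow_add _ (s + 1 + t) s]
      ring
    obtain ⟨r, hr⟩ : a ^ 2 ∣ (1 + a) ^ p - 1 - (p : R) * a := by
      have h := sq_dvd_add_pow_sub_sub a 1 p
      rw [sub_right_comm] at h
      simpa [add_comm, mul_comm, one_pow] using h
    refine ⟨w + (p : R) ^ t * (z + (p : R) ^ s * w) ^ 2 * r, ?_⟩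
    rw [pow_succ p t, pow_mul, hw, add_assoc, ← ha]
    have h1 : (1 + a) ^ p = 1 + (p : R) * a + a ^ 2 * r := by rw [← hr]; ring
    rw [h1, show 2 * (s + 1) + (t + 1) - 1 = 2 * (s + 1) + t by omega, hda]
    ring

theorem exists_one_add_pow_natCast {R : Type*} [CommRing R] (a : R) (n : ℕ) :
    ∃ w : R, (1 + a) ^ n = 1 + (n : R) * a + a ^ 2 * w := by
  obtain ⟨r, hr⟩ := sq_dvd_add_pow_sub_sub a 1 n
  refine ⟨r, ?_⟩
  rw [← hr]
  simp only [one_pow]
  ring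

variable (p : ℕ) [hp : Fact p.Prime]

section root

variable {F : Type*} [Field F] [NumberField F] {l : ℕ} [IsCyclotomicExtension {p ^ (l + 1)} ℚ F]
  {ω : F} (hω : IsPrimitiveRoot ω (p ^ (l + 1)))
include hω

theorem minpoly_root : minpoly ℚ ω = cyclotomic (p ^ (l + 1)) ℚ :=
  (hω.minpoly_eq_cyclotomic_of_irreducible (cyclotomic.irreducible_rat
    (pow_pos hp.out.pos _))).symm

theorem trace_root : Algebra.trace ℚ F ω = if l = 0 then -1 else 0 := by
  have hd : (cyclotomic (p ^ (l + 1)) ℚ).natDegree = p ^ l * (p - 1) := by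
    rw [natDegree_cyclotomic, Nat.totient_prime_pow_succ hp.out]
  have hpos : 0 < p ^ l * (p - 1) :=
    mul_pos (pow_pos hp.out.pos _) (by have := hp.out.two_le; omega)
  have h := PowerBasis.trace_gen_eq_nextCoeff_minpoly (hω.powerBasis ℚ)
  rw [IsPrimitiveRoot.powerBasis_gen, minpoly_root p hω] at h
  rw [h, nextCoeff_of_natDegree_pos (by rw [hd]; exact hpos), hd,
    cyclotomic_prime_pow_eq_geom_sum hp.out, finsetSum_coeff]
  simp_rw [← pow_mul, coeff_X_pow]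
  split_ifs with hl
  · subst hl
    have hmem : p - 2 ∈ range p := Finset.mem_range.2 (by have := hp.out.two_le; omega)
    rw [Finset.sum_eq_single (p - 2)]
    · rw [if_pos (by have := hp.out.two_le; simp; omega)]
    · intro b _ hb
      rw [if_neg]
      simp only [pow_zero, one_mul]
      omega
    · exact fun h => absurd hmem h
  · rw [Finset.sum_eq_zero, neg_zero]
    intro b _
    rw [if_neg]
    intro hb
    have hdvd : p ∣ p ^ l * (p - 1) - 1 := hb ▸ (dvd_pow_self p hl).mul_right b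
    have h2 : p ∣ p ^ l * (p - 1) := (dvd_pow_self p hl).mul_right _
    have h3 := Nat.dvd_sub h2 hdvd
    rw [Nat.sub_sub_self hpos, Nat.dvd_one] at h3
    exact hp.out.ne_one h3

theorem norm_one_add_mul_root {x : ℚ} (hx : x ≠ 0) :
    Algebra.norm ℚ (1 + algebraMap ℚ F x * ω) = ∑ i ∈ range p, (-x) ^ (p ^ l * i) := by
  set c : ℚ := -x⁻¹
  have hsplit : 1 + algebraMap ℚ F x * ω = algebraMap ℚ F (-x) * (algebraMap ℚ F c - ω) := by
    rw [mul_sub, ← map_mul, neg_mul_neg, mul_inv_cancel₀ hx, map_one, map_neg]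
    ring
  set pb := hω.powerBasis ℚ with hpb
  have hnorm : Algebra.norm ℚ (algebraMap ℚ F c - ω) = (cyclotomic (p ^ (l + 1)) ℚ).eval c := by
    rw [← minpoly_root p hω, show ω = pb.gen from rfl, ← charpoly_leftMulMatrix pb,
      Matrix.eval_charpoly, Algebra.norm_eq_matrix_det pb.basis, map_sub, AlgHom.commutes]
    rfl
  rw [hsplit, map_mul, Algebra.norm_algebraMap, hnorm,
    IsCyclotomicExtension.finrank (n := p ^ (l + 1)) F
      (cyclotomic.irreducible_rat (pow_pos hp.out.pos _)),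
    Nat.totient_prime_pow_succ hp.out, cyclotomic_prime_pow_eq_geom_sum hp.out, eval_finsetSum,
    Finset.mul_sum, ← Finset.sum_range_reflect]
  refine Finset.sum_congr rfl fun i hi => ?_
  rw [Finset.mem_range] at hi
  rw [eval_pow, eval_pow, eval_X, ← pow_mul]
  have hc : -x * c = 1 := by simp [c, hx]
  have he : p ^ l * (p - 1) = p ^ l * (p - 1 - i) + p ^ l * i := by
    rw [← mul_add]; congr 1; omega
  rw [he, pow_add, mul_comm ((-x) ^ (p ^ l * (p - 1 - i))), mul_assoc, ← mul_pow, hc, one_pow,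
    mul_one]

/-- The norm of `1 + p ^ k ω`. -/
theorem exists_norm_one_add_root (k : ℕ) :
    ∃ r : ℤ, Algebra.norm ℚ (1 + algebraMap ℚ F ((p : ℚ) ^ k) * ω) =
      1 + (p : ℚ) ^ (k * p ^ l) * (((-1 : ℤ) ^ p ^ l + (p : ℤ) ^ (k * p ^ l) * r : ℤ) : ℚ) := by
  obtain ⟨q, hq⟩ : ∃ q, p = q + 2 := ⟨p - 2, by have := hp.out.two_le; omega⟩
  rw [norm_one_add_mul_root p hω (pow_ne_zero _ (Nat.cast_ne_zero.2 hp.out.ne_zero))]
  refine ⟨(-1) ^ (p ^ l * 2) * ∑ i ∈ range q, ((-(p : ℤ) ^ k) ^ p ^ l) ^ i, ?_⟩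
  have key : ∀ y : ℚ, ∑ i ∈ range p, y ^ i = 1 + y + y ^ 2 * ∑ i ∈ range q, y ^ i := by
    intro y
    rw [show p = q + 2 from hq, Finset.sum_range_succ', Finset.sum_range_succ', Finset.mul_sum]
    simp only [pow_add, pow_zero, pow_one, zero_add]
    rw [Finset.sum_congr rfl (fun i _ => show y ^ i * y * y = y ^ 2 * y ^ i by ring)]
    ring
  simp_rw [pow_mul]
  rw [key]
  push_cast
  rw [neg_pow ((p : ℚ) ^ k) (p ^ l)]
  ring

end root

variable {n : ℕ} {K : Type*} [Field K] [NumberField K] [IsCyclotomicExtension {p ^ (n + 1)} ℚ K]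
  {ζ : K} (hζ : IsPrimitiveRoot ζ (p ^ (n + 1)))
include hζ

/-- **Norms to first order.** -/
theorem exists_norm_one_add_pow_zeta {k : ℕ} (hk : n + 3 ≤ 2 * k) (j : ℕ) :
    ∃ T r : ℤ, Algebra.trace ℚ K (ζ ^ j) = (p : ℚ) ^ n * T ∧
      Algebra.norm ℚ (1 + (p : K) ^ k * ζ ^ j) =
        1 + (p : ℚ) ^ k * ((p : ℚ) ^ n * T) + (p : ℚ) ^ (2 * (n + 1)) * r := by
  have hN : 0 < p ^ (n + 1) := pow_pos hp.out.pos _
  haveI : NeZero (p ^ (n + 1)) := ⟨hN.ne'⟩
  have hfin : Module.finrank ℚ K = p ^ n * (p - 1) := by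
    rw [IsCyclotomicExtension.finrank K (cyclotomic.irreducible_rat hN),
      Nat.totient_prime_pow_succ hp.out]
  obtain ⟨l, hl, hord⟩ := (Nat.dvd_prime_pow hp.out).1
    (orderOf_dvd_of_pow_eq_one (show (ζ ^ j) ^ p ^ (n + 1) = 1 by
      rw [← pow_mul, mul_comm, pow_mul, hζ.pow_eq_one, one_pow]))
  have hω : IsPrimitiveRoot (ζ ^ j) (p ^ l) := hord ▸ IsPrimitiveRoot.orderOf _
  rcases l with - | l
  · rw [pow_zero, IsPrimitiveRoot.one_right_iff] at hω
    obtain ⟨w, hw⟩ := exists_one_add_pow_prime_pow (R := ℤ) p (show 1 ≤ k by omega) 1 n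
    obtain ⟨w', hw'⟩ := exists_one_add_pow_natCast
      ((p : ℤ) ^ (k + n) + (p : ℤ) ^ (2 * k + n - 1) * w) (p - 1)
    obtain ⟨s, hs⟩ : ∃ s, k = s + 1 := ⟨k - 1, by omega⟩
    obtain ⟨d, hd⟩ : ∃ d, 2 * k + n - 1 = 2 * (n + 1) + d :=
      ⟨2 * k + n - 1 - 2 * (n + 1), by omega⟩
    obtain ⟨d', hd'⟩ : ∃ d', 2 * (k + n) = 2 * (n + 1) + d' :=
      ⟨2 * (k + n) - 2 * (n + 1), by omega⟩
    obtain ⟨d'', hd''⟩ : ∃ d'', 2 * k + n - 1 = k + n + d'' := ⟨s, by omega⟩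
    refine ⟨((p - 1 : ℕ) : ℤ), ((p - 1 : ℕ) : ℤ) * (p : ℤ) ^ d * w +
      (p : ℤ) ^ d' * (1 + (p : ℤ) ^ d'' * w) ^ 2 * w', ?_, ?_⟩
    · rw [hω, ← map_one (algebraMap ℚ K), Algebra.trace_algebraMap, hfin, nsmul_one]
      push_cast
      ring
    · rw [hω, mul_one, show (1 : K) + (p : K) ^ k = algebraMap ℚ K (1 + (p : ℚ) ^ k) by simp,
        Algebra.norm_algebraMap, hfin, pow_mul]
      have h : ((1 + (p : ℤ) ^ k) ^ p ^ n) ^ (p - 1) = 1 + (p : ℤ) ^ k * ((p : ℤ) ^ n *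
          ((p - 1 : ℕ) : ℤ)) + (p : ℤ) ^ (2 * (n + 1)) * (((p - 1 : ℕ) : ℤ) * (p : ℤ) ^ d * w +
          (p : ℤ) ^ d' * (1 + (p : ℤ) ^ d'' * w) ^ 2 * w') := by
        rw [show (1 : ℤ) + (p : ℤ) ^ k = 1 + (p : ℤ) ^ k * 1 by ring, hw, mul_one,
          show 1 + (p : ℤ) ^ (k + n) + (p : ℤ) ^ (2 * k + n - 1) * w =
            1 + ((p : ℤ) ^ (k + n) + (p : ℤ) ^ (2 * k + n - 1) * w) by ring, hw']
        have e1 : (p : ℤ) ^ (2 * (n + 1)) * (p : ℤ) ^ d = (p : ℤ) ^ (2 * k + n - 1) := by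
          rw [← pow_add, ← hd]
        have e2 : (p : ℤ) ^ (2 * (n + 1)) * (p : ℤ) ^ d' = ((p : ℤ) ^ (k + n)) ^ 2 := by
          rw [← pow_add, ← hd', ← pow_mul, mul_comm]
        have e3 : (p : ℤ) ^ (2 * k + n - 1) = (p : ℤ) ^ (k + n) * (p : ℤ) ^ d'' := by
          rw [← pow_add, ← hd'']
        linear_combination (((p - 1 : ℕ) : ℤ)) * (pow_add (p : ℤ) k n) -
          (((p - 1 : ℕ) : ℤ)) * w * e1 - (1 + (p : ℤ) ^ d'' * w) ^ 2 * w' * e2 +
          ((p : ℤ) ^ (2 * k + n - 1) * w ^ 2 * w' +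
            (p : ℤ) ^ (k + n) * (p : ℤ) ^ d'' * w ^ 2 * w' + 2 * (p : ℤ) ^ (k + n) * w * w') * e3
      exact_mod_cast h
  · haveI : NeZero (p ^ (l + 1)) := ⟨(pow_pos hp.out.pos _).ne'⟩
    set F := ℚ⟮ζ ^ j⟯
    haveI : IsCyclotomicExtension {p ^ (l + 1)} ℚ F :=
      hω.intermediateField_adjoin_isCyclotomicExtension ℚ
    set g : F := IntermediateField.AdjoinSimple.gen ℚ (ζ ^ j)
    have hgv : algebraMap F K g = ζ ^ j := IntermediateField.AdjoinSimple.algebraMap_gen ℚ _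
    have hg : IsPrimitiveRoot g (p ^ (l + 1)) :=
      IsPrimitiveRoot.of_map_of_injective (hgv.symm ▸ hω) (algebraMap F K).injective
    have hrel : Module.finrank F K = p ^ (n - l) := by
      have h := Module.finrank_mul_finrank ℚ F K
      rw [IsCyclotomicExtension.finrank (n := p ^ (l + 1)) F
          (cyclotomic.irreducible_rat (pow_pos hp.out.pos _)),
        Nat.totient_prime_pow_succ hp.out, hfin, show p ^ n = p ^ l * p ^ (n - l) by
          rw [← pow_add]; congr 1; omega] at h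
      exact Nat.eq_of_mul_eq_mul_left (mul_pos (pow_pos hp.out.pos _)
        (show 0 < p - 1 by have := hp.out.two_le; omega)) (h.trans (by ring))
    have htr : Algebra.trace ℚ K (ζ ^ j) = (p : ℚ) ^ (n - l) * if l = 0 then -1 else 0 := by
      rw [← hgv, ← Algebra.trace_trace (S := F), Algebra.trace_algebraMap, hrel, map_nsmul,
        trace_root p hg, nsmul_eq_mul, Nat.cast_pow]
    obtain ⟨r, hr⟩ := exists_norm_one_add_root p hg k
    have hnm : Algebra.norm ℚ (1 + (p : K) ^ k * ζ ^ j) =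
        (1 + (p : ℚ) ^ (k * p ^ l) *
          (((-1 : ℤ) ^ p ^ l + (p : ℤ) ^ (k * p ^ l) * r : ℤ) : ℚ)) ^ p ^ (n - l) := by
      rw [← hr, show 1 + (p : K) ^ k * ζ ^ j =
          algebraMap F K (1 + algebraMap ℚ F ((p : ℚ) ^ k) * g) by
            rw [map_add, map_one, map_mul, hgv, ← IsScalarTower.algebraMap_apply, map_pow,
              map_natCast],
        ← Algebra.norm_norm (S := F), Algebra.norm_algebraMap, hrel, map_pow]
    have hkl : 1 ≤ k * p ^ l := one_le_mul (by omega) (Nat.one_le_pow _ _ hp.out.pos)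
    obtain ⟨w, hw⟩ := exists_one_add_pow_prime_pow (R := ℤ) p hkl
      ((-1 : ℤ) ^ p ^ l + (p : ℤ) ^ (k * p ^ l) * r) (n - l)
    have hw' : Algebra.norm ℚ (1 + (p : K) ^ k * ζ ^ j) = ((1 + (p : ℤ) ^ (k * p ^ l + (n - l)) *
        ((-1 : ℤ) ^ p ^ l + (p : ℤ) ^ (k * p ^ l) * r) +
          (p : ℤ) ^ (2 * (k * p ^ l) + (n - l) - 1) * w : ℤ) : ℚ) := by
      rw [hnm, ← hw]; push_cast; ring
    rcases Nat.eq_zero_or_pos l with rfl | hl1
    · simp only [pow_zero, mul_one, pow_one, Nat.sub_zero] at hw'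
      obtain ⟨d₁, hd₁⟩ : ∃ d, k + n + k = 2 * (n + 1) + d :=
        ⟨k + n + k - 2 * (n + 1), by omega⟩
      obtain ⟨d₂, hd₂⟩ : ∃ d, 2 * k + n - 1 = 2 * (n + 1) + d :=
        ⟨2 * k + n - 1 - 2 * (n + 1), by omega⟩
      refine ⟨-1, (p : ℤ) ^ d₁ * r + (p : ℤ) ^ d₂ * w,
        by rw [htr, if_pos rfl, Nat.sub_zero]; push_cast; ring, ?_⟩
      rw [hw']
      push_cast
      rw [hd₂]
      have e1 : (p : ℚ) ^ (k + n) * (p : ℚ) ^ k = (p : ℚ) ^ (2 * (n + 1)) * (p : ℚ) ^ d₁ := by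
        rw [← pow_add, ← pow_add, hd₁]
      linear_combination (r : ℚ) * e1 + (w : ℚ) * (pow_add (p : ℚ) (2 * (n + 1)) d₂) -
        pow_add (p : ℚ) k n
    · have h1 : 2 * (n + 1) ≤ k * p ^ l + (n - l) := by
        have h2 : 2 ^ l ≤ p ^ l := Nat.pow_le_pow_left hp.out.two_le l
        obtain ⟨i, rfl⟩ : ∃ i, l = i + 1 := ⟨l - 1, by omega⟩
        have h3 : i + 1 ≤ 2 ^ i := Nat.lt_two_pow_self
        rw [pow_succ] at h2
        have h4 : k * (2 ^ i * 2) ≤ k * p ^ (i + 1) := Nat.mul_le_mul_left k h2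
        have h5 := Nat.mul_le_mul hk h3
        have h6 : i ≤ (n + 3) * i := Nat.le_mul_of_pos_left _ (by omega)
        rw [show k * (2 ^ i * 2) = 2 * k * 2 ^ i by ring] at h4
        rw [mul_add (n + 3) i 1, mul_one] at h5
        omega
      obtain ⟨d₁, hd₁⟩ : ∃ d, k * p ^ l + (n - l) = 2 * (n + 1) + d :=
        ⟨_, (Nat.add_sub_cancel' h1).symm⟩
      obtain ⟨d₂, hd₂⟩ : ∃ d, 2 * (k * p ^ l) + (n - l) - 1 = 2 * (n + 1) + d :=
        ⟨2 * (k * p ^ l) + (n - l) - 1 - 2 * (n + 1), by omega⟩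
      refine ⟨0, (p : ℤ) ^ d₁ * ((-1 : ℤ) ^ p ^ l + (p : ℤ) ^ (k * p ^ l) * r) + (p : ℤ) ^ d₂ * w,
        by rw [htr, if_neg hl1.ne']; simp, ?_⟩
      rw [hw', hd₁, hd₂, pow_add _ (2 * (n + 1)), pow_add _ (2 * (n + 1))]
      push_cast
      ring

end FA.ExplicitLaw
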