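import Fermat.Agent.ExplicitReciprocity.ZetaSymbol

/-!
# The logarithmic derivative form of the symbol deep down

For `K = ℚ(ζ)`, `ζ` of order `p ^ m`, at the prime `v` above `p`, and `ε` divisible by `p ^ k`
with `m + 2 ≤ 2 k`: `(1 + ε h(ζ), h(ζ)) = ζ ^ t` for
`t ≡ -(1 / p ^ m) Tr (ε ζ h'(ζ))` modulo `p ^ m`.
-/

set_option autoImplicit false
set_option linter.unusedSectionVars false
set_option linter.style.haveILetI false

noncomputable section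

open NumberField IsDedekindDomain Polynomial
open FA.HilbertN

namespace FA.ExplicitLaw

variable {p : ℕ} [hp : Fact p.Prime] {n : ℕ} {K : Type*} [Field K] [NumberField K]
  [hcyc : IsCyclotomicExtension {p ^ (n + 1)} ℚ K] {v : HeightOneSpectrum (𝓞 K)}
  (hv : (p : 𝓞 K) ∈ v.asIdeal)
include hv hcyc

variable (n) in
/-- The trace of an element divisible by `p ^ A` at `v` is divisible by `p ^ A`. -/
theorem norm_trace_le {A : ℕ} {x : K} (hx : Deep v p A x) :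
    ‖((Algebra.trace ℚ K x : ℚ) : ℚ_[p])‖ ≤ (p : ℝ) ^ (-(A : ℤ)) := by
  obtain ⟨c, d, hd, hcd⟩ := exists_intCast_mul_eq n hv hx
  have h : ((d : ℚ) * Algebra.trace ℚ K x) =
      (((p : ℤ) ^ A * Algebra.trace ℤ (𝓞 K) c : ℤ) : ℚ) := by
    rw [Int.cast_mul, Int.cast_pow, Int.cast_natCast, Algebra.coe_trace_int, ← smul_eq_mul,
      ← smul_eq_mul, ← map_smul, ← map_smul, Algebra.smul_def, Algebra.smul_def, map_intCast,
      map_pow, map_natCast, hcd]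
  have h' : ‖((d : ℤ) : ℚ_[p])‖ * ‖((Algebra.trace ℚ K x : ℚ) : ℚ_[p])‖ ≤
      (p : ℝ) ^ (-(A : ℤ)) := by
    rw [← norm_mul, show ((d : ℤ) : ℚ_[p]) * ((Algebra.trace ℚ K x : ℚ) : ℚ_[p]) =
      (((p : ℤ) ^ A * Algebra.trace ℤ (𝓞 K) c : ℤ) : ℚ_[p]) by
        exact_mod_cast congrArg (Rat.cast : ℚ → ℚ_[p]) h]
    exact (Padic.norm_int_le_pow_iff_dvd _ _).2 (dvd_mul_right _ _)
  have h1 : ‖((d : ℤ) : ℚ_[p])‖ = 1 :=
    le_antisymm (Padic.norm_int_le_one d)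
      (not_lt.1 fun h => hd ((Padic.norm_intCast_lt_one_iff).1 h))
  rwa [h1, one_mul] at h'

variable [HasEnoughRootsOfUnity K (p ^ (n + 1))] {ζ : K} (hζ : IsPrimitiveRoot ζ (p ^ (n + 1)))
  {k : ℕ} (hk : n + 3 ≤ 2 * k)
include hζ hk

omit hk in
theorem deep_zeta : Deep v p 0 ζ := by
  haveI : NeZero (p ^ (n + 1)) := ⟨pow_ne_zero _ hp.out.ne_zero⟩
  have h : ((hζ.toInteger : 𝓞 K) : K) = ζ := rfl
  rw [deep_zero_iff, ← h]
  exact v.valuation_le_one _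

/-- **The symbol with `ζ` from the trace.** -/
theorem pairing_zeta_of_trace {y : K} (hy : Deep v p k y) {t : ℤ}
    (ht : ‖(((t : ℚ) * (p : ℚ) ^ (n + 1) + Algebra.trace ℚ K y : ℚ) : ℚ_[p])‖ ≤
      (p : ℝ) ^ (-((2 * (n + 1) : ℕ) : ℤ))) :
    ((pairing v p (n + 1) (1 + y) ζ : Kˣ) : K) = ζ ^ t := by
  haveI : NeZero (p ^ (n + 1)) := ⟨pow_ne_zero _ hp.out.ne_zero⟩
  obtain ⟨c, d, hd, hcd⟩ := exists_intCast_mul_eq n hv hy
  set A := 2 * (n + 1) + 2 with hA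
  obtain ⟨d', e, hde⟩ : ∃ d' e : ℤ, d' * d = 1 + (p : ℤ) ^ A * e := by
    have hco : IsCoprime d ((p : ℤ) ^ A) :=
      (((Nat.prime_iff_prime_int.1 hp.out).coprime_iff_not_dvd).2 hd).symm.pow_right
    obtain ⟨a, b, hab⟩ := hco
    exact ⟨a, -b, by linarith⟩
  obtain ⟨g, hg⟩ : ∃ g : ℤ[X], (c : K) = aeval ζ g := by
    obtain ⟨g, hg⟩ := hζ.integralPowerBasis.exists_eq_aeval' c
    refine ⟨g, ?_⟩
    rw [hg, IsPrimitiveRoot.integralPowerBasis_gen,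
      show (((aeval hζ.toInteger g : 𝓞 K)) : K) =
        algebraMap (𝓞 K) K (aeval hζ.toInteger g) from rfl, ← aeval_algebraMap_apply]
    rfl
  set y' := (p : K) ^ k * aeval ζ (C d' * g) with hy'
  have hsub : y' - y = (p : K) ^ A * ((e : K) * y) := by
    rw [hy', map_mul, aeval_C, algebraMap_int_eq, eq_intCast, ← hg, mul_left_comm, ← hcd]
    have h : (d' : K) * d = 1 + (p : K) ^ A * e := by exact_mod_cast congrArg (Int.cast : ℤ → K) hde
    linear_combination y * h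
  have hdeep : Deep v p A (y' - y) := by
    rw [hsub]
    exact (deep_natCast_pow A).mul_right ((deep_intCast e).mul_left (hy.mono (Nat.zero_le _)))
  obtain ⟨t', ht', ht''⟩ := exists_trace_and_pairing hv hζ hk (C d' * g)
  have hk0 : 0 < k := by omega
  have hy1 : v.valuation K (1 + y) = 1 :=
    valuation_eq_one_of_deep hv hk0 (by rwa [add_sub_cancel_left])
  rw [← pairing_congr_left hv hy1 (x' := 1 + y') (by
    rw [add_sub_add_left_eq_sub]; exact hdeep.mono (by omega)), ht'']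
  have hdvd : ((p : ℤ) ^ (2 * (n + 1))) ∣ (p : ℤ) ^ (n + 1) * (t' - t) := by
    rw [← Padic.norm_int_le_pow_iff_dvd]
    have h : (((p : ℤ) ^ (n + 1) * (t' - t) : ℤ) : ℚ_[p]) =
        -(((t : ℚ) * (p : ℚ) ^ (n + 1) + Algebra.trace ℚ K y : ℚ) : ℚ_[p]) -
          ((Algebra.trace ℚ K (y' - y) : ℚ) : ℚ_[p]) := by
      rw [map_sub, ht']
      push_cast
      ring
    rw [h, sub_eq_add_neg]
    refine (Padic.nonarchimedean _ _).trans (max_le (by rwa [norm_neg]) ?_)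
    rw [norm_neg]
    refine (norm_trace_le n hv hdeep).trans (zpow_le_zpow_right₀ (mod_cast hp.out.one_le) ?_)
    omega
  rw [two_mul, pow_add] at hdvd
  have hdvd' := (mul_dvd_mul_iff_left (pow_ne_zero _ (Int.natCast_ne_zero.2 hp.out.ne_zero))).1 hdvd
  have hζ0 : ζ ≠ 0 := hζ.ne_zero (NeZero.ne _)
  rw [← div_eq_one_iff_eq (zpow_ne_zero _ hζ0), ← zpow_sub₀ hζ0, hζ.zpow_eq_one_iff_dvd]
  exact_mod_cast hdvd'

/-- **The symbol is the logarithmic derivative**, deep above `p`. -/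
theorem pairing_aeval_of_trace (h : ℤ[X]) (hh : aeval ζ h ≠ 0) {ε : K} (hε : Deep v p k ε)
    {t : ℤ}
    (ht : ‖(((t : ℚ) * (p : ℚ) ^ (n + 1) +
      Algebra.trace ℚ K (ε * (ζ * aeval ζ (derivative h))) : ℚ) : ℚ_[p])‖ ≤
        (p : ℝ) ^ (-((2 * (n + 1) : ℕ) : ℤ))) :
    ((pairing v p (n + 1) (1 + ε * aeval ζ h) (aeval ζ h) : Kˣ) : K) = ζ ^ t := by
  rw [pairing_aeval hv (by omega : n + 1 + 2 ≤ 2 * k) (deep_zeta hv hζ)
    (hζ.ne_zero (pow_ne_zero _ hp.out.ne_zero)) h hε hh]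
  exact pairing_zeta_of_trace hv hζ hk
    (hε.mul_right ((deep_zeta hv hζ).mul_left (deep_aeval (deep_zeta hv hζ) _))) ht

/-- The exponent exists. -/
theorem exists_trace_exponent {y : K} (hy : Deep v p k y) :
    ∃ t : ℤ, ‖(((t : ℚ) * (p : ℚ) ^ (n + 1) + Algebra.trace ℚ K y : ℚ) : ℚ_[p])‖ ≤
      (p : ℝ) ^ (-((2 * (n + 1) : ℕ) : ℤ)) := by
  obtain ⟨c, d, hd, hcd⟩ := exists_intCast_mul_eq n hv hy
  haveI : NeZero (p ^ (n + 1)) := ⟨pow_ne_zero _ hp.out.ne_zero⟩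
  obtain ⟨g, hg⟩ := hζ.integralPowerBasis.exists_eq_aeval' c
  obtain ⟨t', ht', -⟩ := exists_trace_and_pairing hv hζ hk g
  have hcg : (c : K) = aeval ζ g := by
    rw [hg, IsPrimitiveRoot.integralPowerBasis_gen,
      show (((aeval hζ.toInteger g : 𝓞 K)) : K) =
        algebraMap (𝓞 K) K (aeval hζ.toInteger g) from rfl, ← aeval_algebraMap_apply]
    rfl
  rw [← hcg, ← hcd] at ht'
  have htr : (d : ℚ) * Algebra.trace ℚ K y = -((p : ℚ) ^ (n + 1) * t') := by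
    rw [← ht', ← smul_eq_mul, ← map_smul, Algebra.smul_def, map_intCast]
  obtain ⟨a, b, hab⟩ : ∃ a b : ℤ, a * d + b * (p : ℤ) ^ (n + 1) = 1 :=
    ((((Nat.prime_iff_prime_int.1 hp.out).coprime_iff_not_dvd).2 hd).symm.pow_right :
      IsCoprime d ((p : ℤ) ^ (n + 1)))
  refine ⟨a * t', ?_⟩
  have hab' : (a : ℚ) * d + b * (p : ℚ) ^ (n + 1) = 1 := by exact_mod_cast hab
  have h : ((a * t' : ℤ) : ℚ) * (p : ℚ) ^ (n + 1) + Algebra.trace ℚ K y =
      (b : ℚ) * ((p : ℚ) ^ (n + 1) * Algebra.trace ℚ K y) := by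
    push_cast
    linear_combination (a : ℚ) * htr - Algebra.trace ℚ K y * hab'
  rw [h, Rat.cast_mul, Rat.cast_intCast, norm_mul]
  refine (mul_le_of_le_one_left (norm_nonneg _) (Padic.norm_int_le_one b)).trans ?_
  have hdiv : ‖((Algebra.trace ℚ K y : ℚ) : ℚ_[p])‖ ≤ (p : ℝ) ^ (-((n + 1 : ℕ) : ℤ)) := by
    have h1 : ‖((d : ℤ) : ℚ_[p])‖ = 1 :=
      le_antisymm (Padic.norm_int_le_one d)
        (not_lt.1 fun h => hd ((Padic.norm_intCast_lt_one_iff).1 h))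
    have h2 : ((d : ℤ) : ℚ_[p]) * ((Algebra.trace ℚ K y : ℚ) : ℚ_[p]) =
        ((-((p : ℤ) ^ (n + 1) * t') : ℤ) : ℚ_[p]) := by
      exact_mod_cast congrArg (Rat.cast : ℚ → ℚ_[p]) htr
    rw [← one_mul ‖((Algebra.trace ℚ K y : ℚ) : ℚ_[p])‖, ← h1, ← norm_mul, h2]
    exact (Padic.norm_int_le_pow_iff_dvd _ _).2 (dvd_neg.2 (dvd_mul_right _ _))
  rw [Rat.cast_mul, norm_mul, Rat.cast_pow, Rat.cast_natCast, norm_pow, Padic.norm_p]
  refine (mul_le_mul_of_nonneg_left hdiv (by positivity)).trans_eq ?_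
  rw [inv_pow, ← zpow_natCast, ← zpow_neg, ← zpow_add₀ (Nat.cast_ne_zero.2 hp.out.ne_zero)]
  congr 1
  push_cast
  ring

end FA.ExplicitLaw
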