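import Fermat.Agent.ExplicitReciprocity.Borderline

/-!
# The symbol and the automorphisms

An automorphism of `ℚ (μ_q)` carries the residue symbols to each other, so by the law of
reciprocity it commutes with the symbol at `v` on the elements prime to `v`.
-/

set_option autoImplicit false
set_option linter.unusedSectionVars false
set_option linter.style.haveILetI false

noncomputable section

open NumberField IsDedekindDomain
open FA.HilbertN FA.ArtinRec
open scoped Pointwise Classical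

namespace FA.ExplicitLaw

section residue

variable {K : Type*} [Field K] [NumberField K] (m : ℕ) [NeZero m] [HasEnoughRootsOfUnity K m]
  (g : K ≃ₐ[ℚ] K)

omit [NeZero m] [HasEnoughRootsOfUnity K m] in
theorem smul_natCast_int (c : ℕ) : g • (c : 𝓞 K) = c :=
  map_natCast (MulSemiringAction.toRingHom (K ≃ₐ[ℚ] K) (𝓞 K) g) c

omit [NeZero m] [HasEnoughRootsOfUnity K m] in
theorem mem_galPrime_iff {w : HeightOneSpectrum (𝓞 K)} {x : 𝓞 K} :
    g • x ∈ (galPrime g w).asIdeal ↔ x ∈ w.asIdeal :=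
  Ideal.smul_mem_pointwise_smul_iff

omit [NeZero m] [HasEnoughRootsOfUnity K m] in
theorem natCast_mem_galPrime_iff {w : HeightOneSpectrum (𝓞 K)} {c : ℕ} :
    (c : 𝓞 K) ∈ (galPrime g w).asIdeal ↔ (c : 𝓞 K) ∈ w.asIdeal := by
  conv_lhs => rw [← smul_natCast_int g c]
  exact mem_galPrime_iff g

omit [NeZero m] [HasEnoughRootsOfUnity K m] in
theorem absNorm_galPrime_eq (w : HeightOneSpectrum (𝓞 K)) :
    Ideal.absNorm (galPrime g w).asIdeal = Ideal.absNorm w.asIdeal := by
  simp only [Ideal.absNorm_apply, Submodule.cardQuot_apply]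
  exact Nat.card_congr (Ideal.quotientEquiv w.asIdeal (galPrime g w).asIdeal
    (MulSemiringAction.toRingEquiv (K ≃ₐ[ℚ] K) (𝓞 K) g) rfl).toEquiv.symm

theorem rootInt_restrict (ξ : rootsOfUnity m K) :
    rootInt m (restrictRootsOfUnity g m ξ) = g • rootInt m ξ := RingOfIntegers.ext rfl

variable {m}

theorem residueSymbol_galPrime {w : HeightOneSpectrum (𝓞 K)} (hw : (m : 𝓞 K) ∉ w.asIdeal)
    {x : 𝓞 K} (hx : x ∉ w.asIdeal) :
    residueSymbol m (galPrime g w) (g • x) =
      restrictRootsOfUnity g m (residueSymbol m w x) := by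
  refine residueSymbol_eq m (fun h => hw ((natCast_mem_galPrime_iff g).1 h))
    (fun h => hx ((mem_galPrime_iff g).1 h)) ?_
  rw [absNorm_galPrime_eq, rootInt_restrict, ← smul_pow', ← smul_sub]
  exact (mem_galPrime_iff g).2 (residueSymbol_spec m hw hx)

/-- The residue symbols are carried to each other. -/
theorem residueProd_galPrime {x b : 𝓞 K} (hb : b ≠ 0) (hgb : g • b ≠ 0)
    (hco : ∀ w : HeightOneSpectrum (𝓞 K), (m : 𝓞 K) ∉ w.asIdeal →
      x ∉ w.asIdeal ∨ b ∉ w.asIdeal) :
    residueProd m (g • x) (intU (g • b) hgb) =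
      restrictRootsOfUnity g m (residueProd m x (intU b hb)) := by
  have hbij : Function.Bijective (galPrime (K := ℚ) (L := K) g) :=
    Function.bijective_iff_has_inverse.2 ⟨galPrime g⁻¹,
      fun w => by rw [← galPrime_mul, inv_mul_cancel, galPrime_one],
      fun w => by rw [← galPrime_mul, mul_inv_cancel, galPrime_one]⟩
  rw [residueProd, residueProd, MonoidHom.map_finprod
    (f := fun w : HeightOneSpectrum (𝓞 K) =>
      if (m : 𝓞 K) ∈ w.asIdeal then 1 else residueSymbol m w x ^ ord w (intU b hb))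
    _ (residueProd_finite_support m x (intU b hb))]
  refine (finprod_eq_of_bijective (galPrime g) hbij fun w => ?_).symm
  rw [natCast_mem_galPrime_iff]
  split_ifs with hw
  · rw [map_one]
  have hord : ord (galPrime g w) (intU (g • b) hgb) = ord w (intU b hb) := by
    rw [← ord_galU g w (intU b hb)]
    exact congrArg _ (Units.ext rfl)
  rw [hord, map_zpow]
  rcases hco w hw with h | h
  · rw [residueSymbol_galPrime g hw h]
  · rw [(ord_intU_eq_zero_iff w hb).2 h, zpow_zero, zpow_zero]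

end residue

variable {p : ℕ} [hp : Fact p.Prime] {n : ℕ} {K : Type*} [Field K] [NumberField K]
  [hcyc : IsCyclotomicExtension {p ^ (n + 1)} ℚ K] [HasEnoughRootsOfUnity K (p ^ (n + 1))]
  {v : HeightOneSpectrum (𝓞 K)} (hv : (p : 𝓞 K) ∈ v.asIdeal) (hq : 2 < p ^ (n + 1))
  (g : K ≃ₐ[ℚ] K)
include hv hcyc

variable (n) in
omit [HasEnoughRootsOfUnity K (p ^ (n + 1))] in
theorem galPrime_wild : galPrime g v = v :=
  eq_of_natCast_mem_cyclo n hv ((natCast_mem_galPrime_iff g).2 hv)

variable (n) in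
omit [HasEnoughRootsOfUnity K (p ^ (n + 1))] in
theorem smul_mem_pow_iff {k : ℕ} {x : 𝓞 K} : g • x ∈ v.asIdeal ^ k ↔ x ∈ v.asIdeal ^ k := by
  have h : g • v.asIdeal = v.asIdeal :=
    congrArg HeightOneSpectrum.asIdeal (galPrime_wild n hv g)
  conv_lhs => rw [← h, ← smul_pow']
  exact Ideal.smul_mem_pointwise_smul_iff

variable (n) in
omit [HasEnoughRootsOfUnity K (p ^ (n + 1))] in
theorem smul_notMem_wild {x : 𝓞 K} (hx : x ∉ v.asIdeal) : g • x ∉ v.asIdeal := fun h =>
  hx (by
    have := (smul_mem_pow_iff n hv g (k := 1)).1 (by rwa [pow_one])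
    rwa [pow_one] at this)

include hq

/-- **Equivariance for coprime elements.** -/
theorem hilbertSymbol_galois_coprime {α β : 𝓞 K} (hα : α ≠ 0) (hβ : β ≠ 0) (hgα : g • α ≠ 0)
    (hgβ : g • β ≠ 0)
    (hco : ∀ w : HeightOneSpectrum (𝓞 K), w ≠ v → α ∉ w.asIdeal ∨ β ∉ w.asIdeal) :
    hilbertSymbol (p ^ (n + 1)) v (intU (g • α) hgα) (intU (g • β) hgβ) =
      restrictRootsOfUnity g (p ^ (n + 1))
        (hilbertSymbol (p ^ (n + 1)) v (intU α hα) (intU β hβ)) := by
  have hne : ∀ {w : HeightOneSpectrum (𝓞 K)}, ((p ^ (n + 1) : ℕ) : 𝓞 K) ∉ w.asIdeal → w ≠ v :=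
    fun {w} hw e => hw (e ▸ (natCast_pow_mem_iff v).2 hv)
  have hco' : ∀ w : HeightOneSpectrum (𝓞 K), w ≠ v →
      g • α ∉ w.asIdeal ∨ g • β ∉ w.asIdeal := fun w hw => by
    have e : galPrime g (galPrime g⁻¹ w) = w := by
      rw [← galPrime_mul, mul_inv_cancel, galPrime_one]
    rw [← e, mem_galPrime_iff, mem_galPrime_iff]
    exact hco _ fun h => hw (by rw [← e, h, galPrime_wild n hv g])
  rw [← residueProd_reciprocity_cyclo hv hq hgα hgβ hco',
    ← residueProd_reciprocity_cyclo hv hq hα hβ hco, map_mul, map_inv,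
    residueProd_galPrime g hβ hgβ fun w hw => hco w (hne hw),
    residueProd_galPrime g hα hgα fun w hw => (hco w (hne hw)).symm]

/-- **Equivariance on the elements prime to `v`.** -/
theorem pairing_galois {α β : 𝓞 K} (hα : α ∉ v.asIdeal) (hβ : β ∉ v.asIdeal) :
    pairing v p (n + 1) ((g • α : 𝓞 K) : K) ((g • β : 𝓞 K) : K) =
      restrictRootsOfUnity g (p ^ (n + 1)) (pairing v p (n + 1) (α : K) (β : K)) := by
  set N := powBound p n + 1 with hN
  have hcop : IsCoprime (v.asIdeal ^ N) (Ideal.span {α}) := by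
    refine IsCoprime.pow_left (Ideal.isCoprime_iff_sup_eq.2 (v.isMaximal.1.2 _
      (lt_of_le_of_ne le_sup_left fun e => hα ?_)))
    rw [e]
    exact Ideal.mem_sup_right (Ideal.mem_span_singleton_self α)
  obtain ⟨u, hu, s, hs, hus⟩ := Ideal.isCoprime_iff_exists.1 hcop
  set β' := β * s + u with hβ'
  have hd : β' - β ∈ v.asIdeal ^ N := by
    rw [hβ', show β * s + u - β = u - β * u by linear_combination β * hus]
    exact sub_mem hu ((v.asIdeal ^ N).mul_mem_left _ hu)
  have hd1 : β' - 1 ∈ Ideal.span {α} := by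
    rw [hβ', show β * s + u - 1 = β * s - s by linear_combination hus]
    exact sub_mem (Ideal.mul_mem_left _ _ hs) hs
  have hβ'v : β' ∉ v.asIdeal := fun h => hβ (by
    have := sub_mem h (Ideal.pow_le_self (by omega : N ≠ 0) hd)
    simpa using this)
  have hco : ∀ w : HeightOneSpectrum (𝓞 K), w ≠ v → α ∉ w.asIdeal ∨ β' ∉ w.asIdeal := fun w _ => by
    refine or_iff_not_imp_left.2 fun h hb => w.isPrime.ne_top ((Ideal.eq_top_iff_one _).2 ?_)
    have h1 := (Ideal.span_singleton_le_iff_mem _).2 (not_not.1 h) hd1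
    simpa using sub_mem hb h1
  have hne : ∀ {x : 𝓞 K}, x ∉ v.asIdeal → x ≠ 0 := fun hx h => hx (h ▸ v.asIdeal.zero_mem)
  have hunit : ∀ {x : 𝓞 K}, x ∉ v.asIdeal → v.valuation K (x : K) = 1 := fun {x} hx => by
    rw [show v.valuation K (x : K) = v.intValuation x from v.valuation_of_algebraMap x,
      v.intValuation_eq_one_iff_mem_primeCompl]
    exact hx
  have hcongr : ∀ {x y y' : 𝓞 K}, y ∉ v.asIdeal → y' - y ∈ v.asIdeal ^ N →
      pairing v p (n + 1) (x : K) (y' : K) = pairing v p (n + 1) (x : K) (y : K) := by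
    intro x y y' hy hd
    rw [pairing_symm, pairing_symm n (y : K),
      pairing_congr_lvl n hv (by omega : 1 ≤ N) (by omega : powBound p n < N + 0) (hunit hy)
        (by simpa using (lvl_coe_iff (K := K)).2 hd)
        ((lvl_coe x).sub (by simpa using lvl_intCast (v := v) (1 : ℤ)))]
  have hgd : g • β' - g • β ∈ v.asIdeal ^ N := by
    rw [← smul_sub]
    exact (smul_mem_pow_iff n hv g).2 hd
  rw [← hcongr hβ hd, ← hcongr (smul_notMem_wild n hv g hβ) hgd,
    pairing_eq p (n + 1) (RingOfIntegers.coe_ne_zero_iff.2 (hne (smul_notMem_wild n hv g hα)))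
      (RingOfIntegers.coe_ne_zero_iff.2 (hne (smul_notMem_wild n hv g hβ'v))),
    pairing_eq p (n + 1) (RingOfIntegers.coe_ne_zero_iff.2 (hne hα))
      (RingOfIntegers.coe_ne_zero_iff.2 (hne hβ'v))]
  exact hilbertSymbol_galois_coprime hv hq g (hne hα) (hne hβ'v)
    (hne (smul_notMem_wild n hv g hα)) (hne (smul_notMem_wild n hv g hβ'v)) hco

end FA.ExplicitLaw
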