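import Fermat.Agent.ExplicitReciprocity.Supplements

/-!
# The symbol on the filtration of the principal units

At the prime `v` above `p` of `ℚ (μ_q)`, `q = p ^ (n + 1)`, the elements congruent to one modulo
`v ^ k` are local `q`-th powers as soon as `k > b = (n + 1) p ^ n (p - 1) + p ^ n`, and by the
relation of Steinberg the symbol of `U_i` with `U_j` is trivial for `i + j > b`.
-/

set_option autoImplicit false
set_option linter.unusedSectionVars false
set_option linter.style.haveILetI false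

noncomputable section

open NumberField IsDedekindDomain Finset WithZero
open FA.HilbertN
open FA.HasseCyclic (nearOne mem_nearOne)
open scoped Classical

namespace FA.ExplicitLaw

/-- `x` is divisible by `v ^ k`. -/
def Lvl {K : Type*} [Field K] [NumberField K] (v : HeightOneSpectrum (𝓞 K)) (k : ℕ) (x : K) :
    Prop :=
  v.valuation K x ≤ exp (-(k : ℤ))

/-- The degree of `ℚ (μ_(p ^ (n + 1)))`, the order of `p` at `v`. -/
abbrev ramExp (p n : ℕ) : ℕ := p ^ n * (p - 1)

/-- Beyond this level the principal units are `q`-th powers. -/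
abbrev powBound (p n : ℕ) : ℕ := (n + 1) * ramExp p n + p ^ n

section filtration

variable {K : Type*} [Field K] [NumberField K] {v : HeightOneSpectrum (𝓞 K)}

theorem lvl_zero_iff {x : K} : Lvl v 0 x ↔ v.valuation K x ≤ 1 := by simp [Lvl]

theorem lvl_zero_right (k : ℕ) : Lvl v k (0 : K) := by simp [Lvl]

theorem lvl_intCast (c : ℤ) : Lvl v 0 (c : K) := lvl_zero_iff.2 (valuation_intCast_le c)

theorem lvl_coe (c : 𝓞 K) : Lvl v 0 (c : K) := lvl_zero_iff.2 (v.valuation_le_one c)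

theorem lvl_coe_iff {k : ℕ} {c : 𝓞 K} : Lvl v k (c : K) ↔ c ∈ v.asIdeal ^ k := by
  rw [Lvl, show v.valuation K (c : K) = v.intValuation c from v.valuation_of_algebraMap c,
    v.intValuation_le_pow_iff_mem]

theorem Lvl.mono {i j : ℕ} {x : K} (h : Lvl v j x) (hij : i ≤ j) : Lvl v i x :=
  h.trans (exp_le_exp.2 (by omega))

theorem Lvl.add {k : ℕ} {x y : K} (hx : Lvl v k x) (hy : Lvl v k y) : Lvl v k (x + y) :=
  Valuation.map_add_le _ hx hy

theorem Lvl.neg {k : ℕ} {x : K} (hx : Lvl v k x) : Lvl v k (-x) := by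
  rwa [Lvl, Valuation.map_neg]

theorem Lvl.sub {k : ℕ} {x y : K} (hx : Lvl v k x) (hy : Lvl v k y) : Lvl v k (x - y) := by
  rw [sub_eq_add_neg]
  exact hx.add hy.neg

theorem Lvl.mul {i j : ℕ} {x y : K} (hx : Lvl v i x) (hy : Lvl v j y) :
    Lvl v (i + j) (x * y) := by
  rw [Lvl, map_mul, Nat.cast_add, neg_add, exp_add]
  exact mul_le_mul' hx hy

theorem Lvl.pow {i : ℕ} {x : K} (hx : Lvl v i x) : ∀ m : ℕ, Lvl v (m * i) (x ^ m)
  | 0 => by simp [Lvl]
  | m + 1 => by
    rw [pow_succ, Nat.succ_mul]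
    exact (hx.pow m).mul hx

theorem Lvl.sum {ι : Type*} {k : ℕ} {s : Finset ι} {f : ι → K}
    (h : ∀ i ∈ s, Lvl v k (f i)) : Lvl v k (∑ i ∈ s, f i) :=
  Valuation.map_sum_le _ h

theorem valuation_eq_one_of_lvl {k : ℕ} (hk : 1 ≤ k) {x : K} (hx : Lvl v k (x - 1)) :
    v.valuation K x = 1 := by
  obtain ⟨j, rfl⟩ : ∃ j, k = j + 1 := ⟨k - 1, by omega⟩
  exact FA.HasseCyclic.valuation_eq_one_of_near hx

theorem ne_zero_of_lvl {k : ℕ} (hk : 1 ≤ k) {x : K} (hx : Lvl v k (x - 1)) : x ≠ 0 :=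
  fun h => by simpa [h] using valuation_eq_one_of_lvl hk hx

theorem Lvl.div {k : ℕ} {x y : K} (hx : Lvl v k x) (hy : v.valuation K y = 1) :
    Lvl v k (x / y) := by
  rwa [Lvl, map_div₀, hy, div_one]

/-- Near ones multiply. -/
theorem Lvl.mul_sub_one {k : ℕ} {x y : K} (hx : Lvl v k (x - 1)) (hy : Lvl v k (y - 1)) :
    Lvl v k (x * y - 1) := by
  rw [show x * y - 1 = (x - 1) + (y - 1) + (x - 1) * (y - 1) by ring]
  exact (hx.add hy).add ((hx.mul hy).mono (Nat.le_add_left _ _))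

end filtration

/-- The binomial theorem for a prime exponent. -/
theorem exists_one_add_pow_prime {R : Type*} [CommRing R] {p : ℕ} (hp : p.Prime) (z : R) :
    ∃ w : R, (1 + z) ^ p = 1 + (p : R) * z + z ^ p + (p : R) * z ^ 2 * w := by
  obtain ⟨m, rfl⟩ : ∃ m, p = m + 2 := ⟨p - 2, by have := hp.two_le; omega⟩
  refine ⟨∑ i ∈ range m, z ^ i * (((m + 2).choose (i + 2) / (m + 2) : ℕ) : R), ?_⟩
  rw [Finset.mul_sum, add_comm 1 z, add_pow, Finset.sum_range_succ, Finset.sum_range_succ',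
    Finset.sum_range_succ']
  simp only [one_pow, mul_one, pow_zero, one_mul, Nat.choose_zero_right, Nat.choose_self,
    Nat.cast_one, zero_add, pow_one, Nat.choose_one_right]
  have h : ∀ i ∈ range m, z ^ (i + 1 + 1) * (((m + 2).choose (i + 1 + 1) : ℕ) : R) =
      ((m + 2 : ℕ) : R) * z ^ 2 * (z ^ i * (((m + 2).choose (i + 2) / (m + 2) : ℕ) : R)) := by
    intro i hi
    rw [Finset.mem_range] at hi
    conv_lhs => rw [← Nat.mul_div_cancel' (hp.dvd_choose_self (by omega : i + 1 + 1 ≠ 0)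
      (by omega : i + 1 + 1 < m + 2))]
    push_cast
    ring
  rw [Finset.sum_congr rfl h]
  push_cast
  ring

variable {p : ℕ} [hp : Fact p.Prime] {n : ℕ} {K : Type*} [Field K] [NumberField K]
  [hcyc : IsCyclotomicExtension {p ^ (n + 1)} ℚ K] [HasEnoughRootsOfUnity K (p ^ (n + 1))]
  {v : HeightOneSpectrum (𝓞 K)} (hv : (p : 𝓞 K) ∈ v.asIdeal)
include hv hcyc

omit [HasEnoughRootsOfUnity K (p ^ (n + 1))] in
theorem asIdeal_eq_span_sub_one {μ : K} (hμ : IsPrimitiveRoot μ (p ^ (n + 1))) :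
    v.asIdeal = Ideal.span {hμ.toInteger - 1} := by
  haveI : NeZero (p ^ (n + 1)) := ⟨pow_ne_zero _ hp.out.ne_zero⟩
  haveI := v.isPrime
  haveI hmax : (Ideal.span {(p : ℤ)}).IsMaximal :=
    PrincipalIdealRing.isMaximal_of_irreducible (Nat.prime_iff_prime_int.1 hp.out).irreducible
  haveI : v.asIdeal.LiesOver (Ideal.span {(p : ℤ)}) := ⟨hmax.eq_of_le
    (Ideal.IsPrime.under ℤ v.asIdeal).ne_top ((Ideal.span_singleton_le_iff_mem _).2 (by
      rw [Ideal.mem_comap, map_natCast]; exact hv))⟩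
  exact IsCyclotomicExtension.Rat.eq_span_zeta_sub_one_of_liesOver p n K hμ v.asIdeal

omit [HasEnoughRootsOfUnity K (p ^ (n + 1))] in
theorem valuation_root_sub_one {μ : K} (hμ : IsPrimitiveRoot μ (p ^ (n + 1))) :
    v.valuation K (μ - 1) = exp (-1 : ℤ) := by
  have hne : hμ.toInteger - 1 ≠ 0 := fun h => v.ne_bot (by
    rw [asIdeal_eq_span_sub_one hv hμ, h, Ideal.span_singleton_eq_bot.2 rfl])
  rw [show μ - 1 = algebraMap (𝓞 K) K (hμ.toInteger - 1) by rw [map_sub, map_one]; rfl,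
    HeightOneSpectrum.valuation_of_algebraMap,
    v.intValuation_singleton hne (asIdeal_eq_span_sub_one hv hμ)]

variable (n)

/-- The order of `p`. -/
theorem valuation_prime_eq : v.valuation K (p : K) = exp (-(ramExp p n : ℤ)) := by
  obtain ⟨ζ, hζ⟩ := HasEnoughRootsOfUnity.exists_primitiveRoot K (p ^ (n + 1))
  have hcop : ∀ a ∈ (range (p ^ (n + 1))).filter (fun a => ¬ p ∣ a),
      v.valuation K (1 - ζ ^ a) = exp (-1 : ℤ) := fun a ha => by
    rw [Valuation.map_sub_swap]
    exact valuation_root_sub_one hv (hζ.pow_of_coprime a (Nat.Coprime.pow_right _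
      (hp.out.coprime_iff_not_dvd.2 (Finset.mem_filter.1 ha).2).symm))
  rw [← prod_zeta_pow_sub_one hζ, map_prod, Finset.prod_congr rfl hcop, Finset.prod_const,
    show (range (p ^ (n + 1))).filter (fun a => ¬ p ∣ a) =
      (range (p ^ (n + 1))).filter (fun a => (p ^ (n + 1)).Coprime a) from
      Finset.filter_congr fun a _ => by
        rw [Nat.coprime_pow_left_iff n.succ_pos, hp.out.coprime_iff_not_dvd],
    ← Nat.totient_eq_card_coprime, Nat.totient_prime_pow_succ hp.out, ← exp_nsmul]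
  congr 1
  simp

theorem lvl_prime : Lvl v (ramExp p n) (p : K) := (valuation_prime_eq n hv).le

theorem lvl_div_prime {k : ℕ} (hk : ramExp p n ≤ k) {x : K} (hx : Lvl v k x) :
    Lvl v (k - ramExp p n) (x / p) := by
  rw [Lvl, map_div₀, valuation_prime_eq n hv, div_le_iff₀ exp_pos, ← exp_add]
  exact hx.trans (exp_le_exp.2 (by push_cast [Nat.cast_sub hk]; omega))

omit hcyc in
theorem exists_lvl_expand {z : K} (hz : Lvl v 0 z) :
    ∃ w, Lvl v 0 w ∧ (1 + z) ^ p = 1 + (p : K) * z + z ^ p + (p : K) * z ^ 2 * w := by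
  obtain ⟨w, hw⟩ := exists_one_add_pow_prime hp.out
    (⟨z, (Valuation.mem_integer_iff _ _).2 (lvl_zero_iff.1 hz)⟩ : (v.valuation K).integer)
  exact ⟨w, lvl_zero_iff.2 w.2, by simpa using congrArg Subtype.val hw⟩

/-- **Local powers, one step.** -/
theorem exists_lvl_root : ∀ (m j : ℕ) (y : K), m * ramExp p n + p ^ n < j → Lvl v j y →
    ∃ c : K, Lvl v (j - m * ramExp p n) (c - 1) ∧
      Lvl v (j + 1) ((1 + y) / c ^ p ^ m - 1) := by
  intro m
  induction m with
  | zero =>
    intro j y hj hy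
    rw [zero_mul] at hj ⊢
    refine ⟨1 + y, by rwa [add_sub_cancel_left, Nat.sub_zero], ?_⟩
    rw [pow_zero, pow_one, div_self (ne_zero_of_lvl (by omega : 1 ≤ j)
      (by rwa [add_sub_cancel_left] : Lvl v j (1 + y - 1))), sub_self]
    exact lvl_zero_right _
  | succ m ih =>
    intro j y hj hy
    rw [Nat.succ_mul] at hj
    set e := ramExp p n with he
    have he' : e = (p - 1) * p ^ n := mul_comm _ _
    set j' := j - e with hj'
    set z := y / (p : K) with hz
    have hzl : Lvl v j' z := lvl_div_prime n hv (by omega) hy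
    obtain ⟨c, hc1, hc⟩ := ih j' z (by omega) hzl
    have hjp : j + 1 ≤ p * j' := by
      have h1 : (p - 1) * (p ^ n + 1) ≤ (p - 1) * j' := Nat.mul_le_mul_left _ (by omega)
      have h2 : p * j' = (p - 1) * j' + j' := by
        rw [Nat.sub_mul, one_mul, Nat.sub_add_cancel (Nat.le_mul_of_pos_left _ hp.out.pos)]
      rw [mul_add, ← he', mul_one] at h1
      have := hp.out.two_le
      omega
    -- the first root
    have hA : ∀ {s : K}, Lvl v j' s → Lvl v j ((1 + s) ^ p - 1) ∧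
        Lvl v (j + 1) ((1 + s) ^ p - (1 + (p : K) * s)) := by
      intro s hs
      obtain ⟨w, hw, e'⟩ := exists_lvl_expand hv (hs.mono (Nat.zero_le _))
      have h1 : Lvl v (j + 1) ((1 + s) ^ p - (1 + (p : K) * s)) := by
        rw [e', show 1 + (p : K) * s + s ^ p + (p : K) * s ^ 2 * w - (1 + (p : K) * s) =
          s ^ p + (p : K) * s ^ 2 * w by ring]
        refine ((hs.pow p).mono hjp).add ((((lvl_prime n hv).mul (hs.pow 2)).mul hw).mono ?_)
        omega
      refine ⟨?_, h1⟩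
      rw [show (1 + s) ^ p - 1 = ((1 + s) ^ p - (1 + (p : K) * s)) + (p : K) * s by ring]
      exact (h1.mono (Nat.le_succ j)).add (((lvl_prime n hv).mul hs).mono (by omega))
    obtain ⟨hd, hdd⟩ := hA hzl
    have hpz : (p : K) * z = y := mul_div_cancel₀ _ (Nat.cast_ne_zero.2 hp.out.ne_zero)
    rw [hpz] at hdd
    have hdv : v.valuation K ((1 + z) ^ p) = 1 :=
      valuation_eq_one_of_lvl (by omega : 1 ≤ j) hd
    -- the correction
    set u := (1 + z) / c ^ p ^ m with hu
    obtain ⟨hu1, hud⟩ := hA (s := u - 1) (hc.mono (Nat.le_succ _))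
    have hup : Lvl v (j + 1) (u ^ p - 1) := by
      rw [add_sub_cancel] at hud
      rw [show u ^ p - 1 = (u ^ p - (1 + (p : K) * (u - 1))) + (p : K) * (u - 1) by ring]
      exact hud.add (((lvl_prime n hv).mul hc).mono (by omega))
    have hfirst : Lvl v (j + 1) ((1 + y) / (1 + z) ^ p - 1) := by
      have h0 : (1 + z) ^ p ≠ 0 := fun h => by simp [h] at hdv
      rw [div_sub_one h0, ← neg_sub ((1 + z) ^ p) (1 + y)]
      exact (hdd.neg).div hdv
    refine ⟨c, by rw [Nat.succ_mul, Nat.add_comm, ← Nat.sub_sub]; exact hc1, ?_⟩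
    have hc0 : c ≠ 0 := ne_zero_of_lvl (by omega : 1 ≤ j' - m * e) hc1
    have h0 : 1 + z ≠ 0 := fun h => by simp [h, zero_pow hp.out.ne_zero] at hdv
    have heq : (1 + y) / c ^ p ^ (m + 1) = (1 + y) / (1 + z) ^ p * u ^ p := by
      rw [hu, div_pow, pow_succ p m, pow_mul]
      field_simp
    rw [heq]
    exact hfirst.mul_sub_one hup

/-- **`U_k` consists of local powers for `k` beyond the bound.** -/
theorem exists_div_pow_lvl {k : ℕ} (hk : powBound p n < k) {b : Kˣ} (hb : Lvl v k ((b : K) - 1)) :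
    ∀ t : ℕ, ∃ c : Kˣ, Lvl v (k + t) ((b : K) / (c : K) ^ p ^ (n + 1) - 1) := by
  intro t
  induction t with
  | zero => exact ⟨1, by simpa using hb⟩
  | succ t ih =>
    obtain ⟨c, hc⟩ := ih
    obtain ⟨d, hd1, hd⟩ := exists_lvl_root n hv (n + 1) (k + t) _ (by
      unfold powBound at hk; omega) hc
    rw [add_sub_cancel] at hd
    refine ⟨c * Units.mk0 d (ne_zero_of_lvl (by unfold powBound at hk; omega) hd1), ?_⟩
    rw [Units.val_mul, Units.val_mk0, mul_pow, ← div_div]
    exact hd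

theorem pairing_of_lvl_left {k : ℕ} (hk : powBound p n < k) {a : K} (ha : Lvl v k (a - 1)) (y : K) :
    pairing v p (n + 1) a y = 1 := by
  have ha0 : a ≠ 0 := ne_zero_of_lvl (by omega) ha
  rcases eq_or_ne y 0 with rfl | hy
  · simp [pairing]
  rw [pairing_eq p (n + 1) ha0 hy, hilbertSymbol_symm,
    (forall_hilbertSymbol_eq_one_iff (p ^ (n + 1)) v _).2 (fun t => ?_) _, inv_one]
  obtain ⟨c, hc⟩ := exists_div_pow_lvl n hv hk (b := Units.mk0 a ha0) (by rwa [Units.val_mk0]) t
  refine ⟨c, mem_nearOne.2 ?_⟩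
  rw [Units.val_div_eq_div_val, Units.val_pow_eq_pow_val]
  exact hc.mono (by omega)

omit hcyc hv in
theorem pairing_symm (x y : K) : pairing v p (n + 1) y x = (pairing v p (n + 1) x y)⁻¹ := by
  by_cases h : x ≠ 0 ∧ y ≠ 0
  · rw [pairing_eq p (n + 1) h.1 h.2, pairing_eq p (n + 1) h.2 h.1, hilbertSymbol_symm]
  · rw [pairing, pairing, dif_neg (fun e => h ⟨e.2, e.1⟩), dif_neg h, inv_one]

omit hcyc hv in
/-- **The relation of Steinberg on principal units.** -/
theorem pairing_one_add_one_add {x y : K} (hx : x ≠ 0) (hA : 1 + x ≠ 0) (hB : 1 + y ≠ 0)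
    (hC : 1 + x * y / (1 + x) ≠ 0) :
    pairing v p (n + 1) (1 + x * y / (1 + x)) (-x * (1 + y)) *
      pairing v p (n + 1) (1 + x) (1 + y) = 1 := by
  have h1 : pairing v p (n + 1) (1 + x) (-x * (1 + y)) = pairing v p (n + 1) (1 + x) (1 + y) := by
    rw [pairing_mul_right p (n + 1) _ (neg_ne_zero.2 hx) hB,
      pairing_steinberg p (n + 1) (show 1 + x + -x = 1 by ring), one_mul]
  rw [← h1, ← pairing_mul_left p (n + 1) hC hA]
  refine pairing_steinberg p (n + 1) ?_
  rw [add_mul, one_mul, div_mul_cancel₀ _ hA]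
  ring

/-- **The symbol of `U_i` with `U_j` is trivial for `i + j` beyond the bound.** -/
theorem pairing_eq_one_of_lvl {i j : ℕ} (hij : powBound p n < i + j) {a b : K}
    (ha : Lvl v i (a - 1)) (hb : Lvl v j (b - 1)) : pairing v p (n + 1) a b = 1 := by
  rcases Nat.eq_zero_or_pos j with rfl | hj
  · exact pairing_of_lvl_left n hv (by omega) ha b
  rcases Nat.eq_zero_or_pos i with rfl | hi
  · rw [pairing_symm, pairing_of_lvl_left n hv (by omega : powBound p n < j) hb a, inv_one]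
  obtain ⟨x, rfl⟩ : ∃ x, a = 1 + x := ⟨a - 1, (add_sub_cancel 1 a).symm⟩
  obtain ⟨y, rfl⟩ : ∃ y, b = 1 + y := ⟨b - 1, (add_sub_cancel 1 b).symm⟩
  rcases eq_or_ne x 0 with rfl | hx
  · rw [add_zero, pairing_one_left]
  have hC : Lvl v (i + j) (1 + x * y / (1 + x) - 1) := by
    rw [add_sub_cancel_left] at ha hb ⊢
    exact (ha.mul hb).div (valuation_eq_one_of_lvl hi (by rwa [add_sub_cancel_left]))
  have h := pairing_one_add_one_add (v := v) (p := p) n hx (ne_zero_of_lvl hi ha)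
    (ne_zero_of_lvl hj hb) (ne_zero_of_lvl (by omega) hC)
  rwa [pairing_of_lvl_left n hv hij hC, one_mul] at h

end FA.ExplicitLaw
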