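import Fermat.Agent.Transcendence.BrumerExp
import Mathlib.Analysis.SpecificLimits.Normed
import Mathlib.Analysis.Normed.Group.Tannery

/-!
# The logarithm as a limit

In a complete ultrametric field over `ℚ_p` the series `z - z ^ 2 / 2 + z ^ 3 / 3 - ⋯` is the limit
of `((1 + z) ^ (p ^ d) - 1) / p ^ d` on the open unit disc.
-/

set_option autoImplicit false
set_option linter.unusedSectionVars false
set_option linter.style.haveILetI false

noncomputable section

open Filter Finset
open scoped Topology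

namespace FA.ExplicitLaw

variable {p : ℕ} [hp : Fact p.Prime] {C : Type*} [NontriviallyNormedField C] [CompleteSpace C]
  [IsUltrametricDist C] [NormedAlgebra ℚ_[p] C]

/-- The series `log (1 + z)`. -/
def logOne (z : C) : C := ∑' j : ℕ, (-1) ^ j * z ^ (j + 1) / ((j + 1 : ℕ) : C)

include hp in
theorem norm_div_natCast_le (c : C) (j : ℕ) :
    ‖c / ((j + 1 : ℕ) : C)‖ ≤ ((j + 1 : ℕ) : ℝ) * ‖c‖ := by
  rw [norm_div, div_eq_mul_inv, mul_comm]
  refine mul_le_mul_of_nonneg_right ?_ (norm_nonneg c)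
  have h := FA.Brumer.inv_natCast_le_norm p (C := C) (Nat.succ_ne_zero j)
  exact inv_le_of_inv_le₀ (Nat.cast_pos.2 (Nat.succ_pos j)) h

theorem summable_logBound {z : C} (hz : ‖z‖ < 1) :
    Summable fun j : ℕ => ((j + 1 : ℕ) : ℝ) * ‖z‖ ^ (j + 1) := by
  have h := summable_pow_mul_geometric_of_norm_lt_one 1 (r := ‖z‖) (by rwa [norm_norm])
  simp only [pow_one] at h
  exact (summable_nat_add_iff (f := fun j : ℕ => (j : ℝ) * ‖z‖ ^ j) 1).2 h

include hp in
theorem tendsto_choose_pow_sub_one (j : ℕ) :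
    Tendsto (fun d => (((p ^ d - 1).choose j : ℕ) : C)) atTop (𝓝 ((-1) ^ j)) := by
  induction j with
  | zero => simp
  | succ j ih =>
    have h0 : Tendsto (fun d => (((p ^ d).choose (j + 1) : ℕ) : C)) atTop (𝓝 0) := by
      refine squeeze_zero_norm (fun d => ?_)
        (a := fun d => ((j + 1 : ℕ) : ℝ) * (p : ℝ)⁻¹ ^ d) ?_
      · obtain ⟨N, hN⟩ : ∃ N, p ^ d = N + 1 := ⟨p ^ d - 1, by
          have := Nat.one_le_pow d p hp.out.pos; omega⟩
        have hj : ((j + 1 : ℕ) : C) ≠ 0 := by
          haveI := FA.Brumer.charZero_of_padic p (C := C)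
          exact Nat.cast_ne_zero.2 (Nat.succ_ne_zero j)
        have h := congrArg (Nat.cast : ℕ → C) (Nat.add_one_mul_choose_eq N j)
        push_cast at h
        rw [hN, show (((N + 1).choose (j + 1) : ℕ) : C) =
          ((N + 1 : ℕ) : C) * (N.choose j : C) / ((j + 1 : ℕ) : C) by
            rw [eq_div_iff hj]; push_cast; exact h.symm, ← hN, Nat.cast_pow]
        refine (norm_div_natCast_le (p := p) _ j).trans
          (mul_le_mul_of_nonneg_left ?_ (Nat.cast_nonneg _))
        rw [norm_mul, norm_pow, FA.Brumer.norm_prime p]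
        exact mul_le_of_le_one_right (pow_nonneg (inv_nonneg.2 (Nat.cast_nonneg p)) d)
          (IsUltrametricDist.norm_natCast_le_one C _)
      · simpa using (tendsto_pow_atTop_nhds_zero_of_lt_one (inv_nonneg.2 (Nat.cast_nonneg p))
          (inv_lt_one_of_one_lt₀ (FA.Brumer.one_lt_prime p))).const_mul ((j + 1 : ℕ) : ℝ)
    have h1 := h0.sub ih
    rw [zero_sub, ← mul_neg_one, ← pow_succ] at h1
    refine h1.congr fun d => ?_
    obtain ⟨N, hN⟩ : ∃ N, p ^ d = N + 1 := ⟨p ^ d - 1, by
      have := Nat.one_le_pow d p hp.out.pos; omega⟩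
    rw [hN, Nat.add_sub_cancel, Nat.choose_succ_succ']
    push_cast
    ring

/-- **The logarithm as a limit.** -/
theorem tendsto_pow_sub_one_div {z : C} (hz : ‖z‖ < 1) :
    Tendsto (fun d => ((1 + z) ^ p ^ d - 1) / (p : C) ^ d) atTop (𝓝 (logOne z)) := by
  haveI := FA.Brumer.charZero_of_padic p (C := C)
  have hp0 : (p : C) ≠ 0 := Nat.cast_ne_zero.2 hp.out.ne_zero
  have heq : ∀ d, ((1 + z) ^ p ^ d - 1) / (p : C) ^ d =
      ∑' j : ℕ, (((p ^ d - 1).choose j : ℕ) : C) * z ^ (j + 1) / ((j + 1 : ℕ) : C) := fun d => by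
    obtain ⟨N, hN⟩ : ∃ N, p ^ d = N + 1 := ⟨p ^ d - 1, by
      have := Nat.one_le_pow d p hp.out.pos; omega⟩
    rw [tsum_eq_sum (s := range (N + 1)) fun j hj => by
      rw [hN, Nat.add_sub_cancel, Nat.choose_eq_zero_of_lt (by
        rw [Finset.mem_range] at hj; omega), Nat.cast_zero, zero_mul, zero_div]]
    rw [eq_comm, eq_div_iff (pow_ne_zero d hp0), ← Nat.cast_pow (α := C) p d, hN,
      Nat.add_sub_cancel, add_comm 1 z, add_pow, Finset.sum_range_succ' _ (N + 1), Finset.sum_mul]
    simp only [pow_zero, one_pow, mul_one, Nat.choose_zero_right, Nat.cast_one,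
      add_sub_cancel_right]
    refine Finset.sum_congr rfl fun j _ => ?_
    have h := congrArg (Nat.cast : ℕ → C) (Nat.add_one_mul_choose_eq N j)
    push_cast at h
    rw [div_mul_eq_mul_div, div_eq_iff (Nat.cast_ne_zero.2 (Nat.succ_ne_zero j))]
    push_cast
    linear_combination z ^ (j + 1) * h
  simp_rw [heq]
  refine tendsto_tsum_of_dominated_convergence (summable_logBound hz) (fun j => ?_)
    (Eventually.of_forall fun d j => ?_)
  · exact ((tendsto_choose_pow_sub_one (p := p) j).mul_const _).div_const _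
  · refine (norm_div_natCast_le (p := p) _ j).trans
      (mul_le_mul_of_nonneg_left ?_ (Nat.cast_nonneg _))
    rw [norm_mul, norm_pow]
    exact mul_le_of_le_one_left (pow_nonneg (norm_nonneg z) _)
      (IsUltrametricDist.norm_natCast_le_one C _)

end FA.ExplicitLaw
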