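import Fermat.Agent.HilbertN.Nondegenerate

/-!
# The Hilbert symbol deep above the residue characteristic

Over a number field with the roots of unity of order `p ^ m`, at a prime `v` above `p`: elements
congruent to one modulo `p ^ (m + 2)` are local powers, and by the relation of Steinberg the
pairing of `1 + ε a` with `a`, `ε` divisible by a high power of `p`, behaves as `d a / a`:
`(1 + ε h(ζ), h(ζ)) = (1 + ε ζ h'(ζ), ζ)` for every polynomial `h` with integral coefficients.
-/

set_option autoImplicit false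
set_option linter.unusedSectionVars false
set_option linter.style.haveILetI false

noncomputable section

open NumberField IsDedekindDomain Polynomial WithZero
open FA.HilbertN
open FA.HasseCyclic (nearOne mem_nearOne)
open scoped Classical

namespace FA.ExplicitLaw

universe u

variable {K : Type u} [Field K] [NumberField K]

/-- `x` is divisible at `v` by `p ^ j`. -/
def Deep (v : HeightOneSpectrum (𝓞 K)) (p j : ℕ) (x : K) : Prop :=
  v.valuation K x ≤ v.valuation K (p : K) ^ j

variable {v : HeightOneSpectrum (𝓞 K)} {p : ℕ}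

theorem deep_zero (j : ℕ) : Deep v p j (0 : K) := by simp [Deep]

theorem deep_natCast_pow (j : ℕ) : Deep v p j ((p : K) ^ j) := by rw [Deep, map_pow]

theorem valuation_intCast_le (c : ℤ) : v.valuation K (c : K) ≤ 1 := by
  rw [← map_intCast (algebraMap (𝓞 K) K) c]
  exact v.valuation_le_one _

theorem valuation_natCast_le (c : ℕ) : v.valuation K (c : K) ≤ 1 :=
  mod_cast valuation_intCast_le (v := v) (c : ℤ)

theorem deep_zero_iff {x : K} : Deep v p 0 x ↔ v.valuation K x ≤ 1 := by rw [Deep, pow_zero]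

theorem deep_intCast (c : ℤ) : Deep v p 0 (c : K) := deep_zero_iff.2 (valuation_intCast_le c)

theorem Deep.add {j : ℕ} {x y : K} (hx : Deep v p j x) (hy : Deep v p j y) :
    Deep v p j (x + y) :=
  Valuation.map_add_le _ hx hy

theorem Deep.neg {j : ℕ} {x : K} (hx : Deep v p j x) : Deep v p j (-x) := by
  rwa [Deep, Valuation.map_neg]

theorem Deep.sub {j : ℕ} {x y : K} (hx : Deep v p j x) (hy : Deep v p j y) :
    Deep v p j (x - y) := by
  rw [sub_eq_add_neg]
  exact hx.add hy.neg

theorem Deep.sum {ι : Type*} {j : ℕ} {s : Finset ι} {f : ι → K}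
    (h : ∀ i ∈ s, Deep v p j (f i)) : Deep v p j (∑ i ∈ s, f i) :=
  Valuation.map_sum_le _ h

theorem Deep.mul {i j : ℕ} {x y : K} (hx : Deep v p i x) (hy : Deep v p j y) :
    Deep v p (i + j) (x * y) := by
  rw [Deep, map_mul, pow_add]
  exact mul_le_mul' hx hy

theorem Deep.mul_left {j : ℕ} {x y : K} (hx : Deep v p 0 x) (hy : Deep v p j y) :
    Deep v p j (x * y) := by
  simpa using hx.mul hy

theorem Deep.mul_right {j : ℕ} {x y : K} (hx : Deep v p j x) (hy : Deep v p 0 y) :
    Deep v p j (x * y) := by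
  simpa using hx.mul hy

theorem Deep.mono {i j : ℕ} {x : K} (hx : Deep v p j x) (hij : i ≤ j) : Deep v p i x := by
  refine hx.trans ?_
  exact pow_le_pow_right_of_le_one' (valuation_natCast_le p) hij

theorem deep_pow {x : K} (hx : Deep v p 0 x) : ∀ i : ℕ, Deep v p 0 (x ^ i)
  | 0 => by rw [pow_zero, deep_zero_iff, map_one]
  | i + 1 => by rw [pow_succ]; exact (deep_pow hx i).mul_left hx

theorem deep_aeval {x : K} (hx : Deep v p 0 x) (h : ℤ[X]) : Deep v p 0 (aeval x h) := by
  rw [aeval_eq_sum_range]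
  exact Deep.sum fun i _ => by
    rw [zsmul_eq_mul]
    exact (deep_intCast _).mul_left (deep_pow hx i)

section prime

variable (hv : (p : 𝓞 K) ∈ v.asIdeal)
include hv

theorem valuation_natCast_le_exp : v.valuation K (p : K) ≤ exp (-1 : ℤ) := by
  rw [← map_natCast (algebraMap (𝓞 K) K) p, HeightOneSpectrum.valuation_of_algebraMap]
  have h := (v.intValuation_le_pow_iff_mem (p : 𝓞 K) 1).2 (by rwa [pow_one])
  simpa using h

theorem valuation_natCast_lt_one : v.valuation K (p : K) < 1 :=
  (valuation_natCast_le_exp hv).trans_lt (by rw [← exp_zero, exp_lt_exp]; norm_num)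

theorem valuation_pow_le_exp : ∀ j : ℕ, v.valuation K (p : K) ^ j ≤ exp (-(j : ℤ))
  | 0 => by simp
  | j + 1 => by
    rw [pow_succ, show -((j + 1 : ℕ) : ℤ) = -(j : ℤ) + -1 by push_cast; ring, exp_add]
    exact mul_le_mul' (valuation_pow_le_exp j) (valuation_natCast_le_exp hv)

theorem valuation_eq_one_of_deep {j : ℕ} (hj : 0 < j) {x : K} (hx : Deep v p j (x - 1)) :
    v.valuation K x = 1 := by
  have h : v.valuation K (x - 1) < 1 := lt_of_le_of_lt (hx.mono hj) (by
    rw [pow_one]; exact valuation_natCast_lt_one hv)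
  have := Valuation.map_one_add_of_lt _ h
  rwa [add_sub_cancel] at this

theorem ne_zero_of_deep {j : ℕ} (hj : 0 < j) {x : K} (hx : Deep v p j (x - 1)) : x ≠ 0 :=
  fun h => by simpa [h] using valuation_eq_one_of_deep hv hj hx

variable [hp : Fact p.Prime]

theorem natCast_ne_zero' : (p : K) ≠ 0 := Nat.cast_ne_zero.2 hp.out.ne_zero

omit hv in
theorem exists_one_add_pow {R : Type*} [CommRing R] (A : Subring R) {a : R} (ha : a ∈ A) :
    ∀ n : ℕ, ∃ r ∈ A, (1 + a) ^ n = 1 + (n : R) * a + a ^ 2 * r
  | 0 => ⟨0, zero_mem A, by simp⟩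
  | n + 1 => by
    obtain ⟨r, hr, e⟩ := exists_one_add_pow A ha n
    refine ⟨(n : R) + r + a * r, add_mem (add_mem (natCast_mem A n) hr) (mul_mem ha hr), ?_⟩
    rw [pow_succ, e, Nat.cast_succ]
    ring

omit hv in
theorem exists_one_add_pow_deep {a : K} (ha : Deep v p 0 a) (n : ℕ) :
    ∃ r, Deep v p 0 r ∧ (1 + a) ^ n = 1 + (n : K) * a + a ^ 2 * r := by
  obtain ⟨r, hr, e⟩ := exists_one_add_pow (v.valuation K).integer
    ((Valuation.mem_integer_iff _ _).2 (deep_zero_iff.1 ha)) n
  exact ⟨r, deep_zero_iff.2 ((Valuation.mem_integer_iff _ _).1 hr), e⟩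

/-- `p`-th powers push congruences one step deeper. -/
theorem deep_pow_prime_pow {j : ℕ} (hj : 2 ≤ j) {z : K} (hz : Deep v p 0 z) (t : ℕ) :
    Deep v p (j + t + 1) ((1 + (p : K) ^ j * z) ^ p ^ t - (1 + (p : K) ^ (j + t) * z)) := by
  induction t with
  | zero => simpa using deep_zero (v := v) (p := p) (j + 1)
  | succ t ih =>
    set w := (1 + (p : K) ^ j * z) ^ p ^ t - (1 + (p : K) ^ (j + t) * z) with hw
    set a := (p : K) ^ (j + t) * z + w with ha
    have had : Deep v p (j + t) a :=
      ((deep_natCast_pow (j + t)).mul_right hz).add (ih.mono (Nat.le_succ _))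
    obtain ⟨r, hr, e⟩ := exists_one_add_pow_deep (v := v) (had.mono (Nat.zero_le _)) p
    rw [pow_succ p t, pow_mul, show (1 + (p : K) ^ j * z) ^ p ^ t = 1 + a by rw [ha, hw]; ring, e,
      show 1 + (p : K) * a + a ^ 2 * r - (1 + (p : K) ^ (j + (t + 1)) * z) =
        (p : K) ^ 1 * w + a ^ 2 * r by rw [ha]; ring,
      show j + (t + 1) + 1 = 1 + (j + t + 1) by ring]
    refine ((deep_natCast_pow 1).mul ih).add (Deep.mul_right ?_ hr)
    rw [pow_two]
    exact (had.mul had).mono (by omega)

/-- **Local powers**: congruence to one modulo `p ^ (m + 2)`. -/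
theorem exists_div_pow_mem_nearOne {m : ℕ} {b : Kˣ} (hb : Deep v p (m + 2) ((b : K) - 1))
    (k : ℕ) : ∃ c : Kˣ, b / c ^ p ^ m ∈ nearOne v k := by
  suffices key : ∀ j, ∃ c : Kˣ, v.valuation K (c : K) = 1 ∧
      Deep v p (m + 2 + j) ((b : K) / (c : K) ^ p ^ m - 1) by
    obtain ⟨c, -, hc⟩ := key k
    refine ⟨c, mem_nearOne.2 ?_⟩
    rw [Units.val_div_eq_div_val, Units.val_pow_eq_pow_val]
    exact (hc.trans (valuation_pow_le_exp hv _)).trans (exp_le_exp.2 (by push_cast; omega))
  intro j
  induction j with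
  | zero => exact ⟨1, by simp, by simpa using hb⟩
  | succ j ih =>
    obtain ⟨c, hc1, hc⟩ := ih
    set z := ((b : K) / (c : K) ^ p ^ m - 1) / (p : K) ^ (m + 2 + j) with hz
    have hp0 := natCast_ne_zero' hv
    have hzd : Deep v p 0 z := by
      rw [deep_zero_iff, hz, map_div₀, map_pow]
      exact (div_le_one₀ (zero_lt_iff.2 (pow_ne_zero _ (by simpa using hp0)))).2 hc
    set d := 1 + (p : K) ^ (2 + j) * z with hd
    have hd1 : Deep v p (2 + j) (d - 1) := by
      rw [hd, add_sub_cancel_left]
      exact (deep_natCast_pow _).mul_right hzd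
    have hdv := valuation_eq_one_of_deep hv (by omega) hd1
    refine ⟨c * Units.mk0 d (ne_zero_of_deep hv (by omega) hd1), by simp [hc1, hdv], ?_⟩
    have hdn : v.valuation K (d ^ p ^ m) = 1 := by rw [map_pow, hdv, one_pow]
    have hd0 : d ^ p ^ m ≠ 0 := pow_ne_zero _ (ne_zero_of_deep hv (by omega) hd1)
    have hkey := deep_pow_prime_pow hv (j := 2 + j) (by omega) hzd m
    rw [← hd, show 2 + j + m = m + 2 + j by ring] at hkey
    have hb' : (b : K) / (c : K) ^ p ^ m = 1 + (p : K) ^ (m + 2 + j) * z := by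
      rw [hz, mul_div_cancel₀ _ (pow_ne_zero _ hp0), add_sub_cancel]
    rw [Units.val_mul, Units.val_mk0, mul_pow, ← div_div, hb',
      show (1 + (p : K) ^ (m + 2 + j) * z) / d ^ p ^ m - 1 =
        -((d ^ p ^ m - (1 + (p : K) ^ (m + 2 + j) * z)) / d ^ p ^ m) by field_simp; ring]
    refine Deep.neg ?_
    rw [Deep, map_div₀, hdn, div_one]
    exact hkey

end prime

/-! ### The symbol on elements -/

variable (p) (m : ℕ) [Fact p.Prime] [HasEnoughRootsOfUnity K (p ^ m)]

variable (v) in
/-- The symbol of two elements, one if either is zero. -/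
def pairing (x y : K) : rootsOfUnity (p ^ m) K :=
  if h : x ≠ 0 ∧ y ≠ 0 then hilbertSymbol (p ^ m) v (Units.mk0 x h.1) (Units.mk0 y h.2) else 1

theorem pairing_eq {x y : K} (hx : x ≠ 0) (hy : y ≠ 0) :
    pairing v p m x y = hilbertSymbol (p ^ m) v (Units.mk0 x hx) (Units.mk0 y hy) :=
  dif_pos ⟨hx, hy⟩

theorem pairing_units (a b : Kˣ) : pairing v p m (a : K) b = hilbertSymbol (p ^ m) v a b := by
  rw [pairing_eq p m a.ne_zero b.ne_zero]
  congr 1 <;> exact Units.mk0_val _ _

theorem pairing_mul_left {x x' : K} (hx : x ≠ 0) (hx' : x' ≠ 0) (y : K) :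
    pairing v p m (x * x') y = pairing v p m x y * pairing v p m x' y := by
  rcases eq_or_ne y 0 with rfl | hy
  · simp [pairing]
  rw [pairing_eq p m (mul_ne_zero hx hx') hy, pairing_eq p m hx hy, pairing_eq p m hx' hy,
    ← hilbertSymbol_mul_left, Units.mk0_mul]

theorem pairing_mul_right (x : K) {y y' : K} (hy : y ≠ 0) (hy' : y' ≠ 0) :
    pairing v p m x (y * y') = pairing v p m x y * pairing v p m x y' := by
  rcases eq_or_ne x 0 with rfl | hx
  · simp [pairing]
  rw [pairing_eq p m hx (mul_ne_zero hy hy'), pairing_eq p m hx hy, pairing_eq p m hx hy',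
    ← hilbertSymbol_mul_right, Units.mk0_mul]

theorem pairing_one_right (x : K) : pairing v p m x 1 = 1 := by
  have h := pairing_mul_right (v := v) p m x (one_ne_zero (α := K)) one_ne_zero
  rw [one_mul] at h
  simpa using h

theorem pairing_one_left (y : K) : pairing v p m 1 y = 1 := by
  have h := pairing_mul_left (v := v) p m (one_ne_zero (α := K)) one_ne_zero y
  rw [one_mul] at h
  simpa using h

theorem pairing_pow_right (x : K) {y : K} (hy : y ≠ 0) :
    ∀ i : ℕ, pairing v p m x (y ^ i) = pairing v p m x y ^ i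
  | 0 => by rw [pow_zero, pow_zero, pairing_one_right]
  | i + 1 => by
    rw [pow_succ, pow_succ, pairing_mul_right p m x (pow_ne_zero _ hy) hy,
      pairing_pow_right x hy i]

/-- **The relation of Steinberg.** -/
theorem pairing_steinberg {x y : K} (h : x + y = 1) : pairing v p m x y = 1 := by
  by_cases h0 : x ≠ 0 ∧ y ≠ 0
  · rw [pairing, dif_pos h0]
    exact hilbertSymbol_pow_sub (p ^ m) (x := 1)
      (by rw [one_pow, Units.val_mk0, Units.val_mk0, ← h]; ring) v
  · rw [pairing, dif_neg h0]

variable {p m} (hv : (p : 𝓞 K) ∈ v.asIdeal)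
include hv

/-- **The symbol only depends on the class modulo `p ^ (m + 2)`.** -/
theorem pairing_congr_left {x x' : K} (hx : v.valuation K x = 1)
    (h : Deep v p (m + 2) (x' - x)) (y : K) : pairing v p m x' y = pairing v p m x y := by
  rcases eq_or_ne y 0 with rfl | hy
  · simp [pairing]
  have hx0 : x ≠ 0 := fun h0 => by simp [h0] at hx
  have hd : Deep v p (m + 2) (x' / x - 1) := by
    rw [div_sub_one hx0, Deep, map_div₀, hx, div_one]
    exact h
  have hq0 := ne_zero_of_deep hv (Nat.succ_pos _) hd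
  rw [show x' = x * (x' / x) by rw [mul_div_cancel₀ _ hx0], pairing_mul_left p m hx0 hq0,
    pairing_eq p m hq0 hy, hilbertSymbol_symm,
    (forall_hilbertSymbol_eq_one_iff (p ^ m) v _).2
      (fun k => exists_div_pow_mem_nearOne hv (b := Units.mk0 _ hq0)
        (by rwa [Units.val_mk0]) k) _, inv_one, mul_one]

variable {k : ℕ} (hk : m + 2 ≤ 2 * k)
include hk

/-- `a ↦ (1 + a, y)` is additive deep down. -/
theorem pairing_one_add_add {a b : K} (ha : Deep v p k a) (hb : Deep v p k b) (y : K) :
    pairing v p m (1 + (a + b)) y = pairing v p m (1 + a) y * pairing v p m (1 + b) y := by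
  have hk0 : 0 < k := by omega
  have ha1 : Deep v p k (1 + a - 1) := by rwa [add_sub_cancel_left]
  have hb1 : Deep v p k (1 + b - 1) := by rwa [add_sub_cancel_left]
  rw [← pairing_mul_left p m (ne_zero_of_deep hv hk0 ha1) (ne_zero_of_deep hv hk0 hb1),
    pairing_congr_left hv (x := (1 + a) * (1 + b))
      (by rw [map_mul, valuation_eq_one_of_deep hv hk0 ha1, valuation_eq_one_of_deep hv hk0 hb1,
        one_mul]) ?_ y]
  rw [show 1 + (a + b) - (1 + a) * (1 + b) = -(a * b) by ring]
  exact ((ha.mul hb).mono (by omega)).neg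

theorem pairing_one_add_natCast_mul {a : K} (ha : Deep v p k a) (y : K) :
    ∀ c : ℕ, pairing v p m (1 + (c : K) * a) y = pairing v p m (1 + a) y ^ c
  | 0 => by simp [pairing_one_left]
  | c + 1 => by
    rw [Nat.cast_succ, add_mul, one_mul, pow_succ,
      pairing_one_add_add hv hk (show Deep v p k ((c : K) * a) by
        simpa using (deep_intCast (c : ℤ)).mul_left ha) ha,
      pairing_one_add_natCast_mul ha y c]

theorem pairing_one_add_intCast_mul {a : K} (ha : Deep v p k a) (y : K) (c : ℤ) :
    pairing v p m (1 + (c : K) * a) y = pairing v p m (1 + a) y ^ c := by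
  obtain ⟨n, rfl | rfl⟩ := c.eq_nat_or_neg
  · simpa using pairing_one_add_natCast_mul hv hk ha y n
  · have hn : Deep v p k ((n : K) * a) := by simpa using (deep_intCast (n : ℤ)).mul_left ha
    have h := pairing_one_add_add hv hk hn hn.neg y
    rw [add_neg_cancel, add_zero, pairing_one_left, pairing_one_add_natCast_mul hv hk ha y n] at h
    rw [zpow_neg, zpow_natCast, Int.cast_neg, Int.cast_natCast, neg_mul]
    exact eq_inv_of_mul_eq_one_right h.symm

/-- `(1 + ε a, a) = (1 + ε a, -ε)⁻¹`. -/
theorem pairing_one_add_mul_self {e a : K} (he0 : e ≠ 0) (ha0 : a ≠ 0) :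
    pairing v p m (1 + e * a) a = (pairing v p m (1 + e * a) (-e))⁻¹ := by
  refine eq_inv_of_mul_eq_one_right ?_
  rw [← pairing_mul_right p m _ (neg_ne_zero.2 he0) ha0]
  exact pairing_steinberg p m (by ring)

/-- **The symbol as a logarithmic derivative.** -/
theorem pairing_aeval {ζ : K} (hζ : Deep v p 0 ζ) (hζ0 : ζ ≠ 0) (h : ℤ[X]) {e : K}
    (he : Deep v p k e) (ha : aeval ζ h ≠ 0) :
    pairing v p m (1 + e * aeval ζ h) (aeval ζ h) =
      pairing v p m (1 + e * (ζ * aeval ζ (derivative h))) ζ := by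
  rcases eq_or_ne e 0 with rfl | he0
  · simp [pairing_one_left]
  rw [pairing_one_add_mul_self hv hk he0 ha]
  clear ha
  induction h using Polynomial.induction_on' with
  | add f g hf hg =>
    rw [map_add, mul_add, pairing_one_add_add hv hk (he.mul_right (deep_aeval hζ f))
      (he.mul_right (deep_aeval hζ g)), mul_inv, hf, hg, derivative_add, map_add, mul_add, mul_add,
      pairing_one_add_add hv hk (he.mul_right (hζ.mul_left (deep_aeval hζ _)))
        (he.mul_right (hζ.mul_left (deep_aeval hζ _)))]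
  | monomial i c =>
    have hpow : Deep v p k (e * ζ ^ i) := he.mul_right (deep_pow hζ i)
    have hmon : e * aeval ζ (monomial i c) = (c : K) * (e * ζ ^ i) := by
      rw [aeval_monomial, algebraMap_int_eq, eq_intCast]; ring
    have hder : e * (ζ * aeval ζ (derivative (monomial i c))) =
        (c : K) * ((i : K) * (e * ζ ^ i)) := by
      rw [derivative_monomial, aeval_monomial, algebraMap_int_eq, eq_intCast, Int.cast_mul,
        Int.cast_natCast]
      rcases i with - | i
      · simp
      · rw [Nat.succ_sub_one, pow_succ']; ring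
    rw [hmon, hder, pairing_one_add_intCast_mul hv hk hpow,
      pairing_one_add_intCast_mul hv hk (by simpa using (deep_intCast (i : ℤ)).mul_left hpow),
      pairing_one_add_natCast_mul hv hk hpow, ← inv_zpow]
    congr 1
    rw [← pairing_one_add_mul_self hv hk he0 (pow_ne_zero _ hζ0),
      pairing_pow_right p m _ hζ0]

end FA.ExplicitLaw
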