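import Fermat.Agent.ExplicitReciprocity.ZetaSymbol
import Fermat.Agent.Transcendence.BrumerExp

/-!
# Embeddings of a cyclotomic field into a `p`-adic field

Every embedding of `ℚ (μ_(p^(n+1)))` into an ultrametric field over `ℚ_p` induces the valuation of
the prime above `p`, so all of them give the same absolute values.
-/

set_option autoImplicit false
set_option linter.unusedSectionVars false
set_option linter.style.haveILetI false

noncomputable section

open NumberField IsDedekindDomain WithZero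

namespace FA.ExplicitLaw

variable {p : ℕ} [hp : Fact p.Prime] {n : ℕ} {K : Type*} [Field K] [NumberField K]
  [hcyc : IsCyclotomicExtension {p ^ (n + 1)} ℚ K] {v : HeightOneSpectrum (𝓞 K)}
  (hv : (p : 𝓞 K) ∈ v.asIdeal) {C : Type*} [NontriviallyNormedField C] [CompleteSpace C]
  [IsUltrametricDist C] [NormedAlgebra ℚ_[p] C]
include hv hcyc

variable (n) in
theorem exists_valuation_exp : ∃ e : ℕ, 0 < e ∧ v.valuation K (p : K) = exp (-(e : ℤ)) := by
  have h0 : v.valuation K (p : K) ≠ 0 :=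
    (_root_.map_ne_zero _).2 (Nat.cast_ne_zero.2 hp.out.ne_zero)
  obtain ⟨a, ha⟩ : ∃ a : ℤ, v.valuation K (p : K) = exp a := ⟨_, (exp_log h0).symm⟩
  have ha1 : a ≤ -1 := by
    have h := valuation_natCast_le_exp hv
    rwa [ha, exp_le_exp] at h
  exact ⟨(-a).toNat, by omega, by rw [ha, Int.toNat_of_nonneg (by omega), neg_neg]⟩

variable (n) in
theorem norm_map_le_of_deep (σ : K →+* C) {A : ℕ} {y : K} (hy : Deep v p A y) :
    ‖σ y‖ ≤ ((p : ℝ)⁻¹) ^ A := by
  obtain ⟨c, d, hd, hcd⟩ := exists_intCast_mul_eq n hv hy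
  have h := congrArg σ hcd
  rw [map_mul, map_mul, map_intCast, map_pow, map_natCast] at h
  have hd1 : ‖(d : C)‖ = 1 := by
    rw [FA.Brumer.norm_intCast p]
    exact le_antisymm (Padic.norm_int_le_one d)
      (not_lt.1 fun h' => hd (Padic.norm_intCast_lt_one_iff.1 h'))
  rw [← one_mul ‖σ y‖, ← hd1, ← norm_mul, h, norm_mul, norm_pow, FA.Brumer.norm_prime p]
  exact mul_le_of_le_one_right (pow_nonneg (inv_nonneg.2 (Nat.cast_nonneg p)) A)
    (FA.Brumer.norm_le_one_of_integral ((RingOfIntegers.isIntegral_coe c).map σ.toIntAlgHom))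

variable (n) in
/-- The valuation gives the absolute value. -/
theorem norm_map_pow_eq (σ : K →+* C) {e : ℕ} (he : v.valuation K (p : K) = exp (-(e : ℤ)))
    {y : K} (hy : y ≠ 0) {a : ℤ} (ha : v.valuation K y = exp a) : ‖σ y‖ ^ e = (p : ℝ) ^ a := by
  set y' := y ^ e * (p : K) ^ a with hy'
  have hp0 : (p : K) ≠ 0 := Nat.cast_ne_zero.2 hp.out.ne_zero
  have hv1 : v.valuation K y' = 1 := by
    rw [hy', map_mul, map_pow, map_zpow₀, ha, he, ← exp_nsmul, ← exp_zsmul, ← exp_add, ← exp_zero]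
    congr 1
    simp [mul_comm]
  have h1 : ‖σ y'‖ ≤ 1 := by
    simpa using norm_map_le_of_deep n hv σ (show Deep v p 0 y' from deep_zero_iff.2 hv1.le)
  have h2 : ‖σ y'⁻¹‖ ≤ 1 := by
    simpa using norm_map_le_of_deep n hv σ (show Deep v p 0 y'⁻¹ from deep_zero_iff.2 (by
      rw [map_inv₀, hv1, inv_one]))
  have hy'0 : y' ≠ 0 := mul_ne_zero (pow_ne_zero _ hy) (zpow_ne_zero _ hp0)
  have h3 : ‖σ y'‖ = 1 := by
    refine le_antisymm h1 ?_
    rwa [map_inv₀, norm_inv, inv_le_one_iff₀, or_iff_right (not_le.2 (norm_pos_iff.2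
      ((_root_.map_ne_zero σ).2 hy'0)))] at h2
  rw [hy', map_mul, map_pow, map_zpow₀, map_natCast, norm_mul, norm_pow, norm_zpow,
    FA.Brumer.norm_prime p, inv_zpow, ← div_eq_mul_inv,
    div_eq_one_iff_eq (zpow_ne_zero _ (Nat.cast_ne_zero.2 hp.out.ne_zero))] at h3
  exact h3

variable (n) in
theorem norm_map_eq (σ τ : K →+* C) (y : K) : ‖σ y‖ = ‖τ y‖ := by
  rcases eq_or_ne y 0 with rfl | hy
  · simp
  obtain ⟨e, he0, he⟩ := exists_valuation_exp n hv
  have ha := (exp_log ((_root_.map_ne_zero (v.valuation K)).2 hy)).symm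
  exact (pow_left_inj₀ (norm_nonneg _) (norm_nonneg _) he0.ne').1
    ((norm_map_pow_eq n hv σ he hy ha).trans (norm_map_pow_eq n hv τ he hy ha).symm)

variable (n) in
theorem deep_of_norm_map_le (σ : K →+* C) {A : ℕ} {y : K} (hy : ‖σ y‖ ≤ ((p : ℝ)⁻¹) ^ A) :
    Deep v p A y := by
  rcases eq_or_ne y 0 with rfl | hy0
  · exact deep_zero A
  obtain ⟨e, he0, he⟩ := exists_valuation_exp n hv
  obtain ⟨a, ha⟩ : ∃ a : ℤ, v.valuation K y = exp a :=
    ⟨_, (exp_log ((_root_.map_ne_zero (v.valuation K)).2 hy0)).symm⟩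
  have h := pow_le_pow_left₀ (norm_nonneg _) hy e
  rw [norm_map_pow_eq n hv σ he hy0 ha, ← pow_mul, inv_pow, ← zpow_natCast, ← zpow_neg,
    zpow_le_zpow_iff_right₀ (mod_cast hp.out.one_lt)] at h
  rw [Deep, ha, he, ← exp_nsmul, exp_le_exp]
  simpa using h

variable (n) in
theorem norm_map_sub_one_lt (σ : K →+* C) {x : K} (hx : v.valuation K (x - 1) < 1) :
    ‖σ x - 1‖ < 1 := by
  rcases eq_or_ne (x - 1) 0 with h0 | h0
  · rw [sub_eq_zero.1 h0]; simp
  obtain ⟨e, he0, he⟩ := exists_valuation_exp n hv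
  obtain ⟨a, ha⟩ : ∃ a : ℤ, v.valuation K (x - 1) = exp a :=
    ⟨_, (exp_log ((_root_.map_ne_zero (v.valuation K)).2 h0)).symm⟩
  rw [ha, ← exp_zero, exp_lt_exp] at hx
  have h := norm_map_pow_eq n hv σ he h0 ha
  rw [map_sub, map_one] at h
  refine (pow_lt_one_iff_of_nonneg (norm_nonneg _) he0.ne').1 ?_
  rw [h]
  exact zpow_lt_one_of_neg₀ (mod_cast hp.out.one_lt) hx

end FA.ExplicitLaw
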