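import Fermat.Agent.ExplicitReciprocity.Supplements

/-!
# The supplementary laws at `p = 3`, `α = -2`

The residue symbols at the inert prime `2` of `ℚ (ω)` are computed from their definition and agree
with the exponents of the laws, signs included.
-/

set_option autoImplicit false
set_option linter.unusedSectionVars false
set_option linter.style.haveILetI false

noncomputable section

open NumberField IsDedekindDomain
open FA.HilbertN FA.ArtinRec
open scoped Classical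

namespace FA.ExplicitLaw

variable {K : Type*} [Field K] [NumberField K] [Fact (Nat.Prime 3)]
  [hcyc : IsCyclotomicExtension {3 ^ (0 + 1)} ℚ K]
include hcyc

theorem finrank_cyclo_three : Module.finrank ℚ K = 2 := by
  rw [IsCyclotomicExtension.finrank (n := 3 ^ (0 + 1)) K
    (Polynomial.cyclotomic.irreducible_rat (by norm_num))]
  rfl

theorem norm_int_three (c : ℤ) : Algebra.norm ℤ (c : 𝓞 K) = c ^ 2 := by
  rw [show (c : 𝓞 K) = algebraMap ℤ (𝓞 K) c from (eq_intCast (algebraMap ℤ (𝓞 K)) c).symm,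
    Algebra.norm_algebraMap, RingOfIntegers.rank, finrank_cyclo_three]

variable [HasEnoughRootsOfUnity K (3 ^ (0 + 1))]

/-- The prime `2` stays prime. -/
theorem exists_place_two : ∃ w : HeightOneSpectrum (𝓞 K),
    w.asIdeal = Ideal.span {2} ∧ ((3 ^ (0 + 1) : ℕ) : 𝓞 K) ∉ w.asIdeal ∧
      Ideal.absNorm w.asIdeal = 4 ∧
        ∀ u : HeightOneSpectrum (𝓞 K), (2 : 𝓞 K) ∈ u.asIdeal → u = w := by
  have h4 : Ideal.absNorm (Ideal.span {(2 : 𝓞 K)}) = 4 := by
    rw [Ideal.absNorm_span_singleton, show (2 : 𝓞 K) = ((2 : ℤ) : 𝓞 K) by norm_num, norm_int_three]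
    rfl
  have key : ∀ u : HeightOneSpectrum (𝓞 K), (2 : 𝓞 K) ∈ u.asIdeal →
      ((3 ^ (0 + 1) : ℕ) : 𝓞 K) ∉ u.asIdeal ∧ u.asIdeal = Ideal.span {2} := fun u hu => by
    have h3 : ((3 ^ (0 + 1) : ℕ) : 𝓞 K) ∉ u.asIdeal := fun h => u.isPrime.ne_top
      ((Ideal.eq_top_iff_one _).2 (by
        have := u.asIdeal.sub_mem h hu
        norm_num at this
        exact this))
    refine ⟨h3, ?_⟩
    obtain ⟨J, hJ⟩ := Ideal.dvd_iff_le.2 ((Ideal.span_singleton_le_iff_mem _).2 hu)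
    have hm := congrArg Ideal.absNorm hJ
    rw [map_mul, h4] at hm
    have h1 := dvd_absNorm_sub_one (3 ^ (0 + 1)) h3
    have h2 := one_lt_absNorm u
    have hdvd : Ideal.absNorm u.asIdeal ∣ 4 := ⟨_, hm⟩
    have hle := Nat.le_of_dvd (by norm_num) hdvd
    have hu4 : Ideal.absNorm u.asIdeal = 4 := by
      norm_num at h1
      interval_cases h : Ideal.absNorm u.asIdeal <;> omega
    rw [hJ, Ideal.absNorm_eq_one_iff.1 (by rw [hu4] at hm; omega : Ideal.absNorm J = 1),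
      Ideal.mul_top]
  have hne : Ideal.span {(2 : 𝓞 K)} ≠ ⊤ := fun h => by rw [h, Ideal.absNorm_top] at h4; omega
  obtain ⟨M, hM, hle⟩ := Ideal.exists_le_maximal _ hne
  have h2 : (2 : 𝓞 K) ∈ M := hle (Ideal.mem_span_singleton_self _)
  let w : HeightOneSpectrum (𝓞 K) := ⟨M, hM.isPrime, fun h => two_ne_zero (α := 𝓞 K)
    (by rwa [h, Ideal.mem_bot] at h2)⟩
  obtain ⟨h3, hw⟩ := key w h2
  exact ⟨w, hw, h3, by rw [hw, h4], fun u hu =>
    HeightOneSpectrum.ext ((key u hu).2.trans hw.symm)⟩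

theorem residueProd_neg_two (x : 𝓞 K) (h0 : (-2 : 𝓞 K) ≠ 0) {w : HeightOneSpectrum (𝓞 K)}
    (hw : w.asIdeal = Ideal.span {2}) (h3 : ((3 ^ (0 + 1) : ℕ) : 𝓞 K) ∉ w.asIdeal)
    (huniq : ∀ u : HeightOneSpectrum (𝓞 K), (2 : 𝓞 K) ∈ u.asIdeal → u = w) :
    residueProd (3 ^ (0 + 1)) x (intU (-2) h0) = residueSymbol (3 ^ (0 + 1)) w x := by
  have hord : ord w (intU (-2) h0) = 1 := by
    rw [ord_eq_iff, intU_val, show ((-2 : 𝓞 K) : K) = algebraMap (𝓞 K) K (-2) from rfl,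
      HeightOneSpectrum.valuation_of_algebraMap,
      w.intValuation_singleton h0 (by rw [hw, Ideal.span_singleton_neg])]
  rw [residueProd, finprod_eq_single _ w fun u hu => ?_, if_neg h3, hord, zpow_one]
  split_ifs
  · rfl
  · rw [(ord_intU_eq_zero_iff u h0).2 fun h => hu (huniq u (by simpa using u.asIdeal.neg_mem h)),
      zpow_zero]

variable {ζ : K} (hζ : IsPrimitiveRoot ζ (3 ^ (0 + 1)))
include hζ

/-- **`(ω / -2) = ω`**, and the first law gives `ω ^ ((4 - 1) / 3)`. -/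
theorem supplement_check_zeta {z : 𝓞 K} (hz : (z : K) = ζ) (h0 : (-2 : 𝓞 K) ≠ 0) :
    ((residueProd (3 ^ (0 + 1)) z (intU (-2) h0) : Kˣ) : K) = ζ ∧
      (Algebra.norm ℤ (-2 : 𝓞 K) - 1) / ((3 ^ (0 + 1) : ℕ) : ℤ) = 1 := by
  refine ⟨?_, ?_⟩
  · obtain ⟨w, hw, h3, h4, huniq⟩ := exists_place_two (K := K)
    obtain ⟨ξ, hξ⟩ := exists_zetaRoot (p := 3) (n := 0) hζ
    have hz3 : z ^ 3 = 1 := RingOfIntegers.coe_injective (by
      show algebraMap (𝓞 K) K _ = algebraMap (𝓞 K) K _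
      rw [map_pow, map_one, show algebraMap (𝓞 K) K z = (z : K) from rfl, hz]
      exact hζ.pow_eq_one)
    rw [residueProd_neg_two z h0 hw h3 huniq, residueSymbol_eq _ h3 (fun h => w.isPrime.ne_top
      ((Ideal.eq_top_iff_one _).2 (hz3 ▸ w.asIdeal.pow_mem_of_mem h 3 (by norm_num)))) (ξ := ξ)
      ?_, hξ]
    rw [h4, show (4 - 1) / 3 ^ (0 + 1) = 1 from rfl, pow_one]
    convert w.asIdeal.zero_mem
    exact sub_eq_zero.2 (RingOfIntegers.ext (by rw [rootInt_val, hξ, hz]))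
  · rw [show (-2 : 𝓞 K) = ((-2 : ℤ) : 𝓞 K) by norm_num, norm_int_three]
    norm_num

variable {C : Type*} [NontriviallyNormedField C] [CompleteSpace C] [IsUltrametricDist C]
  [NormedAlgebra ℚ_[3] C] [CharZero C] [IsAlgClosed C]

omit hcyc hζ in
theorem norm_logOne_sub_self_le {z : C} (hz : ‖z‖ ≤ 3⁻¹) : ‖logOne z - z‖ ≤ 9⁻¹ := by
  have hz1 : ‖z‖ < 1 := hz.trans_lt (by norm_num)
  have hs : Summable fun j : ℕ => (-1) ^ j * z ^ (j + 1) / ((j + 1 : ℕ) : C) :=
    Summable.of_norm_bounded (summable_logBound hz1) fun j =>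
      (norm_div_natCast_le (p := 3) _ j).trans_eq (by
        rw [norm_mul, norm_pow, norm_pow, norm_neg, norm_one, one_pow, one_mul])
  rw [logOne, hs.tsum_eq_zero_add]
  simp only [pow_zero, one_mul, zero_add, Nat.cast_one, div_one, pow_one, add_sub_cancel_left]
  refine IsUltrametricDist.norm_tsum_le_of_forall_le_of_nonneg (by norm_num) fun j => ?_
  rcases j with - | j
  · rw [show ((0 + 1 + 1 : ℕ) : C) = ((2 : ℤ) : C) by norm_num, norm_div,
      FA.Brumer.norm_intCast 3, Padic.norm_intCast_eq_one_iff.2 (by norm_num), div_one, norm_mul,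
      norm_pow, norm_pow, norm_neg, norm_one, one_pow, one_mul]
    exact (pow_le_pow_left₀ (norm_nonneg z) hz _).trans (by norm_num)
  · refine (norm_div_natCast_le (p := 3) _ _).trans ?_
    rw [norm_mul, norm_pow, norm_pow, norm_neg, norm_one, one_pow, one_mul]
    refine (mul_le_mul_of_nonneg_left (pow_le_pow_left₀ (norm_nonneg z) hz _)
      (Nat.cast_nonneg _)).trans ?_
    induction j with
    | zero => norm_num
    | succ j ih =>
      refine le_trans ?_ ih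
      rw [pow_succ _ (j + 1 + 1 + 1), ← mul_assoc, mul_comm _ ((3 : ℝ)⁻¹), ← mul_assoc]
      refine mul_le_mul_of_nonneg_right ?_ (by positivity)
      push_cast
      linarith [show (0 : ℝ) ≤ j from Nat.cast_nonneg j]

/-- **`((ω - 1) / -2) = ω ^ 2`**, and `2` is in the class of the law. -/
theorem supplement_check_uniformizer {ε : 𝓞 K} (hε : (ε : K) = ζ - 1) (h0 : (-2 : 𝓞 K) ≠ 0) :
    ((residueProd (3 ^ (0 + 1)) ε (intU (-2) h0) : Kˣ) : K) = ζ ^ (2 : ℤ) ∧
      ‖((2 : ℤ) : C) - (∑ σ : K →+* C, logOne (σ ((-2 : 𝓞 K) : K) - 1) *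
        σ (ζ / (ζ - 1))) / (3 : C) ^ (0 + 1)‖ ≤ (((3 : ℕ) : ℝ)⁻¹) ^ (0 + 1) := by
  refine ⟨?_, ?_⟩
  · obtain ⟨w, hw, h3, h4, huniq⟩ := exists_place_two (K := K)
    obtain ⟨ξ, hξ⟩ := exists_zetaRoot (p := 3) (n := 0) hζ
    have hsum : 1 + ζ + ζ ^ 2 = 0 := by
      have h := (show IsPrimitiveRoot ζ 3 by simpa using hζ).geom_sum_eq_zero (by norm_num)
      simpa [Finset.sum_range_succ] using h
    have hval : (rootInt (3 ^ (0 + 1)) (ξ ^ 2) : K) = ζ ^ 2 := by
      rw [rootInt_val, Subgroup.coe_pow, Units.val_pow_eq_pow_val, hξ]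
    have hmem : ε - rootInt (3 ^ (0 + 1)) (ξ ^ 2) ∈ w.asIdeal := by
      rw [hw, Ideal.mem_span_singleton]
      refine ⟨rootInt (3 ^ (0 + 1)) ξ, RingOfIntegers.coe_injective ?_⟩
      show algebraMap (𝓞 K) K _ = algebraMap (𝓞 K) K _
      rw [map_sub, map_mul, map_ofNat, show algebraMap (𝓞 K) K ε = (ε : K) from rfl, hε,
        show algebraMap (𝓞 K) K (rootInt (3 ^ (0 + 1)) (ξ ^ 2)) = ζ ^ 2 from hval,
        show algebraMap (𝓞 K) K (rootInt (3 ^ (0 + 1)) ξ) = ζ from hξ]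
      linear_combination -hsum
    have hnot : ε ∉ w.asIdeal := fun h => w.isPrime.ne_top ((Ideal.eq_top_iff_one _).2 (by
      rw [← rootInt_pow_eq_one (3 ^ (0 + 1)) (ξ ^ 2)]
      exact w.asIdeal.pow_mem_of_mem (by simpa using w.asIdeal.sub_mem h hmem) _ (by norm_num)))
    rw [residueProd_neg_two ε h0 hw h3 huniq, residueSymbol_eq _ h3 hnot (ξ := ξ ^ 2) ?_,
      Subgroup.coe_pow, Units.val_pow_eq_pow_val, hξ]
    · norm_cast
    rw [h4, show (4 - 1) / 3 ^ (0 + 1) = 1 from rfl, pow_one]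
    exact hmem
  · have hσ : ∀ σ : K →+* C, logOne (σ ((-2 : 𝓞 K) : K) - 1) = logOne (-3 : C) := fun σ => by
      rw [show ((-2 : 𝓞 K) : K) = -2 by
        rw [show ((-2 : 𝓞 K) : K) = algebraMap (𝓞 K) K (-2) from rfl, map_neg, map_ofNat],
        map_neg, map_ofNat]
      norm_num
    have hsum : 1 + ζ + ζ ^ 2 = 0 := by
      have h := (show IsPrimitiveRoot ζ 3 by simpa using hζ).geom_sum_eq_zero (by norm_num)
      simpa [Finset.sum_range_succ] using h
    have h1 : ζ - 1 ≠ 0 := sub_ne_zero.2 (hζ.ne_one (by norm_num))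
    have hδ : ζ / (ζ - 1) = algebraMap ℚ K (1 / 3) * (1 - ζ) := by
      rw [map_div₀, map_one, map_ofNat, div_eq_iff h1]
      field_simp
      linear_combination hsum
    have htr : Algebra.trace ℚ K (ζ / (ζ - 1)) = 1 := by
      rw [hδ, ← Algebra.smul_def, map_smul, map_sub, trace_root 3 hζ, if_pos rfl,
        ← map_one (algebraMap ℚ K), Algebra.trace_algebraMap, finrank_cyclo_three]
      norm_num
    have hS : ∑ σ : K →+* C, logOne (σ ((-2 : 𝓞 K) : K) - 1) * σ (ζ / (ζ - 1)) =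
        logOne (-3 : C) := by
      rw [Finset.sum_congr rfl fun σ _ => by rw [hσ σ], ← Finset.mul_sum]
      have h := congrArg (algebraMap ℚ C) htr
      rw [trace_eq_sum_embeddings C, ← (RingHom.equivRatAlgHom (R := K) (S := C)).sum_comp,
        map_one] at h
      rw [show ∑ σ : K →+* C, σ (ζ / (ζ - 1)) = 1 from h, mul_one]
    rw [hS, zero_add, pow_one]
    set L := logOne (-3 : C)
    have h3 : ‖(3 : C)‖ = 3⁻¹ := by simpa using FA.Brumer.norm_prime 3 (C := C)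
    have hL : ‖L - (-3)‖ ≤ 9⁻¹ := norm_logOne_sub_self_le (by rw [norm_neg, h3])
    have h30 : (3 : C) ≠ 0 := by norm_num
    rw [show ((2 : ℤ) : C) - L / 3 = (3 * 3 + -(L - (-3))) / 3 by field_simp; push_cast; ring,
      norm_div, h3, div_le_iff₀ (by norm_num), pow_one]
    refine (IsUltrametricDist.norm_add_le_max _ _).trans (max_le ?_ ?_)
    · rw [norm_mul, h3]; norm_num
    · rw [norm_neg]; exact hL.trans (by norm_num)

/-- **The law gives the computed value.** -/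
theorem supplement_check_agrees {v : HeightOneSpectrum (𝓞 K)} (hv : ((3 : ℕ) : 𝓞 K) ∈ v.asIdeal)
    {ε : 𝓞 K} (hε : (ε : K) = ζ - 1) (h0 : (-2 : 𝓞 K) ≠ 0) {t : ℤ}
    (ht : ‖(t : C) - (∑ σ : K →+* C, logOne (σ ((-2 : 𝓞 K) : K) - 1) *
      σ (((1 : ℕ) : K) * ζ ^ 1 / (ζ ^ 1 - 1))) / ((3 : ℕ) : C) ^ (0 + 1)‖ ≤
        (((3 : ℕ) : ℝ)⁻¹) ^ (0 + 1)) :
    ((residueProd (3 ^ (0 + 1)) ε (intU (-2) h0) : Kˣ) : K) = ζ ^ t := by
  obtain ⟨h, h2⟩ := supplement_check_uniformizer (C := C) hζ hε h0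
  rw [h]
  refine zeta_zpow_eq_of_close (p := 3) (n := 0) hv hζ
    (S := (∑ σ : K →+* C, logOne (σ ((-2 : 𝓞 K) : K) - 1) * σ (ζ / (ζ - 1))) /
      ((3 : ℕ) : C) ^ (0 + 1)) ?_ ?_
  · simpa using h2
  · simpa using ht

end FA.ExplicitLaw
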