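import Fermat.Agent.ExplicitReciprocity.GaloisSymbol
import Fermat.Agent.ExplicitReciprocity.SupplementChecks

/-!
# Reciprocity for primary numbers

`(α / β) = (β / α)` when `α ≡ 1` modulo `π ^ i`, `β ≡ 1` modulo `π ^ j` and `i + j` exceeds the
bound; for `n = 0` the ratio on the border is `ζ ^ (i a b)`, and Kummer's law: the symbols agree on
the numbers congruent to a rational integer modulo `π ^ 2` whose product with the conjugate is
congruent to a rational integer modulo `p`.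
-/

set_option autoImplicit false
set_option linter.unusedSectionVars false
set_option linter.style.haveILetI false

noncomputable section

open NumberField IsDedekindDomain Polynomial
open FA.HilbertN FA.ArtinRec
open scoped Pointwise Classical

namespace FA.ExplicitLaw

section general

variable {p : ℕ} [hp : Fact p.Prime] {n : ℕ} {K : Type*} [Field K] [NumberField K]
  [hcyc : IsCyclotomicExtension {p ^ (n + 1)} ℚ K] [HasEnoughRootsOfUnity K (p ^ (n + 1))]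
  {v : HeightOneSpectrum (𝓞 K)} (hv : (p : 𝓞 K) ∈ v.asIdeal)

omit hp hcyc [HasEnoughRootsOfUnity K (p ^ (n + 1))] in
theorem lvl_sub_one_of_mem {k : ℕ} {α : 𝓞 K} (h : α - 1 ∈ v.asIdeal ^ k) :
    Lvl v k ((α : K) - 1) := by
  simpa using (lvl_coe_iff (K := K)).2 h

omit hcyc [HasEnoughRootsOfUnity K (p ^ (n + 1))] in
theorem exists_conj_aut [IsCyclotomicExtension {p ^ (n + 1)} ℚ K] {ζ : K}
    (hζ : IsPrimitiveRoot ζ (p ^ (n + 1))) : ∃ g : K ≃ₐ[ℚ] K, g ζ = ζ⁻¹ := by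
  haveI : NeZero (p ^ (n + 1)) := ⟨pow_ne_zero _ hp.out.ne_zero⟩
  have haev : aeval ζ⁻¹ (minpoly ℚ (hζ.powerBasis ℚ).gen) = 0 := by
    rw [IsPrimitiveRoot.powerBasis_gen, ← hζ.minpoly_eq_cyclotomic_of_irreducible
      (cyclotomic.irreducible_rat (pow_pos hp.out.pos _)), aeval_def, eval₂_eq_eval_map,
      map_cyclotomic]
    exact hζ.inv.isRoot_cyclotomic (pow_pos hp.out.pos _)
  refine ⟨AlgEquiv.ofBijective ((hζ.powerBasis ℚ).lift _ haev)
    (Algebra.IsAlgebraic.algHom_bijective _), ?_⟩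
  show (hζ.powerBasis ℚ).lift _ haev ζ = _
  conv_lhs => arg 2; rw [← hζ.powerBasis_gen ℚ]
  exact PowerBasis.lift_gen _ _ _

omit [HasEnoughRootsOfUnity K (p ^ (n + 1))] in
theorem conj_aut_apply_apply {ζ : K} (hζ : IsPrimitiveRoot ζ (p ^ (n + 1))) {g : K ≃ₐ[ℚ] K}
    (hg : g ζ = ζ⁻¹) (x : K) : g (g x) = x := by
  haveI : NeZero (p ^ (n + 1)) := ⟨pow_ne_zero _ hp.out.ne_zero⟩
  have h : (g : K →ₐ[ℚ] K).comp g = AlgHom.id ℚ K := (hζ.powerBasis ℚ).algHom_ext (by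
    show g (g (hζ.powerBasis ℚ).gen) = (hζ.powerBasis ℚ).gen
    rw [hζ.powerBasis_gen ℚ, hg, map_inv₀, hg, inv_inv])
  exact DFunLike.congr_fun h x

theorem restrict_conj_eq_inv {ζ : K} (hζ : IsPrimitiveRoot ζ (p ^ (n + 1))) {g : K ≃ₐ[ℚ] K}
    (hg : g ζ = ζ⁻¹) (ξ : rootsOfUnity (p ^ (n + 1)) K) :
    restrictRootsOfUnity g (p ^ (n + 1)) ξ = ξ⁻¹ := by
  haveI : NeZero (p ^ (n + 1)) := ⟨pow_ne_zero _ hp.out.ne_zero⟩
  obtain ⟨i, -, hi⟩ := hζ.eq_pow_of_pow_eq_one (coe_pow_eq_one (p ^ (n + 1)) ξ)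
  refine Subtype.ext (Units.ext ?_)
  rw [restrictRootsOfUnity_coe_apply, Subgroup.coe_inv, Units.val_inv_eq_inv_val, ← hi, map_pow, hg,
    inv_pow]

include hv hcyc

variable (n) in
/-- Integers represent the residues at `v`. -/
theorem exists_intCast_sub_mem (x : 𝓞 K) : ∃ c : ℤ, x - c ∈ v.asIdeal := by
  haveI : NeZero (p ^ (n + 1)) := ⟨pow_ne_zero _ hp.out.ne_zero⟩
  obtain ⟨ζ, hζ⟩ := HasEnoughRootsOfUnity.exists_primitiveRoot K (p ^ (n + 1))
  have hcard : Nat.card (𝓞 K ⧸ v.asIdeal) = p := by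
    rw [← Submodule.cardQuot_apply, ← Ideal.absNorm_apply, asIdeal_eq_span_sub_one hv hζ,
      IsCyclotomicExtension.Rat.absNorm_span_zeta_sub_one]
  have hone : (1 : 𝓞 K ⧸ v.asIdeal) ≠ 0 := by
    rw [← map_one (Ideal.Quotient.mk v.asIdeal), Ne, Ideal.Quotient.eq_zero_iff_mem]
    exact fun h => v.isPrime.ne_top ((Ideal.eq_top_iff_one _).2 h)
  obtain ⟨c, hc⟩ := AddSubgroup.mem_zmultiples_iff.1
    ((zmultiples_eq_top_of_prime_card hcard hone).symm ▸ AddSubgroup.mem_top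
      (Ideal.Quotient.mk v.asIdeal x))
  refine ⟨c, Ideal.Quotient.eq.1 ?_⟩
  rw [← hc, map_intCast, zsmul_eq_mul, mul_one]

theorem exists_intCast_approx {ζ : K} (hζ : IsPrimitiveRoot ζ (p ^ (n + 1))) {i : ℕ} {α : 𝓞 K}
    (hα : α - 1 ∈ v.asIdeal ^ i) :
    ∃ a : ℤ, α - (1 + (a : 𝓞 K) * (hζ.toInteger - 1) ^ i) ∈ v.asIdeal ^ (i + 1) := by
  have hv' := asIdeal_eq_span_sub_one hv hζ
  rw [hv', Ideal.span_singleton_pow, Ideal.mem_span_singleton] at hα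
  obtain ⟨c, hc⟩ := hα
  obtain ⟨a, ha⟩ := exists_intCast_sub_mem n hv c
  refine ⟨a, ?_⟩
  rw [show α - (1 + (a : 𝓞 K) * (hζ.toInteger - 1) ^ i) =
    (hζ.toInteger - 1) ^ i * (c - a) by linear_combination hc, pow_succ]
  refine Ideal.mul_mem_mul ?_ ha
  rw [hv', Ideal.span_singleton_pow]
  exact Ideal.mem_span_singleton_self _

/-- **Reciprocity for primary numbers.** -/
theorem residueProd_symm_of_lvl (hq : 2 < p ^ (n + 1)) {i j : ℕ} (hij : powBound p n < i + j)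
    {α β : 𝓞 K} (hα : α ≠ 0) (hβ : β ≠ 0) (hαi : α - 1 ∈ v.asIdeal ^ i)
    (hβj : β - 1 ∈ v.asIdeal ^ j)
    (hco : ∀ w : HeightOneSpectrum (𝓞 K), w ≠ v → α ∉ w.asIdeal ∨ β ∉ w.asIdeal) :
    residueProd (p ^ (n + 1)) α (intU β hβ) = residueProd (p ^ (n + 1)) β (intU α hα) := by
  have h := residueProd_reciprocity_cyclo hv hq hα hβ hco
  rw [← pairing_units, intU_val, intU_val, pairing_eq_one_of_lvl n hv hij (lvl_sub_one_of_mem hαi)
    (lvl_sub_one_of_mem hβj), mul_inv_eq_one] at h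
  exact h

end general

variable {p : ℕ} [hp : Fact p.Prime] {K : Type*} [Field K] [NumberField K]
  [hcyc : IsCyclotomicExtension {p ^ (0 + 1)} ℚ K] [HasEnoughRootsOfUnity K (p ^ (0 + 1))]
  {v : HeightOneSpectrum (𝓞 K)} (hv : (p : 𝓞 K) ∈ v.asIdeal) {ζ : K}
  (hζ : IsPrimitiveRoot ζ (p ^ (0 + 1))) (hp2 : p ≠ 2)
include hv hcyc hζ hp2

omit hv hζ [HasEnoughRootsOfUnity K (p ^ (0 + 1))] hcyc in
theorem two_lt_pow_one : 2 < p ^ (0 + 1) := by
  have := hp.out.two_le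
  rw [zero_add, pow_one]
  omega

/-- **The ratio of the symbols on the border.** -/
theorem residueProd_ratio_border {i j : ℕ} (hi : 1 ≤ i) (hj : 1 ≤ j) (hij : i + j = p)
    {α β : 𝓞 K} (hα : α ≠ 0) (hβ : β ≠ 0) {a b : ℤ}
    (hαi : α - (1 + (a : 𝓞 K) * (hζ.toInteger - 1) ^ i) ∈ v.asIdeal ^ (i + 1))
    (hβj : β - (1 + (b : 𝓞 K) * (hζ.toInteger - 1) ^ j) ∈ v.asIdeal ^ (j + 1))
    (hco : ∀ w : HeightOneSpectrum (𝓞 K), w ≠ v → α ∉ w.asIdeal ∨ β ∉ w.asIdeal) :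
    ((residueProd (p ^ (0 + 1)) α (intU β hβ) *
        (residueProd (p ^ (0 + 1)) β (intU α hα))⁻¹ : rootsOfUnity (p ^ (0 + 1)) K) : Kˣ) =
      ζ ^ ((i : ℤ) * a * b) := by
  obtain ⟨ξ, hξ⟩ := exists_zetaRoot (p := p) (n := 0) hζ
  have key : ∀ {k : ℕ} {c : ℤ} {x : 𝓞 K},
      x - (1 + (c : 𝓞 K) * (hζ.toInteger - 1) ^ k) ∈ v.asIdeal ^ (k + 1) →
      Lvl v (k + 1) ((x : K) - (1 + (c : K) * (ζ - 1) ^ k)) := fun {k c x} h => by
    have h1 := (lvl_coe_iff (K := K)).2 h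
    simpa [map_sub, map_add, map_mul, map_pow,
      show algebraMap (𝓞 K) K hζ.toInteger = ζ from rfl] using h1
  rw [residueProd_reciprocity_cyclo hv (two_lt_pow_one hp2) hα hβ hco, ← pairing_units, intU_val,
    intU_val, pairing_borderline hv hζ hp2 hξ hi hj hij (key hαi) (key hβj),
    SubgroupClass.coe_zpow, Units.val_zpow_eq_zpow_val, hξ]

omit hζ in
theorem eq_one_of_pow_pred {x : rootsOfUnity (p ^ (0 + 1)) K} (h : x ^ (p - 1) = 1) : x = 1 := by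
  have h2 : x ^ p = 1 := by
    simpa using (Subtype.ext ((mem_rootsOfUnity _ _).1 x.2) : x ^ p ^ (0 + 1) = 1)
  rw [← one_mul x]
  nth_rewrite 1 [← h]
  rwa [← pow_succ, Nat.sub_add_cancel hp.out.one_le]

omit hv hcyc hζ hp2 [HasEnoughRootsOfUnity K (p ^ (0 + 1))] in
/-- Congruent to a rational integer modulo `π ^ 2`, prime to `p`. -/
def SemiPrimaryAt (v : HeightOneSpectrum (𝓞 K)) (α : 𝓞 K) : Prop :=
  α ∉ v.asIdeal ∧ ∃ a : ℤ, α - a ∈ v.asIdeal ^ 2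

omit hv hcyc hζ hp2 [HasEnoughRootsOfUnity K (p ^ (0 + 1))] in
/-- **Kummer's primary numbers**: semi-primary, and `α ᾱ` congruent to an integer modulo `p`. -/
def KummerPrimary (p : ℕ) (v : HeightOneSpectrum (𝓞 K)) (g : K ≃ₐ[ℚ] K) (α : 𝓞 K) : Prop :=
  SemiPrimaryAt v α ∧ ∃ b : ℤ, (p : 𝓞 K) ∣ α * (g • α) - b

omit hζ hp2 in
theorem dvd_iff_mem_pow {x : 𝓞 K} : (p : 𝓞 K) ∣ x ↔ x ∈ v.asIdeal ^ (p - 1) := by
  obtain ⟨ζ, hζ⟩ := HasEnoughRootsOfUnity.exists_primitiveRoot K (p ^ (0 + 1))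
  have h := valuation_prime_eq 0 hv (K := K)
  constructor
  · rintro ⟨c, rfl⟩
    refine Ideal.mul_mem_right _ _ ?_
    rw [← lvl_coe_iff (K := K)]
    simpa using lvl_prime_zero (ζ := ζ) hv hζ
  · intro hx
    have h1 : Deep v p 1 (x : K) := by
      rw [Deep, pow_one, h]
      simpa [Lvl, ramExp] using (lvl_coe_iff (K := K)).2 hx
    obtain ⟨c, d, hd, hcd⟩ := exists_intCast_mul_eq 0 hv h1
    obtain ⟨s, t, hst⟩ :=
      ((Nat.prime_iff_prime_int.1 hp.out).irreducible.coprime_iff_not_dvd.2 hd)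
    rw [pow_one] at hcd
    refine ⟨(s : 𝓞 K) * x + (t : 𝓞 K) * c, RingOfIntegers.coe_injective ?_⟩
    have h2 := congrArg (Int.cast : ℤ → K) hst
    push_cast at h2
    show algebraMap (𝓞 K) K x = algebraMap (𝓞 K) K _
    simp only [map_mul, map_add, map_natCast, map_intCast]
    linear_combination (norm := ring_nf) (t : K) * hcd - (x : K) * h2

/-- **Kummer's law at `v`.** -/
theorem pairing_kummer_primary {g : K ≃ₐ[ℚ] K} (hg : g ζ = ζ⁻¹) {α β : 𝓞 K}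
    (hα : KummerPrimary p v g α) (hβ : KummerPrimary p v g β) :
    pairing v p (0 + 1) (α : K) (β : K) = 1 := by
  have hp3 : 3 ≤ p := by have := hp.out.two_le; omega
  have hb0 : powBound p 0 = p := powBound_zero
  have hq := two_lt_pow_one (p := p) hp2
  have hunit : ∀ {x : 𝓞 K}, x ∉ v.asIdeal → v.valuation K (x : K) = 1 := fun {x} hx => by
    rw [show v.valuation K (x : K) = v.intValuation x from v.valuation_of_algebraMap x,
      v.intValuation_eq_one_iff_mem_primeCompl]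
    exact hx
  -- for a primary number `x`: `x / x̄ ≡ 1` modulo `π ^ 2` and `(x x̄) ^ (p - 1) ≡ 1` modulo `p`
  have hA : ∀ {x : 𝓞 K}, KummerPrimary p v g x →
      Lvl v 2 ((x : K) / ((g • x : 𝓞 K) : K) - 1) := by
    rintro x ⟨⟨hx, a, ha⟩, -⟩
    have hgx := smul_notMem_wild 0 hv g hx
    have h1 : x - g • x ∈ v.asIdeal ^ 2 := by
      have h2 : g • (x - (a : 𝓞 K)) ∈ v.asIdeal ^ 2 := (smul_mem_pow_iff 0 hv g).2 ha
      rw [smul_sub, show g • (a : 𝓞 K) = a from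
        map_intCast (MulSemiringAction.toRingHom (K ≃ₐ[ℚ] K) (𝓞 K) g) a] at h2
      simpa using sub_mem ha h2
    rw [div_sub_one (fun h => by simpa [h] using hunit hgx)]
    exact (by simpa using (lvl_coe_iff (K := K)).2 h1 :
      Lvl v 2 ((x : K) - ((g • x : 𝓞 K) : K))).div (hunit hgx)
  have hP : ∀ {x : 𝓞 K}, KummerPrimary p v g x →
      Lvl v (p - 1) (((x : K) * ((g • x : 𝓞 K) : K)) ^ (p - 1) - 1) := by
    rintro x ⟨⟨hx, -⟩, b, hb⟩
    set P := x * (g • x) with hPdef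
    have hPv : P ∉ v.asIdeal := fun h =>
      (v.isPrime.mem_or_mem h).elim hx (smul_notMem_wild 0 hv g hx)
    have hpb : ¬ (p : ℤ) ∣ b := fun ⟨d, hd⟩ => hPv (by
      have hbv : (b : 𝓞 K) ∈ v.asIdeal := by
        rw [hd, Int.cast_mul, Int.cast_natCast]; exact v.asIdeal.mul_mem_right _ hv
      simpa using v.asIdeal.add_mem (v.asIdeal.mem_of_dvd hb hv) hbv)
    have h1 : (p : 𝓞 K) ∣ P ^ (p - 1) - 1 := by
      obtain ⟨d, hd⟩ : (p : ℤ) ∣ b ^ (p - 1) - 1 := by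
        rw [← ZMod.intCast_zmod_eq_zero_iff_dvd, Int.cast_sub, Int.cast_pow, Int.cast_one,
          ZMod.pow_card_sub_one_eq_one (fun h =>
            hpb ((ZMod.intCast_zmod_eq_zero_iff_dvd b p).1 h)), sub_self]
      have hd' := congrArg (Int.cast : ℤ → 𝓞 K) hd
      push_cast at hd'
      rw [show P ^ (p - 1) - 1 = (P ^ (p - 1) - (b : 𝓞 K) ^ (p - 1)) + ((b : 𝓞 K) ^ (p - 1) - 1) by
        ring]
      exact dvd_add (hb.trans (sub_dvd_pow_sub_pow _ _ _)) ⟨_, hd'⟩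
    simpa [hPdef] using (lvl_coe_iff (K := K)).2 ((dvd_iff_mem_pow hv).1 h1)
  have hx0 : ∀ {x : 𝓞 K}, KummerPrimary p v g x → (x : K) ≠ 0 := fun h h0 => by
    simpa [h0] using hunit h.1.1
  have hgx0 : ∀ {x : 𝓞 K}, KummerPrimary p v g x → ((g • x : 𝓞 K) : K) ≠ 0 := fun h h0 => by
    simpa [h0] using hunit (smul_notMem_wild 0 hv g h.1.1)
  -- three of the four symbols are trivial
  have hAP : ∀ {x y : 𝓞 K}, KummerPrimary p v g x → KummerPrimary p v g y →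
      pairing v p (0 + 1) ((x : K) / ((g • x : 𝓞 K) : K)) ((y : K) * ((g • y : 𝓞 K) : K)) = 1 := by
    intro x y hx hy
    refine eq_one_of_pow_pred hv hp2 ?_
    rw [← pairing_pow_right p (0 + 1) _ (mul_ne_zero (hx0 hy) (hgx0 hy))]
    exact pairing_eq_one_of_lvl 0 hv (by omega) (hA hx) (hP hy)
  have hPP : pairing v p (0 + 1) ((α : K) * ((g • α : 𝓞 K) : K))
      ((β : K) * ((g • β : 𝓞 K) : K)) = 1 := by
    refine eq_one_of_pow_pred hv hp2 (eq_one_of_pow_pred hv hp2 ?_)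
    rw [← pairing_pow_right p (0 + 1) _ (mul_ne_zero (hx0 hβ) (hgx0 hβ)), pairing_symm,
      inv_pow, ← pairing_pow_right p (0 + 1) _ (mul_ne_zero (hx0 hα) (hgx0 hα)), inv_eq_one]
    exact pairing_eq_one_of_lvl 0 hv (by omega) (hP hβ) (hP hα)
  -- the fourth is its own inverse, by the conjugation
  have hgal : ∀ {x y : 𝓞 K}, x ∉ v.asIdeal → y ∉ v.asIdeal →
      pairing v p (0 + 1) ((g • x : 𝓞 K) : K) ((g • y : 𝓞 K) : K) =
        (pairing v p (0 + 1) (x : K) (y : K))⁻¹ := fun hx hy => by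
    rw [pairing_galois hv hq g hx hy, restrict_conj_eq_inv hζ hg]
  have hgg : g • (g • β) = β := RingOfIntegers.ext (conj_aut_apply_apply hζ hg (β : K))
  have hdivl : ∀ {x x' : K} (y : K), x ≠ 0 → x' ≠ 0 → pairing v p (0 + 1) (x / x') y =
      pairing v p (0 + 1) x y * (pairing v p (0 + 1) x' y)⁻¹ := fun {x x'} y hx hx' => by
    rw [eq_mul_inv_iff_mul_eq, ← pairing_mul_left p (0 + 1) (div_ne_zero hx hx') hx',
      div_mul_cancel₀ _ hx']
  have hdivr : ∀ (x : K) {y y' : K}, y ≠ 0 → y' ≠ 0 → pairing v p (0 + 1) x (y / y') =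
      pairing v p (0 + 1) x y * (pairing v p (0 + 1) x y')⁻¹ := fun x {y y'} hy hy' => by
    rw [eq_mul_inv_iff_mul_eq, ← pairing_mul_right p (0 + 1) x (div_ne_zero hy hy') hy',
      div_mul_cancel₀ _ hy']
  have hAB : pairing v p (0 + 1) ((α : K) / ((g • α : 𝓞 K) : K))
      ((β : K) / ((g • β : 𝓞 K) : K)) = 1 := by
    rw [hdivl _ (hx0 hα) (hgx0 hα), hdivr _ (hx0 hβ) (hgx0 hβ), hdivr _ (hx0 hβ) (hgx0 hβ),
      hgal hα.1.1 hβ.1.1]
    have h := hgal hα.1.1 (smul_notMem_wild 0 hv g hβ.1.1)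
    rw [hgg] at h
    rw [h]
    simp [mul_comm, mul_left_comm]
  have hsq : pairing v p (0 + 1) ((α : K) ^ 2) ((β : K) ^ 2) = 1 := by
    have e : ∀ {x : 𝓞 K}, KummerPrimary p v g x → (x : K) ^ 2 =
        (x : K) / ((g • x : 𝓞 K) : K) * ((x : K) * ((g • x : 𝓞 K) : K)) := fun {x} hx => by
      field_simp [hgx0 hx]
    have hd : ∀ {x : 𝓞 K}, KummerPrimary p v g x → (x : K) / ((g • x : 𝓞 K) : K) ≠ 0 := fun hx =>
      div_ne_zero (hx0 hx) (hgx0 hx)
    have hm : ∀ {x : 𝓞 K}, KummerPrimary p v g x → (x : K) * ((g • x : 𝓞 K) : K) ≠ 0 := fun hx =>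
      mul_ne_zero (hx0 hx) (hgx0 hx)
    rw [e hα, e hβ, pairing_mul_left p (0 + 1) (hd hα) (hm hα),
      pairing_mul_right p (0 + 1) _ (hd hβ) (hm hβ), pairing_mul_right p (0 + 1) _ (hd hβ) (hm hβ),
      hAB, hAP hα hβ, hPP, pairing_symm 0 ((β : K) / ((g • β : 𝓞 K) : K)), hAP hβ hα]
    group
  have h4 : pairing v p (0 + 1) (α : K) (β : K) ^ 4 = 1 := by
    rw [← hsq, pairing_pow_right p (0 + 1) _ (hx0 hβ), pow_two (α : K),
      pairing_mul_left p (0 + 1) (hx0 hα) (hx0 hα), ← pow_two, ← pow_mul]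
  have hpc : pairing v p (0 + 1) (α : K) (β : K) ^ p = 1 := by
    simpa using pairing_pow_card (v := v) (p := p) 0 (α : K) (β : K)
  have h := pow_gcd_eq_one.2 ⟨h4, hpc⟩
  rw [show Nat.gcd 4 p = 1 from Nat.Coprime.pow_left 2
    (Nat.prime_two.coprime_iff_not_dvd.2 fun hd =>
      hp2 ((Nat.prime_dvd_prime_iff_eq Nat.prime_two hp.out).1 hd).symm)] at h
  exact (pow_one _).symm.trans h

/-- **Kummer's law of reciprocity.** -/
theorem residueProd_symm_kummer {g : K ≃ₐ[ℚ] K} (hg : g ζ = ζ⁻¹) {α β : 𝓞 K} (hα0 : α ≠ 0)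
    (hβ0 : β ≠ 0) (hα : KummerPrimary p v g α) (hβ : KummerPrimary p v g β)
    (hco : ∀ w : HeightOneSpectrum (𝓞 K), w ≠ v → α ∉ w.asIdeal ∨ β ∉ w.asIdeal) :
    residueProd (p ^ (0 + 1)) α (intU β hβ0) = residueProd (p ^ (0 + 1)) β (intU α hα0) := by
  have h := residueProd_reciprocity_cyclo hv (two_lt_pow_one hp2) hα0 hβ0 hco
  rw [← pairing_units, intU_val, intU_val, pairing_kummer_primary hv hζ hp2 hg hα hβ,
    mul_inv_eq_one] at h
  exact h

/-- For `p = 3` semi-primary is primary. -/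
theorem kummerPrimary_of_semiPrimary_three (h3 : p = 3) (g : K ≃ₐ[ℚ] K) {α : 𝓞 K}
    (hα : SemiPrimaryAt v α) : KummerPrimary p v g α := by
  obtain ⟨hαv, a, ha⟩ := hα
  refine ⟨⟨hαv, a, ha⟩, a ^ 2, (dvd_iff_mem_pow hv).2 ?_⟩
  have hga : g • α - a ∈ v.asIdeal ^ 2 := by
    have h2 := (smul_mem_pow_iff 0 hv g (k := 2)).2 ha
    rwa [smul_sub, show g • (a : 𝓞 K) = a from
      map_intCast (MulSemiringAction.toRingHom (K ≃ₐ[ℚ] K) (𝓞 K) g) a] at h2
  rw [show p - 1 = 2 by omega, show α * (g • α) - ((a ^ 2 : ℤ) : 𝓞 K) =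
    (α - a) * (g • α) + a * (g • α - a) by push_cast; ring]
  exact add_mem (Ideal.mul_mem_right _ _ ha) (Ideal.mul_mem_left _ _ hga)

/-- **The law of cubic reciprocity** from the symbol at `v`. -/
theorem residueProd_symm_cubic (h3 : p = 3) {α β : 𝓞 K} (hα0 : α ≠ 0) (hβ0 : β ≠ 0)
    (hα : SemiPrimaryAt v α) (hβ : SemiPrimaryAt v β)
    (hco : ∀ w : HeightOneSpectrum (𝓞 K), w ≠ v → α ∉ w.asIdeal ∨ β ∉ w.asIdeal) :
    residueProd (p ^ (0 + 1)) α (intU β hβ0) = residueProd (p ^ (0 + 1)) β (intU α hα0) := by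
  obtain ⟨g, hg⟩ := exists_conj_aut (p := p) (n := 0) hζ
  exact residueProd_symm_kummer hv hζ hp2 hg hα0 hβ0
    (kummerPrimary_of_semiPrimary_three hv hζ hp2 h3 g hα)
    (kummerPrimary_of_semiPrimary_three hv hζ hp2 h3 g hβ) hco

end FA.ExplicitLaw

namespace FA.ExplicitLaw

variable {K : Type*} [Field K] [NumberField K] [Fact (Nat.Prime 3)]
  [IsCyclotomicExtension {3 ^ (0 + 1)} ℚ K] [HasEnoughRootsOfUnity K (3 ^ (0 + 1))]
  {v : HeightOneSpectrum (𝓞 K)} (hv : ((3 : ℕ) : 𝓞 K) ∈ v.asIdeal) {ζ : K}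
  (hζ : IsPrimitiveRoot ζ (3 ^ (0 + 1)))
include hv hζ

/-- **The border formula at `(ω, -2)`**: `ω ^ (1 * 1 * 1)`, as `supplement_check_zeta` computes. -/
theorem border_check {z : 𝓞 K} (hz : (z : K) = ζ) (hz0 : z ≠ 0) (h0 : (-2 : 𝓞 K) ≠ 0) :
    ((residueProd (3 ^ (0 + 1)) z (intU (-2) h0) *
        (residueProd (3 ^ (0 + 1)) (-2 : 𝓞 K) (intU z hz0))⁻¹ :
          rootsOfUnity (3 ^ (0 + 1)) K) : Kˣ) = ζ ^ (((1 : ℕ) : ℤ) * 1 * 1) := by
  have hzint : z = hζ.toInteger := RingOfIntegers.ext hz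
  refine residueProd_ratio_border hv hζ (by norm_num) (i := 1) (j := 2) le_rfl (by norm_num)
    (by norm_num) hz0 h0 (a := 1) (b := 1) ?_ ?_ fun w _ => Or.inl ?_
  · rw [hzint]
    simp
  · rw [← lvl_coe_iff (K := K)]
    have h := (lvl_pi_pow_add_prime (p := 3) hv hζ).neg
    convert h using 1
    simp only [map_sub, map_add, map_mul, map_pow, map_neg, map_ofNat, map_one, Int.cast_one,
      show algebraMap (𝓞 K) K hζ.toInteger = ζ from rfl]
    ring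
  · intro hm
    have hz3 : z ^ 3 = 1 := RingOfIntegers.coe_injective (by
      show algebraMap (𝓞 K) K _ = algebraMap (𝓞 K) K _
      rw [map_pow, map_one, show algebraMap (𝓞 K) K z = (z : K) from rfl, hz]
      exact hζ.pow_eq_one)
    exact w.isPrime.ne_top
      ((Ideal.eq_top_iff_one _).2 (hz3 ▸ w.asIdeal.pow_mem_of_mem hm 3 (by norm_num)))

end FA.ExplicitLaw
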