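import Fermat.Agent.HilbertN.Nondegenerate
import Fermat.Agent.LocalCFT.Functorial

/-!
# Hilbert symbols of a norm and of lower order

At a prime with a single prime above it the symbol of a norm is the symbol upstairs, and the symbol
of order `q` is the `r`-th power of the one of order `q * r`.
-/

set_option autoImplicit false
set_option linter.unusedSectionVars false
set_option linter.style.haveILetI false

noncomputable section

open NumberField IsDedekindDomain Polynomial IsMulCommutative
open FA.ArtinRec FA.NormResidue FA.HilbertN FA.LocalCFT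
open scoped Classical

namespace FA.ExplicitLaw

universe u w

variable {K : Type u} [Field K] [NumberField K]

/-- **The symbol of lower order.** -/
theorem hilbertSymbol_lower (q r : ℕ) [NeZero q] [NeZero (q * r)] [HasEnoughRootsOfUnity K q]
    [HasEnoughRootsOfUnity K (q * r)] (v : HeightOneSpectrum (𝓞 K)) (a b : Kˣ) :
    ((hilbertSymbol q v a b : Kˣ) : K) = ((hilbertSymbol (q * r) v a b : Kˣ) : K) ^ r := by
  set α := root (q * r) b
  have hα : α ^ (q * r) = algebraMap K (RootOne (q * r) b) b := root_pow (q * r) b
  have hβ : (α ^ r) ^ q = algebraMap K (RootOne (q * r) b) b :=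
    (pow_mul' α q r).symm.trans hα
  have hpow : (hilbertSymbol (q * r) v a b : Kˣ) ^ r ∈ rootsOfUnity q K := by
    rw [mem_rootsOfUnity, ← pow_mul, mul_comm r q]
    exact (mem_rootsOfUnity _ _).1 (hilbertSymbol (q * r) v a b).2
  rw [hilbertSymbol_eq q hβ v a, kummerChar_eq q hβ (ξ := ⟨_, hpow⟩) ?_]
  · rw [Units.val_pow_eq_pow_val]
  · rw [map_pow, kummerChar_spec (q * r) hα, mul_pow, ← map_pow, Units.val_pow_eq_pow_val]
    rfl

variable {M : Type w} [Field M] [NumberField M] [Algebra K M]

/-- **The symbol of a norm.** -/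
theorem hilbertSymbol_normU' (n : ℕ) [NeZero n] [HasEnoughRootsOfUnity K n]
    [HasEnoughRootsOfUnity M n] {v : HeightOneSpectrum (𝓞 K)} (Q : HeightOneSpectrum (𝓞 M))
    (hQ : belowP K Q = v) (honly : ∀ P, belowP K P = v → P = Q) (y : Mˣ) (x : Kˣ) :
    algebraMap K M ((hilbertSymbol n v (normU' (K := K) y) x : Kˣ) : K) =
      ((hilbertSymbol n Q y (Units.map (algebraMap K M).toMonoidHom x) : Mˣ) : M) := by
  subst hQ
  set xM : Mˣ := Units.map (algebraMap K M).toMonoidHom x
  obtain ⟨ζ, hζ⟩ := HasEnoughRootsOfUnity.exists_primitiveRoot K n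
  have hroot : root n xM ^ n = algebraMap K (RootOne n xM) x := root_pow n xM
  let f : RootOne n x →ₐ[K] RootOne n xM := Polynomial.SplittingField.lift _ (by
    show Splits ((∏ r ∈ ({x} : Finset Kˣ), (X ^ n - C (r : K))).map _)
    rw [Finset.prod_singleton, Polynomial.map_sub, Polynomial.map_pow, Polynomial.map_X,
      Polynomial.map_C]
    exact X_pow_sub_C_splits_of_isPrimitiveRoot
      (hζ.map_of_injective (algebraMap K (RootOne n xM)).injective) hroot)
  let := f.toRingHom.toAlgebra
  haveI : IsScalarTower K (RootOne n x) (RootOne n xM) :=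
    IsScalarTower.of_algebraMap_eq fun z => (f.commutes z).symm
  set σ := normSymbol (RootOne n xM) Q y
  have hres : restrictBelow K M (RootOne n x) (RootOne n xM) σ =
      normSymbol (RootOne n x) (belowP K Q) (normU' y) :=
    restrictBelow_normSymbol Q honly y
  have hα : (algebraMap (RootOne n x) (RootOne n xM) (root n x)) ^ n =
      algebraMap M (RootOne n xM) (xM : M) := by
    rw [← map_pow, root_pow, ← IsScalarTower.algebraMap_apply]
    rfl
  rw [hilbertSymbol_eq n hα Q y]
  set χ := hilbertSymbol n (belowP K Q) (normU' (K := K) y) x with hχ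
  have hmem : Units.map (algebraMap K M).toMonoidHom (χ : Kˣ) ∈ rootsOfUnity n M := by
    rw [mem_rootsOfUnity, ← map_pow, (mem_rootsOfUnity _ _).1 χ.2, map_one]
  rw [kummerChar_eq n hα (ξ := ⟨_, hmem⟩) ?_]
  · rfl
  · rw [← restrictBelow_apply (K := K) (L := RootOne n x), hres,
      kummerChar_spec n (root_pow n x) (normSymbol (RootOne n x) (belowP K Q) (normU' y)), map_mul,
      ← IsScalarTower.algebraMap_apply K (RootOne n x) (RootOne n xM),
      IsScalarTower.algebraMap_apply K M (RootOne n xM)]
    rfl

end FA.ExplicitLaw
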