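import Fermat.Agent.NormResidue.Functorial

/-!
# The norm residue symbol of `ℚ` on roots of unity of `p`-power order

At `p` a natural number `a` prime to `p` raises the roots of unity of order `p ^ M` to `a⁻¹`.
-/

set_option autoImplicit false
set_option linter.unusedSectionVars false
set_option linter.style.haveILetI false

noncomputable section

open NumberField IsDedekindDomain Finset WithZero IsMulCommutative
open FA.ArtinRec FA.NormResidue
open FA.HasseCyclic (nearOne mem_nearOne)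
open scoped Pointwise Classical

namespace FA.ExplicitLaw

theorem isMaximal_span_rat {l : ℕ} (hl : l.Prime) :
    (Ideal.span {(l : 𝓞 ℚ)}).IsMaximal := by
  haveI : (Ideal.span {(l : ℤ)}).IsMaximal :=
    PrincipalIdealRing.isMaximal_of_irreducible (Nat.prime_iff_prime_int.1 hl).irreducible
  have h : Ideal.span {(l : 𝓞 ℚ)} =
      (Ideal.span {(l : ℤ)}).map (Rat.ringOfIntegersEquiv.symm) := by
    rw [Ideal.map_span, Set.image_singleton, map_natCast]
  rw [h]
  exact Ideal.map_isMaximal_of_equiv Rat.ringOfIntegersEquiv.symm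

theorem asIdeal_eq_span_rat {l : ℕ} (hl : l.Prime) {w : HeightOneSpectrum (𝓞 ℚ)}
    (hw : (l : 𝓞 ℚ) ∈ w.asIdeal) : w.asIdeal = Ideal.span {(l : 𝓞 ℚ)} :=
  ((isMaximal_span_rat hl).eq_of_le w.isPrime.ne_top
    ((Ideal.span_singleton_le_iff_mem _).2 hw)).symm

theorem eq_of_natCast_mem_rat {l : ℕ} (hl : l.Prime) {w w' : HeightOneSpectrum (𝓞 ℚ)}
    (hw : (l : 𝓞 ℚ) ∈ w.asIdeal) (hw' : (l : 𝓞 ℚ) ∈ w'.asIdeal) : w = w' :=
  HeightOneSpectrum.ext ((asIdeal_eq_span_rat hl hw).trans (asIdeal_eq_span_rat hl hw').symm)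

theorem natCard_quotient_rat {l : ℕ} (hl : l.Prime) {w : HeightOneSpectrum (𝓞 ℚ)}
    (hw : (l : 𝓞 ℚ) ∈ w.asIdeal) : Nat.card (𝓞 ℚ ⧸ w.asIdeal) = l := by
  rw [asIdeal_eq_span_rat hl hw, show Nat.card (𝓞 ℚ ⧸ Ideal.span {(l : 𝓞 ℚ)}) =
    Ideal.absNorm (Ideal.span {(l : 𝓞 ℚ)}) by rw [Ideal.absNorm_apply]; rfl,
    Ideal.absNorm_span_singleton, show (l : 𝓞 ℚ) = algebraMap ℤ (𝓞 ℚ) l by simp,
    Algebra.norm_algebraMap, RingOfIntegers.rank, Module.finrank_self, pow_one, Int.natAbs_natCast]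

variable {p : ℕ} [hp : Fact p.Prime] {M : ℕ} {L : Type*} [Field L] [NumberField L]
  [IsCyclotomicExtension {p ^ M} ℚ L]

/-- Away from `p` the field of the roots of unity is unramified and its Frobenius raises them to
the power `l`. -/
theorem not_isRam_and_artinAt_root [IsGalois ℚ L] {w : HeightOneSpectrum (𝓞 ℚ)}
    (hw : (p : 𝓞 ℚ) ∉ w.asIdeal) :
    ¬ IsRam L w ∧ ∀ z : L, z ^ p ^ M = 1 →
      artinAt L w z = z ^ Nat.card (𝓞 ℚ ⧸ w.asIdeal) := by
  set N := p ^ M
  haveI : NeZero N := ⟨pow_ne_zero _ hp.out.ne_zero⟩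
  have hζ := IsCyclotomicExtension.zeta_spec N ℚ L
  have hNQ : ∀ {Q : HeightOneSpectrum (𝓞 L)}, belowP ℚ Q = w → (N : 𝓞 L) ∉ Q.asIdeal := by
    intro Q hQ h
    rw [show (N : 𝓞 L) = (p : 𝓞 L) ^ M by push_cast [N]; rfl] at h
    refine hw ?_
    rw [← hQ]
    show (p : 𝓞 ℚ) ∈ Q.asIdeal.under (𝓞 ℚ)
    rw [Ideal.under_def, Ideal.mem_comap, map_natCast]
    exact Q.isPrime.mem_of_pow_mem M h
  refine ⟨?_, fun z hz => ?_⟩
  · rintro ⟨Q, hQ, hne⟩
    have := Q.isPrime
    refine hne ((Subgroup.eq_bot_iff_forall _).2 fun τ hτ => ?_)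
    set ζI : 𝓞 L := hζ.toInteger
    have hζI : ζI ^ N = 1 := hζ.toInteger_isPrimitiveRoot.pow_eq_one
    have h1 : τ • ζI - ζI ∈ Q.asIdeal := hτ ζI
    obtain ⟨i, -, hi⟩ := hζ.toInteger_isPrimitiveRoot.eq_pow_of_pow_eq_one
      (show (τ • ζI) ^ N = 1 by rw [← smul_pow', hζI, smul_one])
    have hfix : τ • ζI = ζI := by
      by_contra hne'
      set c := τ • ζI * ζI ^ (N - 1) with hc
      have hcζ : c * ζI = τ • ζI := by
        rw [hc, mul_assoc, ← pow_succ, Nat.sub_add_cancel (NeZero.one_le), hζI, mul_one]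
      have hcN : c ^ N = 1 := by
        rw [hc, mul_pow, ← smul_pow', hζI, smul_one, one_mul, ← pow_mul, mul_comm, pow_mul, hζI,
          one_pow]
      rw [← hcζ, ← sub_one_mul] at h1
      have hu : ζI ∉ Q.asIdeal := fun h => Q.isPrime.ne_top ((Ideal.eq_top_iff_one _).2
        (hζI ▸ Ideal.pow_mem_of_mem _ h N (NeZero.pos N)))
      have h3 := (Q.isPrime.mem_or_mem h1).resolve_right hu
      have hc1 : c ≠ 1 := fun h => hne' (by rw [← hcζ, h, one_mul])
      have hs : ∑ j ∈ Finset.range N, c ^ j = 0 := by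
        have h4 := geom_sum_mul c N
        rw [hcN, sub_self] at h4
        exact (mul_eq_zero.1 h4).resolve_right (sub_ne_zero.2 hc1)
      refine hNQ hQ ?_
      rw [show (N : 𝓞 L) = -∑ j ∈ Finset.range N, (c ^ j - 1) by
        rw [Finset.sum_sub_distrib, hs, Finset.sum_const, Finset.card_range, nsmul_one, zero_sub,
          neg_neg]]
      exact neg_mem (sum_mem fun j _ => by
        rw [← geom_sum_mul]; exact Q.asIdeal.mul_mem_left _ h3)
    refine AlgEquiv.coe_toAlgHom_injective ((hζ.powerBasis ℚ).algHom_ext ?_)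
    rw [IsPrimitiveRoot.powerBasis_gen]
    exact congrArg (fun y : 𝓞 L => (y : L)) hfix
  · obtain ⟨Q, hQ, hτ⟩ := artinAt_spec (L := L) w
    set zI : 𝓞 L := ⟨z, IsIntegral.of_pow (NeZero.pos N) (by rw [hz]; exact isIntegral_one)⟩
    have hzI : zI ^ N = 1 := RingOfIntegers.ext hz
    have h := AlgHom.IsArithFrobAt.apply_of_pow_eq_one hτ hzI (hNQ hQ)
    rw [show Nat.card (𝓞 ℚ ⧸ Q.asIdeal.under (𝓞 ℚ)) = Nat.card (𝓞 ℚ ⧸ w.asIdeal) by
      rw [← hQ]; rfl] at h
    exact congrArg (fun y : 𝓞 L => (y : L)) h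

/-- The rational number of a natural number prime to `p`, as a unit. -/
def natUnit {a : ℕ} (ha : ¬ p ∣ a) : ℚˣ :=
  Units.mk0 (a : ℚ) (Nat.cast_ne_zero.2 fun h => ha (h ▸ dvd_zero p))

theorem ord_natUnit {l : ℕ} (hl : l.Prime) (hlp : ¬ p ∣ l) (w : HeightOneSpectrum (𝓞 ℚ)) :
    ord w (natUnit hlp) = if (l : 𝓞 ℚ) ∈ w.asIdeal then 1 else 0 := by
  rw [ord_eq_iff, natUnit, Units.val_mk0, ← map_natCast (algebraMap (𝓞 ℚ) ℚ) l,
    HeightOneSpectrum.valuation_of_algebraMap]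
  split_ifs with h
  · exact w.intValuation_singleton (Nat.cast_ne_zero.2 hl.ne_zero) (asIdeal_eq_span_rat hl h)
  · rw [neg_zero, exp_zero, HeightOneSpectrum.intValuation_eq_one_iff_mem_primeCompl]
    exact h

theorem unramFrob_natUnit [IsGalois ℚ L] [IsMulCommutative (L ≃ₐ[ℚ] L)] :
    ∀ (a : ℕ) (ha : ¬ p ∣ a) (z : L), z ^ p ^ M = 1 → unramFrob L (natUnit ha) z = z ^ a := by
  intro a
  induction a using induction_on_primes with
  | zero => exact fun ha => absurd (dvd_zero p) ha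
  | one =>
    intro ha z _
    rw [show natUnit ha = 1 from Units.ext Nat.cast_one, map_one, pow_one]
    rfl
  | prime_mul l a hl ih =>
    intro ha z hz
    rw [hp.out.dvd_mul, not_or] at ha
    have hprod : natUnit (p := p) (a := l * a) (by rw [hp.out.dvd_mul]; tauto) =
        natUnit ha.1 * natUnit ha.2 := Units.ext (Nat.cast_mul l a)
    obtain ⟨I, hI⟩ : ∃ I : HeightOneSpectrum (𝓞 ℚ), (l : 𝓞 ℚ) ∈ I.asIdeal :=
      ⟨⟨_, (isMaximal_span_rat hl).isPrime, fun h => hl.ne_zero (by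
        exact_mod_cast Ideal.span_singleton_eq_bot.1 h)⟩, Ideal.mem_span_singleton_self _⟩
    have hpI : (p : 𝓞 ℚ) ∉ I.asIdeal := fun h => by
      have h' := asIdeal_eq_span_rat hl hI
      rw [h', Ideal.mem_span_singleton] at h
      have h2 := map_dvd Rat.ringOfIntegersEquiv h
      rw [map_natCast, map_natCast, Int.natCast_dvd_natCast] at h2
      exact ha.1 ((Nat.prime_dvd_prime_iff_eq hl hp.out).1 h2 ▸ dvd_refl _)
    obtain ⟨hram, hfr⟩ := not_isRam_and_artinAt_root (p := p) (M := M) (L := L) hpI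
    have hl1 : unramFrob L (natUnit ha.1) = artinAt L I := by
      rw [unramFrob, ordProd_apply, finprod_eq_single _ I fun w hw => ?_, ord_natUnit hl, if_pos hI,
        goodFrob, if_neg hram, zpow_one]
      rw [ord_natUnit hl, if_neg fun h => hw (eq_of_natCast_mem_rat hl h hI), zpow_zero]
    rw [hprod, map_mul, AlgEquiv.mul_apply, ih ha.2 z hz, hl1, map_pow, hfr z hz,
      natCard_quotient_rat hl hI, ← pow_mul]

/-- **The symbol at `p`**: `ζ ↦ ζ ^ (a⁻¹)`. -/
theorem normSymbol_natUnit [IsGalois ℚ L] [IsMulCommutative (L ≃ₐ[ℚ] L)]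
    {v : HeightOneSpectrum (𝓞 ℚ)} (hv : (p : 𝓞 ℚ) ∈ v.asIdeal) {a : ℕ} (ha : ¬ p ∣ a) {z : L}
    (hz : z ^ p ^ M = 1) : normSymbol L v (natUnit ha) z ^ a = z := by
  have honly : ∀ w, IsRam L w → w = v := fun w hw => by
    by_contra hne
    exact (not_isRam_and_artinAt_root (p := p) (M := M)
      fun h => hne (eq_of_natCast_mem_rat hp.out h hv)).1 hw
  have hpos : ∀ φ : ℚ →+* ℝ, (0 : ℝ) < φ ((natUnit ha : ℚˣ) : ℚ) := fun φ => by
    rw [natUnit, Units.val_mk0, map_natCast]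
    exact Nat.cast_pos.2 (Nat.pos_of_ne_zero fun h => ha (h ▸ dvd_zero p))
  have hval : normSymbol L v (natUnit ha) = (unramFrob L (natUnit ha))⁻¹ := by
    by_cases hr : IsRam L v
    · exact normSymbol_eq hr ⟨fun _ => by rw [div_self']; exact one_mem _,
        fun w hw hne => absurd (honly w hw) hne, hpos⟩
    · have hord : ord v (natUnit ha) = 0 := by
        rw [ord_eq_iff, neg_zero, exp_zero, natUnit, Units.val_mk0,
          ← map_natCast (algebraMap (𝓞 ℚ) ℚ) a, HeightOneSpectrum.valuation_of_algebraMap,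
          HeightOneSpectrum.intValuation_eq_one_iff_mem_primeCompl]
        intro h
        rw [asIdeal_eq_span_rat hp.out hv] at h
        have h2 := map_dvd Rat.ringOfIntegersEquiv (Ideal.mem_span_singleton.1 h)
        rw [map_natCast, map_natCast, Int.natCast_dvd_natCast] at h2
        exact ha h2
      rw [normSymbol_of_not_isRam hr, hord, zpow_zero, eq_comm, inv_eq_one]
      exact unramFrob_eq_one (fun w hw => absurd (honly w hw ▸ hw) hr) fun w _ h => hpos _
  have h1 : unramFrob L (natUnit ha) (normSymbol L v (natUnit ha) z) = z := by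
    rw [hval, ← AlgEquiv.mul_apply, mul_inv_cancel]
    rfl
  rwa [unramFrob_natUnit a ha _ (by rw [← map_pow, hz, map_one])] at h1

end FA.ExplicitLaw
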