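import Fermat.Agent.ExplicitReciprocity.SeriesValue

/-!
# Values of a fixed series of the norm operator at all levels

If `N g = g` the product of the values of `g` at the points `w θ ^ i - 1`, `θ` of order `p ^ d`, is
the value at `w ^ (p ^ d) - 1` and the logarithmic derivatives add up to `p ^ d` times that one.
Series are approximated on smaller discs by polynomials with integral coefficients.
-/

set_option autoImplicit false
set_option linter.unusedSectionVars false
set_option linter.style.haveILetI false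

noncomputable section

open Filter Finset
open Fermat.Agent.LubinTate
open scoped Topology

namespace FA.ExplicitLaw

variable {p : ℕ} [hp : Fact p.Prime] {C : Type*} [NontriviallyNormedField C] [CompleteSpace C]
  [IsUltrametricDist C] [NormedAlgebra ℚ_[p] C]

local notation "Λ" => PowerSeries ℤ_[p]

/-- The logarithmic derivative `(1 + X) g' / g` at a point. -/
def dlogValue (g : Λ) (z : C) : C := seriesValue z (amiceD g) / seriesValue z g

theorem norm_le_one_of_sub_one_lt {w : C} (hw : ‖w - 1‖ < 1) : ‖w‖ = 1 := by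
  have h : ‖(w - 1) + 1‖ = max ‖w - 1‖ ‖(1 : C)‖ :=
    IsUltrametricDist.norm_add_eq_max_of_norm_ne_norm (by rw [norm_one]; exact hw.ne)
  rwa [sub_add_cancel, norm_one, max_eq_right hw.le] at h

theorem norm_mul_root_sub_one_lt {w θ : C} {t : ℕ} (hw : ‖w - 1‖ < 1) (hθ : θ ^ p ^ t = 1)
    (i : ℕ) : ‖w * θ ^ i - 1‖ < 1 := by
  have h1 : ‖θ ^ i - 1‖ < 1 := norm_sub_one_lt_of_pow_eq_one t
    (by rw [← pow_mul, mul_comm, pow_mul, hθ, one_pow])
  rw [show w * θ ^ i - 1 = w * (θ ^ i - 1) + (w - 1) by ring]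
  refine (IsUltrametricDist.norm_add_le_max _ _).trans_lt (max_lt ?_ hw)
  rw [norm_mul, norm_le_one_of_sub_one_lt hw, one_mul]
  exact h1

/-- **Products and logarithmic derivatives over all the conjugates.** -/
theorem prod_and_sum_conjugates {g : Λ} (hg : normSeries p g = g) (d : ℕ) :
    ∀ {w θ : C}, ‖w - 1‖ < 1 → IsPrimitiveRoot θ (p ^ d) →
    ∏ i : Fin (p ^ d), seriesValue (p := p) (w * θ ^ (i : ℕ) - 1) g =
        seriesValue (p := p) (w ^ p ^ d - 1) g ∧
      (seriesValue (p := p) (w ^ p ^ d - 1) g ≠ 0 →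
        ∑ i : Fin (p ^ d), dlogValue (p := p) g (w * θ ^ (i : ℕ) - 1) =
          (p : C) ^ d * dlogValue (p := p) g (w ^ p ^ d - 1))
:= by
  induction d with
  | zero => intro w θ _ _; simp [Finset.univ_unique, Fin.default_eq_zero]
  | succ d ih =>
    intro w θ hw hθ
    have hθp : IsPrimitiveRoot (θ ^ p) (p ^ d) :=
      hθ.pow (pow_pos hp.out.pos _) (pow_succ' p d)
    have hη : IsPrimitiveRoot (θ ^ p ^ d) p :=
      hθ.pow (pow_pos hp.out.pos _) (pow_succ p d)
    have hwp : ‖w ^ p - 1‖ < 1 := norm_pow_sub_one_lt hη hw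
    obtain ⟨ihp, ihs⟩ := ih hwp hθp
    set η := θ ^ p ^ d with hηdef
    have hw' : ∀ i : ℕ, ‖w * θ ^ i - 1‖ < 1 := norm_mul_root_sub_one_lt hw hθ.pow_eq_one
    have hw0 : ∀ i : ℕ, w * θ ^ i ≠ 0 := fun i h => by
      have := norm_le_one_of_sub_one_lt (hw' i)
      simp [h] at this
    have hpow : ∀ i : ℕ, (w * θ ^ i) ^ p = w ^ p * (θ ^ p) ^ i := fun i => by
      rw [mul_pow, ← pow_mul, ← pow_mul, mul_comm i]
    let e : Fin p × Fin (p ^ d) ≃ Fin (p ^ (d + 1)) :=
      finProdFinEquiv.trans (finCongr (pow_succ' p d).symm)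
    have he : ∀ x : Fin p × Fin (p ^ d),
        w * θ ^ ((e x : Fin (p ^ (d + 1))) : ℕ) = w * θ ^ (x.2 : ℕ) * η ^ (x.1 : ℕ) := fun x => by
      rw [show ((e x : Fin (p ^ (d + 1))) : ℕ) = (x.2 : ℕ) + p ^ d * (x.1 : ℕ) from rfl, hηdef,
        ← pow_mul, pow_add, mul_assoc]
    have hin : ∀ i : ℕ, ∏ j : Fin p, seriesValue (w * θ ^ i * η ^ (j : ℕ) - 1) g =
        seriesValue (w ^ p * (θ ^ p) ^ i - 1) g := fun i => by
      rw [← seriesValue_normSeries hη (hw' i) (hw0 i) g, hg, hpow]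
    have hprod : ∏ i : Fin (p ^ (d + 1)), seriesValue (w * θ ^ (i : ℕ) - 1) g =
        seriesValue (w ^ p ^ (d + 1) - 1) g := by
      rw [← e.prod_comp, Fintype.prod_prod_type, Finset.prod_comm]
      simp_rw [he, hin]
      rw [ihp, pow_succ' p d, pow_mul]
    refine ⟨hprod, fun hne => ?_⟩
    rw [pow_succ' p d, pow_mul] at hne
    have hne' : ∀ i : Fin (p ^ d), seriesValue (w ^ p * (θ ^ p) ^ (i : ℕ) - 1) g ≠ 0 := fun i =>
      Finset.prod_ne_zero_iff.1 (ihp.symm ▸ hne) i (Finset.mem_univ _)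
    rw [← e.sum_comp, Fintype.sum_prod_type, Finset.sum_comm]
    simp_rw [he]
    rw [show w ^ p ^ (d + 1) = (w ^ p) ^ p ^ d by rw [pow_succ', pow_mul], pow_succ',
      mul_assoc, ← ihs hne, Finset.mul_sum]
    refine Finset.sum_congr rfl fun i _ => ?_
    have h := seriesValue_amiceD_normSeries hη (hw' i) (hw0 i) g
    have hP := hin (i : ℕ)
    have hne'' := hne' i
    rw [hg, hpow] at h
    rw [← hP] at hne''
    rw [dlogValue, ← hP, ← mul_div_assoc, h, Finset.sum_div]
    refine Finset.sum_congr rfl fun j _ => ?_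
    rw [dlogValue, ← Finset.mul_prod_erase univ _ (Finset.mem_univ j), mul_comm (seriesValue _ g),
      ← div_div, mul_div_cancel_right₀]
    rw [Finset.prod_ne_zero_iff] at hne''
    exact Finset.prod_ne_zero_iff.2 fun a _ => hne'' a (Finset.mem_univ a)

/-- **Polynomial approximations** on the closed disc of radius `r < 1`. -/
theorem exists_intPoly_approx (g : Λ) {r ε : ℝ} (hr1 : r < 1) (hε : 0 < ε) :
    ∃ h : Polynomial ℤ, ∀ w : C, ‖w - 1‖ ≤ r →
      ‖Polynomial.aeval w h - seriesValue (w - 1) g‖ ≤ ε ∧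
      ‖w * Polynomial.aeval w (Polynomial.derivative h) - seriesValue (w - 1) (amiceD g)‖ ≤ ε := by
  rcases lt_or_ge r 0 with hr0 | hr0
  · exact ⟨0, fun w hw => absurd (hw.trans_lt hr0) (norm_nonneg _).not_gt⟩
  obtain ⟨N, hN⟩ := exists_pow_lt_of_lt_one hε hr1
  obtain ⟨A, hA⟩ := exists_pow_lt_of_lt_one hε (inv_lt_one_of_one_lt₀ (FA.Brumer.one_lt_prime p))
  set P := PowerSeries.trunc (N + 1) g with hPdef
  set s := PowerSeries.mk fun i => PowerSeries.coeff (i + (N + 1)) g with hsdef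
  have hsplit : g = PowerSeries.X ^ (N + 1) * s + ((P : Polynomial ℤ_[p]) : Λ) :=
    g.eq_X_pow_mul_shift_add_trunc (N + 1)
  obtain ⟨Q, R, hQR⟩ : ∃ (Q : Polynomial ℤ) (R : Polynomial ℤ_[p]),
      P = Q.map (Int.castRingHom ℤ_[p]) + Polynomial.C ((p : ℤ_[p]) ^ A) * R := by
    have hc : ∀ c : ℤ_[p], ∃ (a : ℕ) (b : ℤ_[p]), c = a + (p : ℤ_[p]) ^ A * b := fun c => by
      obtain ⟨b, hb⟩ := Ideal.mem_span_singleton.1 (PadicInt.appr_spec A c)
      exact ⟨c.appr A, b, by rw [← hb]; ring⟩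
    choose a b hab using hc
    refine ⟨∑ i ∈ range (N + 1), Polynomial.monomial i ((a (P.coeff i) : ℕ) : ℤ),
      ∑ i ∈ range (N + 1), Polynomial.monomial i (b (P.coeff i)), ?_⟩
    rw [Polynomial.map_sum, Finset.mul_sum, ← Finset.sum_add_distrib]
    conv_lhs => rw [P.as_sum_range' (N + 1) (PowerSeries.natDegree_trunc_lt g N)]
    refine Finset.sum_congr rfl fun i _ => ?_
    rw [Polynomial.map_monomial, Polynomial.C_mul_monomial, ← map_add, map_natCast, ← hab]
  set RΛ : Λ := ((R : Polynomial ℤ_[p]) : Λ)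
  set QΛ : Λ := ((Q.map (Int.castRingHom ℤ_[p]) : Polynomial ℤ_[p]) : Λ) with hQΛ
  have hg1 : g = QΛ + (PowerSeries.X ^ (N + 1) * s + PowerSeries.C ((p : ℤ_[p]) ^ A) * RΛ) := by
    rw [hQΛ, ← Polynomial.coe_C, ← Polynomial.coe_mul, add_left_comm, ← Polynomial.coe_add, ← hQR]
    exact hsplit
  have hg2 : amiceD g = amiceD QΛ +
      (PowerSeries.X ^ N *
          (((N + 1 : ℕ) : Λ) * (1 + PowerSeries.X) * s + PowerSeries.X * amiceD s) +
        PowerSeries.C ((p : ℤ_[p]) ^ A) * amiceD RΛ) := by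
    conv_lhs => rw [hg1]
    rw [amiceD_add, amiceD_add, amiceD_mul, amiceD_mul,
      show amiceD (PowerSeries.C ((p : ℤ_[p]) ^ A) : Λ) = 0 by
        rw [amiceD, PowerSeries.derivative_C, mul_zero],
      show amiceD (PowerSeries.X ^ (N + 1) : Λ) =
          (1 + PowerSeries.X) * (((N + 1 : ℕ) : Λ) * PowerSeries.X ^ N) by
        rw [amiceD, Derivation.leibniz_pow, Nat.add_sub_cancel, PowerSeries.derivative_X,
          smul_eq_mul, mul_one, nsmul_eq_mul]]
    ring
  refine ⟨Q.comp (Polynomial.X - 1), fun w hw => ?_⟩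
  have hz : ‖w - 1‖ < 1 := hw.trans_lt hr1
  have hsmall : ∀ (i : ℕ) (u v : Λ), N ≤ i → ‖seriesValue (w - 1)
      (PowerSeries.X ^ i * u + PowerSeries.C ((p : ℤ_[p]) ^ A) * v)‖ ≤ ε := fun i u v hi => by
    rw [seriesValue_add hz]
    refine (IsUltrametricDist.norm_add_le_max _ _).trans (max_le ?_ ?_)
    · rw [seriesValue_mul hz, norm_mul, ← seriesHom_apply hz, map_pow, seriesHom_apply,
        seriesValue_X, norm_pow]
      refine (mul_le_of_le_one_right (pow_nonneg (norm_nonneg _) i)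
        (norm_seriesValue_le hz u)).trans
        (le_trans ?_ hN.le)
      exact (pow_le_pow_left₀ (norm_nonneg _) hw i).trans (pow_le_pow_of_le_one hr0 hr1.le hi)
    · rw [seriesValue_mul hz, norm_mul, seriesValue_C]
      refine (mul_le_of_le_one_right (norm_nonneg _) (norm_seriesValue_le hz v)).trans
        (le_trans (le_of_eq ?_) hA.le)
      rw [map_pow, map_natCast, norm_pow, FA.Brumer.norm_prime p]
  have hev : ∀ T : Polynomial ℤ, seriesValue (w - 1)
      ((T.map (Int.castRingHom ℤ_[p]) : Polynomial ℤ_[p]) : Λ) = Polynomial.aeval (w - 1) T := by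
    intro T
    rw [seriesValue_coe hz, Polynomial.eval₂_map, Polynomial.aeval_def]
    congr 1
    exact RingHom.ext_int _ _
  have hd : Polynomial.derivative (Q.comp (Polynomial.X - 1)) =
      (Polynomial.derivative Q).comp (Polynomial.X - 1) := by
    rw [Polynomial.derivative_comp, map_sub, Polynomial.derivative_X, Polynomial.derivative_one,
      sub_zero, one_mul]
  have hX : Polynomial.aeval w (Polynomial.X - 1 : Polynomial ℤ) = w - 1 := by simp
  refine ⟨?_, ?_⟩
  · rw [Polynomial.aeval_comp, hX, norm_sub_rev, hg1, seriesValue_add hz, hQΛ, hev,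
      add_sub_cancel_left]
    exact hsmall _ _ _ N.le_succ
  · have hDQ : seriesValue (w - 1) (amiceD QΛ) =
        w * Polynomial.aeval (w - 1) (Polynomial.derivative Q) := by
      rw [hQΛ, amiceD, PowerSeries.derivative_coe, seriesValue_mul hz, seriesValue_add hz,
        seriesValue_one, seriesValue_X, add_sub_cancel, Polynomial.derivative_map, hev]
    rw [hd, Polynomial.aeval_comp, hX, norm_sub_rev, hg2, seriesValue_add hz, hDQ,
      add_sub_cancel_left]
    exact hsmall _ _ _ le_rfl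

end FA.ExplicitLaw
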