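import Fermat.Agent.ExplicitReciprocity.Derivative
import Fermat.Agent.ExplicitReciprocity.Places
import Fermat.Agent.ExplicitReciprocity.SeriesConjugates
import Fermat.Agent.ExplicitReciprocity.LogLimit
import Fermat.Agent.ExplicitReciprocity.Projection
import Fermat.Agent.ExplicitReciprocity.CycloConjugates

/-!
# The explicit reciprocity law

`K = ℚ (ζ)`, `ζ` of order `q = p ^ (n + 1)`, `v` the prime above `p`, `g` a series with
`normSeries g = g`, `b` close at `v` to `g (ζ - 1)`, and `x ≡ 1` at `v`. Then the symbol `(x, b)` is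
`ζ ^ t` with `t ≡ - (1 / q) ∑ log (σ x) (D log g) (σ ζ - 1)` modulo `q`, a sum over the embeddings,
that is the trace from the completion. The proof projects to a high level where `x` is deep.
-/

set_option autoImplicit false
set_option linter.unusedSectionVars false
set_option linter.style.haveILetI false

noncomputable section

open NumberField IsDedekindDomain Polynomial Filter Finset
open FA.HilbertN FA.ArtinRec
open Fermat.Agent.LubinTate
open scoped Topology Classical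

namespace FA.ExplicitLaw

variable {p : ℕ} [hp : Fact p.Prime] {C : Type*} [NontriviallyNormedField C] [CompleteSpace C]
  [IsUltrametricDist C] [NormedAlgebra ℚ_[p] C] [CharZero C] [IsAlgClosed C]

/-- The sum `∑ log (σ x) (D log g) (σ ζ - 1)` over the embeddings of `K`. -/
def explicitSum {K : Type*} [Field K] [NumberField K] (ζ : K) (x : K)
    (g : PowerSeries ℤ_[p]) : C :=
  ∑ σ : K →+* C, logOne (σ x - 1) * dlogValue g (σ ζ - 1)

theorem hilbertSymbol_order_congr {F : Type*} [Field F] [NumberField F] {q q' : ℕ} (h : q = q')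
    [NeZero q] [NeZero q'] [HasEnoughRootsOfUnity F q] [HasEnoughRootsOfUnity F q']
    (w : HeightOneSpectrum (𝓞 F)) (a b : Fˣ) :
    ((hilbertSymbol q w a b : Fˣ) : F) = ((hilbertSymbol q' w a b : Fˣ) : F) := by
  subst h
  rfl

theorem norm_prod_sub_prod_le {ι : Type*} (s : Finset ι) {a b : ι → C} {ε : ℝ} (hε : 0 ≤ ε)
    (ha : ∀ i ∈ s, ‖a i‖ ≤ 1) (hb : ∀ i ∈ s, ‖b i‖ ≤ 1) (h : ∀ i ∈ s, ‖a i - b i‖ ≤ ε) :
    ‖∏ i ∈ s, a i - ∏ i ∈ s, b i‖ ≤ ε := by
  induction s using Finset.induction_on with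
  | empty => simpa using hε
  | insert i s hi ih =>
    simp only [Finset.forall_mem_insert] at ha hb h
    rw [Finset.prod_insert hi, Finset.prod_insert hi,
      show a i * ∏ j ∈ s, a j - b i * ∏ j ∈ s, b j =
        (a i - b i) * ∏ j ∈ s, a j + b i * (∏ j ∈ s, a j - ∏ j ∈ s, b j) by ring]
    refine (IsUltrametricDist.norm_add_le_max _ _).trans (max_le ?_ ?_)
    · rw [norm_mul, norm_prod]
      exact (mul_le_of_le_one_right (norm_nonneg _)
        (Finset.prod_le_one (fun j _ => norm_nonneg _) ha.2)).trans h.1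
    · rw [norm_mul]
      exact (mul_le_of_le_one_left (norm_nonneg _) hb.1).trans (ih ha.2 hb.2 h.2)

/-- Division of close numbers. -/
theorem norm_div_sub_div_le {u u' a a' : C} {c ε : ℝ} (hc : 0 < c) (ha : c ≤ ‖a‖)
    (ha' : c ≤ ‖a'‖) (hu : ‖u'‖ ≤ 1) (h1 : ‖a'‖ ≤ 1) (hu' : ‖u - u'‖ ≤ ε) (haa : ‖a - a'‖ ≤ ε) :
    ‖u / a - u' / a'‖ ≤ ε / c ^ 2 := by
  have ha0 : a ≠ 0 := norm_pos_iff.1 (hc.trans_le ha)
  have ha'0 : a' ≠ 0 := norm_pos_iff.1 (hc.trans_le ha')
  rw [div_sub_div _ _ ha0 ha'0, norm_div, norm_mul]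
  have hε : 0 ≤ ε := (norm_nonneg _).trans hu'
  refine div_le_div₀ hε ?_ (pow_pos hc 2)
    (by rw [pow_two]; exact mul_le_mul ha ha' hc.le (norm_nonneg _))
  rw [show u * a' - a * u' = (u - u') * a' + u' * (a' - a) by ring]
  refine (IsUltrametricDist.norm_add_le_max _ _).trans (max_le ?_ ?_)
  · rw [norm_mul]
    exact (mul_le_of_le_one_right (norm_nonneg _) h1).trans hu'
  · rw [norm_mul, norm_sub_rev a']
    exact (mul_le_of_le_one_left (norm_nonneg _) hu).trans haa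

variable {n : ℕ} {K : Type*} [Field K] [NumberField K]
  [hcyc : IsCyclotomicExtension {p ^ (n + 1)} ℚ K] [HasEnoughRootsOfUnity K (p ^ (n + 1))]
  {v : HeightOneSpectrum (𝓞 K)} (hv : (p : 𝓞 K) ∈ v.asIdeal) {ζ : K}
  (hζ : IsPrimitiveRoot ζ (p ^ (n + 1))) (ι : K →+* C)
include hv hcyc hζ

/-- The symbol only depends on the class of `b` modulo `p ^ (n + 3)`. -/
theorem hilbertSymbol_congr_right (x b b' : Kˣ) (h : Deep v p (n + 3) ((b : K) / b' - 1)) :
    hilbertSymbol (p ^ (n + 1)) v x b = hilbertSymbol (p ^ (n + 1)) v x b' := by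
  rw [show b = b' * (b / b') by rw [mul_div_cancel], hilbertSymbol_mul_right,
    (forall_hilbertSymbol_eq_one_iff (p ^ (n + 1)) v (b / b')).2
      (fun k => exists_div_pow_mem_nearOne hv (by rwa [Units.val_div_eq_div_val]) k) x, mul_one]

/-- **The explicit reciprocity law.** -/
theorem exists_explicit_exponent {g : PowerSeries ℤ_[p]} (hg : normSeries p g = g) (x b : Kˣ)
    (hx : v.valuation K ((x : K) - 1) < 1) (hgne : seriesValue (ι ζ - 1) g ≠ 0)
    (hb : ‖ι (b : K) - seriesValue (ι ζ - 1) g‖ ≤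
      ((p : ℝ)⁻¹) ^ (n + 3) * ‖seriesValue (ι ζ - 1) g‖) :
    ∃ t : ℤ, ‖(t : C) + explicitSum ζ (x : K) g / (p : C) ^ (n + 1)‖ ≤ ((p : ℝ)⁻¹) ^ (n + 1) ∧
      ((hilbertSymbol (p ^ (n + 1)) v x b : Kˣ) : K) = ζ ^ t := by
  have hp0 : (p : C) ≠ 0 := Nat.cast_ne_zero.2 hp.out.ne_zero
  set pi : ℝ := (p : ℝ)⁻¹ with hpi
  have hpi0 : 0 < pi := inv_pos.2 (Nat.cast_pos.2 hp.out.pos)
  have hpi1 : pi < 1 := inv_lt_one_of_one_lt₀ (FA.Brumer.one_lt_prime p)
  have hnp : ‖(p : C)‖ = pi := FA.Brumer.norm_prime p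
  have hζn : ∀ σ : K →+* C, IsPrimitiveRoot (σ ζ) (p ^ (n + 1)) := fun σ =>
    hζ.map_of_injective σ.injective
  have hzσ : ∀ σ : K →+* C, ‖σ ζ - 1‖ < 1 := fun σ =>
    norm_sub_one_lt_of_pow_eq_one (n + 1) (hζn σ).pow_eq_one
  -- all the values of the series have the same absolute value
  set c := ‖seriesValue (ι ζ - 1) g‖ with hcdef
  have hc0 : 0 < c := norm_pos_iff.2 hgne
  have hcσ : ∀ σ : K →+* C, ‖seriesValue (σ ζ - 1) g‖ = c := by
    intro σ
    obtain ⟨h, hh⟩ := exists_intPoly_approx (C := C) g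
      (max_lt (hzσ σ) (hzσ ι)) (half_pos hc0)
    have e1 := (hh (σ ζ) (le_max_left _ _)).1
    have e2 := (hh (ι ζ) (le_max_right _ _)).1
    have key : ‖σ (aeval ζ h)‖ = ‖ι (aeval ζ h)‖ := norm_map_eq n hv σ ι _
    rw [show σ (aeval ζ h) = aeval (σ ζ) h from (aeval_algHom_apply σ.toIntAlgHom ζ h).symm,
      show ι (aeval ζ h) = aeval (ι ζ) h from (aeval_algHom_apply ι.toIntAlgHom ζ h).symm] at key
    have h2 : ‖aeval (ι ζ) h‖ = c := by
      have := IsUltrametricDist.norm_add_eq_max_of_norm_ne_norm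
        (x := aeval (ι ζ) h - seriesValue (ι ζ - 1) g) (y := seriesValue (ι ζ - 1) g)
        (by rw [← hcdef]; exact ((e2.trans_lt (half_lt_self hc0))).ne)
      rw [sub_add_cancel] at this
      rw [this, ← hcdef, max_eq_right (e2.trans (half_le_self hc0.le))]
    rw [h2] at key
    have := IsUltrametricDist.norm_add_eq_max_of_norm_ne_norm
      (x := seriesValue (σ ζ - 1) g - aeval (σ ζ) h) (y := aeval (σ ζ) h)
      (by rw [norm_sub_rev, key]; exact ((e1.trans_lt (half_lt_self hc0))).ne)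
    rw [sub_add_cancel] at this
    rw [this, key, norm_sub_rev, max_eq_right (e1.trans (half_le_self hc0.le))]
  have hc1 : c ≤ 1 := norm_seriesValue_le (hzσ ι) g
  -- the depth
  set L : (K →+* C) → C := fun σ => logOne (σ (x : K) - 1)
  set X : ℕ → (K →+* C) → C := fun d σ => (σ (x : K) ^ p ^ d - 1) / (p : C) ^ d
  have hXlim : ∀ σ, Tendsto (fun d => X d σ) atTop (𝓝 (L σ)) := fun σ => by
    have h := tendsto_pow_sub_one_div (p := p) (norm_map_sub_one_lt n hv σ hx)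
    simpa [X, L] using h
  set B := 1 + ∑ σ : K →+* C, ‖L σ‖ with hB
  have hB1 : 1 ≤ B := le_add_of_nonneg_right (Finset.sum_nonneg fun σ _ => norm_nonneg _)
  set δ₀ := c * pi ^ (2 * (n + 1)) with hδ₀
  have hδ₀0 : 0 < δ₀ := mul_pos hc0 (pow_pos hpi0 _)
  have hδ₀1 : δ₀ ≤ 1 := mul_le_one₀ hc1 (pow_nonneg hpi0.le _) (pow_le_one₀ hpi0.le hpi1.le)
  obtain ⟨D₀, hD₀⟩ : ∃ D₀, ∀ d ≥ D₀, ∀ σ, ‖X d σ - L σ‖ ≤ δ₀ := by
    have h : ∀ᶠ d in atTop, ∀ σ, ‖X d σ - L σ‖ ≤ δ₀ := eventually_all.2 fun σ =>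
      (tendsto_iff_norm_sub_tendsto_zero.1 (hXlim σ)).eventually (eventually_le_nhds hδ₀0)
    exact eventually_atTop.1 h
  obtain ⟨j₀, hj₀⟩ := pow_unbounded_of_one_lt (B / c) (FA.Brumer.one_lt_prime p)
  set d := D₀ + n + 3 + 2 * j₀
  set k := d - j₀
  have hk : n + d + 3 ≤ 2 * k := by omega
  have hXd := hD₀ d (by omega)
  have hXB : ∀ σ, ‖X d σ‖ ≤ B := fun σ => by
    rw [← sub_add_cancel (X d σ) (L σ)]
    refine (IsUltrametricDist.norm_add_le_max _ _).trans
      (max_le ((hXd σ).trans (hδ₀1.trans hB1)) ?_)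
    rw [hB]
    have := Finset.single_le_sum (f := fun σ => ‖L σ‖) (fun σ _ => norm_nonneg _)
      (Finset.mem_univ σ)
    linarith
  -- the field of level `m`
  set M := CyclotomicField (p ^ (n + d + 1)) ℚ
  haveI : NeZero (p ^ (n + d + 1)) := ⟨pow_ne_zero _ hp.out.ne_zero⟩
  haveI : NeZero (p ^ (n + 1) * p ^ d) :=
    ⟨mul_ne_zero (pow_ne_zero _ hp.out.ne_zero) (pow_ne_zero _ hp.out.ne_zero)⟩
  haveI : IsCyclotomicExtension {p ^ (n + d + 1)} ℚ M := CyclotomicField.isCyclotomicExtension _ ℚ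
  haveI : NumberField M := IsCyclotomicExtension.numberField {p ^ (n + d + 1)} ℚ M
  set ξ := IsCyclotomicExtension.zeta (p ^ (n + d + 1)) ℚ M with hξdef
  have hξ : IsPrimitiveRoot ξ (p ^ (n + d + 1)) := IsCyclotomicExtension.zeta_spec _ ℚ M
  have hξq : IsPrimitiveRoot (ξ ^ p ^ d) (p ^ (n + 1)) :=
    hξ.pow (pow_pos hp.out.pos _) (by rw [← pow_add]; congr 1; omega)
  have hθ : IsPrimitiveRoot (ξ ^ p ^ (n + 1)) (p ^ d) :=
    hξ.pow (pow_pos hp.out.pos _) (by rw [← pow_add]; congr 1; omega)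
  haveI : HasEnoughRootsOfUnity M (p ^ (n + d + 1)) := ⟨⟨ξ, hξ⟩, inferInstance⟩
  haveI : HasEnoughRootsOfUnity M (p ^ (n + 1)) := ⟨⟨_, hξq⟩, inferInstance⟩
  haveI : HasEnoughRootsOfUnity M (p ^ (n + 1) * p ^ d) :=
    ⟨⟨ξ, by rw [← pow_add, show n + 1 + d = n + d + 1 by ring]; exact hξ⟩, inferInstance⟩
  have haev : aeval (ξ ^ p ^ d) (minpoly ℚ (hζ.powerBasis ℚ).gen) = 0 := by
    rw [IsPrimitiveRoot.powerBasis_gen, ← hζ.minpoly_eq_cyclotomic_of_irreducible
      (cyclotomic.irreducible_rat (pow_pos hp.out.pos _)), aeval_def, eval₂_eq_eval_map,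
      map_cyclotomic]
    exact hξq.isRoot_cyclotomic (pow_pos hp.out.pos _)
  let f : K →ₐ[ℚ] M := (hζ.powerBasis ℚ).lift _ haev
  let := f.toRingHom.toAlgebra
  haveI : IsScalarTower ℚ K M := IsScalarTower.of_algebraMap_eq fun x => (f.commutes x).symm
  have hfζ : algebraMap K M ζ = ξ ^ p ^ d := by
    show f ζ = _
    conv_lhs => rw [← hζ.powerBasis_gen ℚ]
    exact PowerBasis.lift_gen _ _ _
  haveI : IsGalois ℚ M := IsCyclotomicExtension.isGalois {p ^ (n + d + 1)} ℚ M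
  haveI : IsGalois K M := IsGalois.tower_top_of_isGalois ℚ K M
  obtain ⟨e, he⟩ := exists_conjugates p hξ hfζ
  obtain ⟨Q, hQ⟩ := exists_belowP K M v
  have hQp : (p : 𝓞 M) ∈ Q.asIdeal := by
    have h : (p : 𝓞 K) ∈ Q.asIdeal.under (𝓞 K) := by
      rw [show Q.asIdeal.under (𝓞 K) = v.asIdeal from congrArg HeightOneSpectrum.asIdeal hQ]
      exact hv
    rwa [Ideal.under_def, Ideal.mem_comap, map_natCast] at h
  have honly : ∀ P, belowP K P = v → P = Q := fun P hP => eq_of_natCast_mem_cyclo (n + d) hQp (by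
    have h : (p : 𝓞 K) ∈ P.asIdeal.under (𝓞 K) := by
      rw [show P.asIdeal.under (𝓞 K) = v.asIdeal from congrArg HeightOneSpectrum.asIdeal hP]
      exact hv
    rwa [Ideal.under_def, Ideal.mem_comap, map_natCast] at h)
  -- embeddings above
  have hext : ∀ σ : K →+* C, ∃ τ : M →+* C, ∀ z, τ (algebraMap K M z) = σ z := fun σ => by
    let := σ.toAlgebra
    exact ⟨(IsAlgClosed.lift : M →ₐ[K] C).toRingHom, fun z => AlgHom.commutes _ z⟩
  choose τ hτ using hext
  have hw : ∀ σ (i : Fin (p ^ d)), τ σ (e i ξ) = τ σ ξ * τ σ (ξ ^ p ^ (n + 1)) ^ (i : ℕ) :=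
    fun σ i => by rw [he, map_mul, map_pow (τ σ) (ξ ^ p ^ (n + 1))]
  have hwlt : ∀ (τ' : M →+* C) (i : Fin (p ^ d)), ‖τ' (e i ξ) - 1‖ < 1 := fun τ' i =>
    norm_sub_one_lt_of_pow_eq_one (n + d + 1) (by
      rw [← map_pow, ← map_pow, hξ.pow_eq_one, map_one, map_one])
  have hwd : ∀ σ, τ σ ξ ^ p ^ d = σ ζ := fun σ => by rw [← map_pow, ← hfζ, hτ]
  have hconj := fun σ => prod_and_sum_conjugates hg d
    (norm_sub_one_lt_of_pow_eq_one (n + d + 1)
      (by rw [← map_pow, hξ.pow_eq_one, map_one]) : ‖τ σ ξ - 1‖ < 1)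
    (hθ.map_of_injective (τ σ).injective)
  simp_rw [← hw, hwd] at hconj
  have hlow : ∀ σ (i : Fin (p ^ d)), c ≤ ‖seriesValue (τ σ (e i ξ) - 1) g‖ := fun σ i => by
    rw [← hcσ σ, ← (hconj σ).1, norm_prod, ← Finset.mul_prod_erase univ _ (Finset.mem_univ i)]
    exact mul_le_of_le_one_right (norm_nonneg _) (Finset.prod_le_one (fun j _ => norm_nonneg _)
      fun j _ => norm_seriesValue_le (hwlt _ j) g)
  -- the polynomial
  set η := c * pi ^ (d + 2 * (n + 1) + n + 3) / B with hηdef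
  have hη0 : 0 < η := div_pos (mul_pos hc0 (pow_pos hpi0 _)) (lt_of_lt_of_le one_pos hB1)
  have hη1 : η ≤ pi ^ (d + 2 * (n + 1) + n + 3) :=
    (div_le_self (mul_pos hc0 (pow_pos hpi0 _)).le hB1).trans
      (mul_le_of_le_one_left (pow_nonneg hpi0.le _) hc1)
  set ε := c ^ 2 * η with hεdef
  have hεη : ε ≤ c * η := by
    rw [hεdef, pow_two, mul_assoc]
    exact mul_le_of_le_one_left (mul_pos hc0 hη0).le hc1
  obtain ⟨r, hr1, hr⟩ : ∃ r < (1 : ℝ), ∀ σ i, ‖τ σ (e i ξ) - 1‖ ≤ r := by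
    refine ⟨Finset.univ.sup' ⟨(ι, ⟨0, pow_pos hp.out.pos d⟩), Finset.mem_univ _⟩
      fun si : (K →+* C) × Fin (p ^ d) => ‖τ si.1 (e si.2 ξ) - 1‖, ?_, fun σ i =>
        Finset.le_sup' (fun si : (K →+* C) × Fin (p ^ d) => ‖τ si.1 (e si.2 ξ) - 1‖)
          (Finset.mem_univ (σ, i))⟩
    exact (Finset.sup'_lt_iff _).2 fun si _ => hwlt _ _
  obtain ⟨h, hh⟩ := exists_intPoly_approx (C := C) g hr1 (mul_pos (pow_pos hc0 2) hη0 : 0 < ε)
  have hεc : ε < c := hεη.trans_lt (mul_lt_of_lt_one_right hc0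
    (hη1.trans_lt (pow_lt_one₀ hpi0.le hpi1 (by omega))))
  have happ : ∀ σ (i : Fin (p ^ d)), τ σ (e i (aeval ξ h)) = aeval (τ σ (e i ξ)) h := fun σ i =>
    (aeval_algHom_apply ((τ σ).comp (e i : M →+* M)).toIntAlgHom ξ h).symm
  have happ' : ∀ σ (i : Fin (p ^ d)), τ σ (e i (aeval ξ (derivative h))) =
      aeval (τ σ (e i ξ)) (derivative h) := fun σ i =>
    (aeval_algHom_apply ((τ σ).comp (e i : M →+* M)).toIntAlgHom ξ _).symm
  have hhlow : ∀ σ (i : Fin (p ^ d)), c ≤ ‖τ σ (e i (aeval ξ h))‖ := fun σ i => by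
    have h1 := (hh _ (hr σ i)).1
    have h2 := IsUltrametricDist.norm_add_eq_max_of_norm_ne_norm
      (x := aeval (τ σ (e i ξ)) h - seriesValue (τ σ (e i ξ) - 1) g)
      (y := seriesValue (τ σ (e i ξ) - 1) g) (h1.trans_lt (hεc.trans_le (hlow σ i))).ne
    rw [sub_add_cancel] at h2
    rw [happ, h2]
    exact (hlow σ i).trans (le_max_right _ _)
  have hh0 : aeval ξ h ≠ 0 := fun h0 => by
    have := hhlow ι ⟨0, pow_pos hp.out.pos d⟩
    rw [h0, map_zero, map_zero, norm_zero] at this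
    exact this.not_gt hc0
  have hh1 : ∀ σ (i : Fin (p ^ d)), ‖τ σ (e i (aeval ξ h))‖ ≤ 1 := fun σ i => by
    rw [happ, ← sub_add_cancel (aeval (τ σ (e i ξ)) h) (seriesValue (τ σ (e i ξ) - 1) g)]
    exact (IsUltrametricDist.norm_add_le_max _ _).trans
      (max_le (((hh _ (hr σ i)).1.trans hεc.le).trans hc1) (norm_seriesValue_le (hwlt _ i) g))
  -- the logarithmic derivative downstairs
  set T := Algebra.trace K M (ξ * aeval ξ (derivative h) / aeval ξ h)
  have hT : ∀ σ : K →+* C, ‖σ T - (p : C) ^ d * dlogValue g (σ ζ - 1)‖ ≤ η := fun σ => by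
    rw [← (hconj σ).2 (norm_pos_iff.1 (by rw [hcσ]; exact hc0)), ← hτ σ T,
      trace_eq_sum_automorphisms, map_sum, ← e.sum_comp, ← Finset.sum_sub_distrib]
    refine IsUltrametricDist.norm_sum_le_of_forall_le_of_nonneg hη0.le fun i _ => ?_
    rw [map_div₀, map_mul, map_div₀, map_mul, happ, happ', dlogValue]
    rw [show η = ε / c ^ 2 by rw [hεdef, mul_div_cancel_left₀]; exact pow_ne_zero 2 hc0.ne']
    refine norm_div_sub_div_le hc0 ?_ (hlow σ i) (norm_seriesValue_le (hwlt _ i) _)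
      (norm_seriesValue_le (hwlt _ i) _) (hh _ (hr σ i)).2 (hh _ (hr σ i)).1
    rw [← happ]; exact hhlow σ i
  -- the exponent upstairs
  set xM : Mˣ := Units.map (algebraMap K M).toMonoidHom x with hxM
  set hu : Mˣ := Units.mk0 _ hh0 with hhu
  set ε' : M := ((xM : M) ^ p ^ d - 1) / aeval ξ h with hε'
  set σι := τ ι
  have hcomp : σι (algebraMap K M (x : K)) = ι (x : K) := hτ ι _
  have hdeep : Deep Q p k ε' := deep_of_norm_map_le (n + d) hQp σι (by
    rw [hε', map_div₀, map_sub, map_pow, map_one,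
      show σι (xM : M) = ι (x : K) from hcomp, norm_div,
      show ι (x : K) ^ p ^ d - 1 = (p : C) ^ d * X d ι by
        rw [mul_div_cancel₀ _ (pow_ne_zero d hp0)], norm_mul, norm_pow, hnp]
    have hlow0 := hhlow ι (e.symm 1)
    rw [Equiv.apply_symm_apply, AlgEquiv.one_apply] at hlow0
    refine (div_le_div₀ (mul_nonneg (pow_nonneg hpi0.le d) (zero_le_one.trans hB1))
      (mul_le_mul_of_nonneg_left (hXB ι) (pow_nonneg hpi0.le d)) hc0 hlow0).trans ?_
    rw [mul_div_assoc, show d = k + j₀ by omega, pow_add, mul_assoc]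
    refine mul_le_of_le_one_right (pow_nonneg hpi0.le k) ?_
    rw [hpi, inv_pow, inv_mul_le_iff₀ (pow_pos (Nat.cast_pos.2 hp.out.pos) j₀), mul_one]
    exact hj₀.le)
  have hy : Deep Q p k (ε' * (ξ * aeval ξ (derivative h))) :=
    hdeep.mul_right ((deep_zeta hQp hξ).mul_left (deep_aeval (deep_zeta hQp hξ) _))
  obtain ⟨t', ht'⟩ := exists_trace_exponent hQp hξ hk hy
  have hsym : ((hilbertSymbol (p ^ (n + d + 1)) Q xM hu : Mˣ) : M) ^ p ^ d = ξ ^ t' := by
    have hX : 1 + ε' * aeval ξ h = ((xM ^ p ^ d : Mˣ) : M) := by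
      rw [hε', div_mul_cancel₀ _ hh0, add_sub_cancel, Units.val_pow_eq_pow_val]
    refine Eq.trans ?_ (pairing_aeval_of_trace hQp hξ hk h hh0 hdeep ht')
    erw [hX, show aeval ξ h = ((hu : Mˣ) : M) from rfl, pairing_units]
    simp only [hilbertSymbol, map_pow, Subgroup.coe_pow, Units.val_pow_eq_pow_val]
  obtain ⟨t, rfl⟩ : ((p : ℤ) ^ d) ∣ t' := by
    have h1 : ξ ^ (t' * ((p ^ (n + 1) : ℕ) : ℤ)) = 1 := by
      rw [zpow_mul, zpow_natCast, ← hsym, ← pow_mul, ← pow_add,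
        show d + (n + 1) = n + d + 1 by ring,
        ← Units.val_pow_eq_pow_val,
        (mem_rootsOfUnity _ _).1 (hilbertSymbol (p ^ (n + d + 1)) Q xM hu).2, Units.val_one]
    rw [hξ.zpow_eq_one_iff_dvd, show n + d + 1 = d + (n + 1) by ring, pow_add p d,
      Nat.cast_mul] at h1
    exact_mod_cast (mul_dvd_mul_iff_right (Int.natCast_ne_zero.2
      (pow_ne_zero _ hp.out.ne_zero))).1 h1
  refine ⟨t, ?_, ?_⟩
  · -- the trace
    have htr : Algebra.trace ℚ M (ε' * (ξ * aeval ξ (derivative h))) =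
        Algebra.trace ℚ K (((x : K) ^ p ^ d - 1) * T) := by
      rw [← Algebra.trace_trace (S := K), ← smul_eq_mul (a := (x : K) ^ p ^ d - 1), ← map_smul,
        Algebra.smul_def, hε', map_sub, map_pow, map_one, show algebraMap K M (x : K) = xM from rfl]
      congr 2
      rw [div_mul_eq_mul_div, ← mul_div_assoc]
    have ht2 : ‖((p : C) ^ d * t) * (p : C) ^ (n + d + 1) +
        ∑ σ : K →+* C, (σ (x : K) ^ p ^ d - 1) * σ T‖ ≤ pi ^ (2 * (n + d + 1)) := by
      have h1 : algebraMap ℚ C (Algebra.trace ℚ K (((x : K) ^ p ^ d - 1) * T)) =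
          ∑ σ : K →+* C, (σ (x : K) ^ p ^ d - 1) * σ T := by
        rw [trace_eq_sum_embeddings C, ← (RingHom.equivRatAlgHom (R := K) (S := C)).sum_comp]
        refine Finset.sum_congr rfl fun σ _ => ?_
        show σ (((x : K) ^ p ^ d - 1) * T) = _
        rw [map_mul, map_sub, map_pow, map_one]
      rw [← h1, ← htr]
      have h2 : ∀ r : ℚ, algebraMap ℚ C r = algebraMap ℚ_[p] C (r : ℚ_[p]) := fun r => by
        rw [eq_ratCast (algebraMap ℚ C) r, map_ratCast]
      rw [h2, show ((p : C) ^ d * t) * (p : C) ^ (n + d + 1) = algebraMap ℚ_[p] C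
        (((((p : ℤ) ^ d * t : ℤ) : ℚ) * (p : ℚ) ^ (n + d + 1) : ℚ) : ℚ_[p]) by
          push_cast; simp [map_mul, map_pow], ← map_add, ← Rat.cast_add, norm_algebraMap']
      refine ht'.trans_eq ?_
      rw [hpi, inv_pow, zpow_neg, zpow_natCast]
    -- the limit
    set S := explicitSum (C := C) ζ (x : K) g with hS
    have hdiff : ‖∑ σ : K →+* C, (σ (x : K) ^ p ^ d - 1) * σ T - (p : C) ^ (2 * d) * S‖ ≤
        pi ^ (2 * (n + d + 1)) := by
      rw [hS, explicitSum, Finset.mul_sum, ← Finset.sum_sub_distrib]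
      refine IsUltrametricDist.norm_sum_le_of_forall_le_of_nonneg (pow_nonneg hpi0.le _)
        fun σ _ => ?_
      rw [show σ (x : K) ^ p ^ d - 1 = (p : C) ^ d * X d σ by
          rw [mul_div_cancel₀ _ (pow_ne_zero d hp0)],
        show (p : C) ^ d * X d σ * σ T - (p : C) ^ (2 * d) * (L σ * dlogValue g (σ ζ - 1)) =
          (p : C) ^ (2 * d) * ((X d σ - L σ) * dlogValue g (σ ζ - 1)) +
            (p : C) ^ d * (X d σ * (σ T - (p : C) ^ d * dlogValue g (σ ζ - 1))) by ring]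
      refine (IsUltrametricDist.norm_add_le_max _ _).trans (max_le ?_ ?_) <;>
        rw [norm_mul, norm_mul, norm_pow, hnp, show 2 * (n + d + 1) = 2 * d + 2 * (n + 1) by ring]
      · rw [pow_add pi (2 * d)]
        refine mul_le_mul_of_nonneg_left ?_ (pow_nonneg hpi0.le _)
        rw [dlogValue, norm_div, hcσ σ]
        refine (mul_le_mul (hXd σ) (div_le_div_of_nonneg_right
          (norm_seriesValue_le (hzσ σ) _) hc0.le) (by positivity) hδ₀0.le).trans_eq ?_
        rw [hδ₀]; field_simp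
      · rw [show 2 * d + 2 * (n + 1) = d + (d + 2 * (n + 1)) by ring, pow_add pi d]
        refine mul_le_mul_of_nonneg_left ?_ (pow_nonneg hpi0.le _)
        refine (mul_le_mul (hXB σ) (hT σ) (norm_nonneg _) (zero_le_one.trans hB1)).trans ?_
        rw [hηdef, mul_div_cancel₀ _ (lt_of_lt_of_le one_pos hB1).ne']
        exact (mul_le_of_le_one_left (pow_nonneg hpi0.le _) hc1).trans
          (pow_le_pow_of_le_one hpi0.le hpi1.le (by omega))
    have hfin : ‖(p : C) ^ (2 * d + (n + 1)) * ((t : C) + S / (p : C) ^ (n + 1))‖ ≤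
        pi ^ (2 * (n + d + 1)) := by
      rw [show (p : C) ^ (2 * d + (n + 1)) * ((t : C) + S / (p : C) ^ (n + 1)) =
        (((p : C) ^ d * t) * (p : C) ^ (n + d + 1) +
          ∑ σ : K →+* C, (σ (x : K) ^ p ^ d - 1) * σ T) +
            -(∑ σ : K →+* C, (σ (x : K) ^ p ^ d - 1) * σ T - (p : C) ^ (2 * d) * S) by
        rw [mul_add, pow_add (p : C) (2 * d) (n + 1), mul_assoc ((p : C) ^ (2 * d)) _ (S / _),
          mul_div_cancel₀ _ (pow_ne_zero _ hp0)]
        ring]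
      exact (IsUltrametricDist.norm_add_le_max _ _).trans (max_le ht2 (by rwa [norm_neg]))
    rw [norm_mul, norm_pow, hnp, show 2 * (n + d + 1) = 2 * d + (n + 1) + (n + 1) by ring,
      pow_add pi (2 * d + (n + 1))] at hfin
    exact le_of_mul_le_mul_left hfin (pow_pos hpi0 _)
  · -- the symbol
    set Nh : Kˣ := normU' (K := K) hu with hNh
    have hb' : hilbertSymbol (p ^ (n + 1)) v x b = hilbertSymbol (p ^ (n + 1)) v x Nh := by
      refine hilbertSymbol_congr_right hv hζ x b Nh (deep_of_norm_map_le n hv ι ?_)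
      have hN : ι (Nh : K) = ∏ i : Fin (p ^ d), σι (e i (aeval ξ h)) := by
        rw [show (Nh : K) = Algebra.norm K (aeval ξ h) from rfl, ← hτ ι,
          Algebra.norm_eq_prod_automorphisms, map_prod, ← e.prod_comp]
      have hNg : ‖ι (Nh : K) - seriesValue (ι ζ - 1) g‖ ≤ ε := by
        rw [hN, ← (hconj ι).1]
        refine norm_prod_sub_prod_le _ (mul_pos (pow_pos hc0 2) hη0).le (fun i _ => hh1 ι i)
          (fun i _ => norm_seriesValue_le (hwlt _ i) g) fun i _ => ?_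
        rw [happ]
        exact (hh _ (hr ι i)).1
      have hNc : ‖ι (Nh : K)‖ = c := by
        have h2 := IsUltrametricDist.norm_add_eq_max_of_norm_ne_norm
          (x := ι (Nh : K) - seriesValue (ι ζ - 1) g) (y := seriesValue (ι ζ - 1) g)
          (by rw [← hcdef]; exact (hNg.trans_lt hεc).ne)
        rw [sub_add_cancel] at h2
        rw [h2, ← hcdef, max_eq_right (hNg.trans hεc.le)]
      have hN0 : ι (Nh : K) ≠ 0 := norm_pos_iff.1 (by rw [hNc]; exact hc0)
      rw [map_sub, map_one, map_div₀, div_sub_one hN0, norm_div, hNc, div_le_iff₀ hc0,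
        ← sub_sub_sub_cancel_right _ _ (seriesValue (ι ζ - 1) g), sub_eq_add_neg]
      refine (IsUltrametricDist.norm_add_le_max _ _).trans (max_le hb ?_)
      rw [norm_neg, mul_comm]
      refine hNg.trans (hεη.trans (mul_le_mul_of_nonneg_left (hη1.trans ?_) hc0.le))
      exact pow_le_pow_of_le_one hpi0.le hpi1.le (by omega)
    refine (algebraMap K M).injective ?_
    have hproj := hilbertSymbol_normU' (p ^ (n + 1)) Q hQ honly hu x
    have hlowq := hilbertSymbol_lower (p ^ (n + 1)) (p ^ d) Q xM hu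
    have hcast : ((hilbertSymbol (p ^ (n + 1) * p ^ d) Q xM hu : Mˣ) : M) =
        ((hilbertSymbol (p ^ (n + d + 1)) Q xM hu : Mˣ) : M) :=
      hilbertSymbol_order_congr (by rw [← pow_add]; congr 1; ring) Q xM hu
    rw [hcast, hsym] at hlowq
    rw [hb', hilbertSymbol_symm, Subgroup.coe_inv, Units.val_inv_eq_inv_val, map_inv₀, hproj,
      hilbertSymbol_symm, Subgroup.coe_inv, Units.val_inv_eq_inv_val, inv_inv, hlowq,
      map_zpow₀, hfζ, ← zpow_natCast, ← zpow_mul]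
    push_cast
    rfl

end FA.ExplicitLaw
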