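import Fermat.Agent.LubinTate.Coleman.TraceNorm
import Fermat.Agent.Transcendence.BrumerExp
import Mathlib.LinearAlgebra.Vandermonde

/-!
# Values of series and the norm operator

In a complete ultrametric field over `ℚ_p` a series with coefficients in `ℤ_p` has a value at every
point of the open unit disc. At `w ^ p - 1` the value of `normSeries g` is the product of the values
of `g` at the points `w η - 1`, `η ^ p = 1`, and the logarithmic derivative becomes their sum.
-/

set_option autoImplicit false
set_option linter.unusedSectionVars false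
set_option linter.style.haveILetI false

noncomputable section

open Filter Finset
open Fermat.Agent.LubinTate
open scoped Topology

namespace FA.ExplicitLaw

variable {p : ℕ} [hp : Fact p.Prime] {C : Type*} [NontriviallyNormedField C] [CompleteSpace C]
  [IsUltrametricDist C] [NormedAlgebra ℚ_[p] C]

local notation "Λ" => PowerSeries ℤ_[p]

/-- The coefficients in the field. -/
def coeffHom : ℤ_[p] →+* C := (algebraMap ℚ_[p] C).comp PadicInt.Coe.ringHom

theorem norm_coeffHom_le (c : ℤ_[p]) : ‖(coeffHom c : C)‖ ≤ 1 := by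
  rw [coeffHom, RingHom.comp_apply, norm_algebraMap']
  exact c.norm_le_one

theorem summable_seriesTerm (g : Λ) {z : C} (hz : ‖z‖ < 1) :
    Summable fun i => ‖coeffHom (PowerSeries.coeff i g) * z ^ i‖ := by
  refine Summable.of_nonneg_of_le (fun i => norm_nonneg _) (fun i => ?_)
    (summable_geometric_of_lt_one (norm_nonneg z) hz)
  rw [norm_mul, norm_pow]
  exact mul_le_of_le_one_left (pow_nonneg (norm_nonneg z) i) (norm_coeffHom_le _)

/-- The value of a series at a point of the disc. -/
def seriesValue (z : C) (g : Λ) : C := ∑' i, coeffHom (PowerSeries.coeff i g) * z ^ i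

theorem seriesValue_C (z : C) (c : ℤ_[p]) : seriesValue z (PowerSeries.C c) = coeffHom c := by
  rw [seriesValue, tsum_eq_single 0 fun i hi => by simp [PowerSeries.coeff_C, hi]]
  simp

theorem seriesValue_one (z : C) : seriesValue z (1 : Λ) = 1 := by
  rw [← map_one PowerSeries.C, seriesValue_C, map_one]

theorem seriesValue_X (z : C) : seriesValue z (PowerSeries.X : Λ) = z := by
  rw [seriesValue, tsum_eq_single 1 fun i hi => by simp [PowerSeries.coeff_X, hi]]
  simp

theorem seriesValue_add {z : C} (hz : ‖z‖ < 1) (g h : Λ) :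
    seriesValue z (g + h) = seriesValue z g + seriesValue z h := by
  simp only [seriesValue, map_add, add_mul]
  exact (summable_seriesTerm g hz).of_norm.tsum_add (summable_seriesTerm h hz).of_norm

theorem seriesValue_mul {z : C} (hz : ‖z‖ < 1) (g h : Λ) :
    seriesValue z (g * h) = seriesValue z g * seriesValue z h := by
  rw [seriesValue, seriesValue, seriesValue, tsum_mul_tsum_eq_tsum_sum_antidiagonal_of_summable_norm
    (summable_seriesTerm g hz) (summable_seriesTerm h hz)]
  refine tsum_congr fun i => ?_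
  rw [PowerSeries.coeff_mul, map_sum, Finset.sum_mul]
  refine Finset.sum_congr rfl fun kl hkl => ?_
  rw [Finset.HasAntidiagonal.mem_antidiagonal] at hkl
  rw [map_mul, ← hkl, pow_add]
  ring

/-- Evaluation at a point of the disc. -/
def seriesHom {z : C} (hz : ‖z‖ < 1) : Λ →+* C where
  toFun := seriesValue z
  map_zero' := by simp [seriesValue]
  map_one' := seriesValue_one z
  map_add' := seriesValue_add hz
  map_mul' := seriesValue_mul hz

theorem seriesHom_apply {z : C} (hz : ‖z‖ < 1) (g : Λ) : seriesHom hz g = seriesValue z g := rfl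

theorem norm_seriesValue_le {z : C} (hz : ‖z‖ < 1) (g : Λ) : ‖seriesValue z g‖ ≤ 1 := by
  refine IsUltrametricDist.norm_tsum_le_of_forall_le_of_nonneg zero_le_one fun i => ?_
  rw [norm_mul, norm_pow]
  exact mul_le_one₀ (norm_coeffHom_le _) (pow_nonneg (norm_nonneg z) i)
    (pow_le_one₀ (norm_nonneg z) hz.le)

theorem seriesValue_coe {z : C} (hz : ‖z‖ < 1) (P : Polynomial ℤ_[p]) :
    seriesValue z (P : Λ) = P.eval₂ coeffHom z := by
  induction P using Polynomial.induction_on' with
  | add a b ha hb => rw [Polynomial.coe_add, seriesValue_add hz, ha, hb, Polynomial.eval₂_add]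
  | monomial i c =>
    rw [← Polynomial.C_mul_X_pow_eq_monomial, Polynomial.coe_mul, Polynomial.coe_C,
      Polynomial.coe_pow, Polynomial.coe_X, ← seriesHom_apply hz, map_mul, map_pow,
      seriesHom_apply, seriesHom_apply, seriesValue_C, seriesValue_X, Polynomial.eval₂_mul,
      Polynomial.eval₂_pow, Polynomial.eval₂_X, Polynomial.eval₂_C]

/-- **Bounded evaluations are values.** -/
theorem eq_seriesValue {z : C} (hz : ‖z‖ < 1) (f : Λ →+* C)
    (hC : ∀ c, f (PowerSeries.C c) = coeffHom c) (hX : f PowerSeries.X = z)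
    (hb : ∀ g, ‖f g‖ ≤ 1) (g : Λ) : f g = seriesValue z g := by
  have key : ∀ N : ℕ, ‖f g - seriesValue z g‖ ≤ ‖z‖ ^ N := fun N => by
    have hsplit : g = PowerSeries.X ^ N * (PowerSeries.mk fun i => PowerSeries.coeff (i + N) g) +
        ((PowerSeries.trunc N g : Polynomial ℤ_[p]) : Λ) := g.eq_X_pow_mul_shift_add_trunc N
    set s := PowerSeries.mk fun i => PowerSeries.coeff (i + N) g
    have hpoly : ∀ P : Polynomial ℤ_[p], f (P : Λ) = P.eval₂ coeffHom z := by
      intro P
      induction P using Polynomial.induction_on' with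
      | add a b ha hb' => rw [Polynomial.coe_add, map_add, ha, hb', Polynomial.eval₂_add]
      | monomial i c =>
        rw [← Polynomial.C_mul_X_pow_eq_monomial, Polynomial.coe_mul, Polynomial.coe_C,
          Polynomial.coe_pow, Polynomial.coe_X, map_mul, map_pow, hC, hX, Polynomial.eval₂_mul,
          Polynomial.eval₂_pow, Polynomial.eval₂_X, Polynomial.eval₂_C]
    rw [hsplit, map_add, map_mul, map_pow, hX, hpoly, seriesValue_add hz, seriesValue_coe hz,
      add_sub_add_right_eq_sub, ← seriesHom_apply hz, map_mul, map_pow, seriesHom_apply,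
      seriesHom_apply, seriesValue_X, ← mul_sub, norm_mul, norm_pow]
    refine mul_le_of_le_one_right (pow_nonneg (norm_nonneg z) N) ?_
    rw [sub_eq_add_neg]
    exact (IsUltrametricDist.norm_add_le_max _ _).trans
      (max_le (hb s) (by rw [norm_neg]; exact norm_seriesValue_le hz s))
  exact sub_eq_zero.1 (norm_le_zero_iff.1
    (ge_of_tendsto' (tendsto_pow_atTop_nhds_zero_of_lt_one (norm_nonneg z) hz) key))

theorem norm_one_add_pow_sub_one_le {z : C} (hz : ‖z‖ < 1) (i : ℕ) :
    ‖(1 + z) ^ i - 1‖ ≤ ‖z‖ := by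
  rw [← geom_sum_mul, add_sub_cancel_left, norm_mul]
  refine mul_le_of_le_one_left (norm_nonneg z) (IsUltrametricDist.norm_sum_le_of_forall_le_of_nonneg
    zero_le_one fun j _ => ?_)
  rw [norm_pow]
  exact pow_le_one₀ (norm_nonneg _) ((IsUltrametricDist.norm_add_le_max _ _).trans
    (max_le (by simp) hz.le))

/-- The value of `φ g`. -/
theorem seriesValue_frobSubst {z : C} (hz : ‖z‖ < 1) (g : Λ) :
    seriesValue z (frobSubst p g) = seriesValue ((1 + z) ^ p - 1) g := by
  have hz' := (norm_one_add_pow_sub_one_le hz p).trans_lt hz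
  refine eq_seriesValue hz' ((seriesHom hz).comp (frobSubst p).toRingHom) (fun c => ?_) ?_
    (fun x => norm_seriesValue_le hz _) g
  · show seriesHom hz (frobSubst p (PowerSeries.C c)) = _
    rw [frobSubst_C, seriesHom_apply, seriesValue_C]
  · show seriesHom hz (frobSubst p PowerSeries.X) = _
    rw [frobSubst_X, multiplicativeSeries, map_sub, map_pow, map_add, map_one, seriesHom_apply,
      seriesValue_X]

/-- Roots of unity of `p`-power order lie in the disc around `1`. -/
theorem norm_sub_one_lt_of_pow_eq_one : ∀ (t : ℕ) {w : C}, w ^ p ^ t = 1 → ‖w - 1‖ < 1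
  | 0, w, h => by rw [pow_zero, pow_one] at h; simp [h]
  | t + 1, w, h => by
    have h1 : ‖w ^ p - 1‖ < 1 :=
      norm_sub_one_lt_of_pow_eq_one t (by rw [← pow_mul, ← pow_succ']; exact h)
    have hw : ‖w‖ = 1 := (pow_eq_one_iff_of_nonneg (norm_nonneg w)
      (pow_ne_zero (t + 1) hp.out.ne_zero)).1 (by rw [← norm_pow, h, norm_one])
    obtain ⟨r, hr, hr1⟩ : ∃ r : C, ‖r‖ ≤ 1 ∧
        w ^ p = (w - 1) ^ p + 1 + (p : C) * r := by
      have hwd : ‖w - 1‖ ≤ 1 := by
        rw [sub_eq_add_neg]
        exact (IsUltrametricDist.norm_add_le_max _ _).trans (max_le hw.le (by simp))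
      refine ⟨(w - 1) * ∑ i ∈ Finset.Ioo 0 p, (w - 1) ^ (i - 1) * ((p.choose i / p : ℕ) : C),
        ?_, ?_⟩
      · rw [norm_mul]
        refine mul_le_one₀ hwd (norm_nonneg _)
          (IsUltrametricDist.norm_sum_le_of_forall_le_of_nonneg zero_le_one fun i _ => ?_)
        rw [norm_mul, norm_pow]
        exact mul_le_one₀ (pow_le_one₀ (norm_nonneg _) hwd) (norm_nonneg _)
          (IsUltrametricDist.norm_natCast_le_one C _)
      · have h := add_pow_prime_eq (R := C) hp.out (w - 1) 1
        simp only [sub_add_cancel, one_pow, mul_one] at h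
        rw [← mul_assoc]
        exact h
    have h2 : ‖(w - 1) ^ p‖ < 1 := by
      rw [show (w - 1) ^ p = (w ^ p - 1) + -((p : C) * r) by rw [hr1]; ring]
      refine (IsUltrametricDist.norm_add_le_max _ _).trans_lt (max_lt h1 ?_)
      rw [norm_neg, norm_mul, FA.Brumer.norm_prime p]
      exact (mul_le_of_le_one_right (inv_nonneg.2 (FA.Brumer.prime_pos p).le) hr).trans_lt
        (inv_lt_one_of_one_lt₀ (FA.Brumer.one_lt_prime p))
    rw [norm_pow] at h2
    exact lt_of_not_ge fun h3 => h2.not_ge (one_le_pow₀ h3)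

/-! ### The norm operator -/

theorem trace_adjugate_frobMatrix_amiceD (g : Λ) :
    Matrix.trace ((frobMatrix p g).adjugate * frobMatrix p (amiceD g)) =
      (p : Λ) * amiceD (normSeries p g) := by
  classical
  set M := frobMatrix p g
  set Δ := Matrix.diagonal fun i : Fin p => ((i : ℕ) : Λ)
  rw [frobMatrix_amiceD, mul_add, Matrix.mul_sub, Matrix.trace_add, Matrix.trace_sub,
    Matrix.mul_smul, Matrix.trace_smul, smul_eq_mul,
    Matrix.trace_mul_comm M.adjugate (Δ * M), ← mul_assoc M.adjugate M Δ, mul_assoc Δ,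
    Matrix.mul_adjugate, Matrix.adjugate_mul, Matrix.mul_smul, Matrix.smul_mul, mul_one, one_mul,
    sub_self, add_zero, ← derivation_det amiceD_add amiceD_mul]
  rfl

variable {η w : C} (hη : IsPrimitiveRoot η p) (hw : ‖w - 1‖ < 1)
include hη hw

theorem norm_conj_sub_one_lt (i : ℕ) : ‖w * η ^ i - 1‖ < 1 := by
  have h1 : ‖η ^ i - 1‖ < 1 := norm_sub_one_lt_of_pow_eq_one 1
    (by rw [pow_one, ← pow_mul, mul_comm, pow_mul, hη.pow_eq_one, one_pow])
  have hw1 : ‖w‖ ≤ 1 := by
    rw [← sub_add_cancel w 1]
    exact (IsUltrametricDist.norm_add_le_max _ _).trans (max_le hw.le (by simp))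
  rw [show w * η ^ i - 1 = w * (η ^ i - 1) + (w - 1) by ring]
  refine (IsUltrametricDist.norm_add_le_max _ _).trans_lt (max_lt ?_ hw)
  rw [norm_mul]
  exact (mul_le_of_le_one_left (norm_nonneg _) hw1).trans_lt h1

theorem norm_pow_sub_one_lt : ‖w ^ p - 1‖ < 1 := by
  have h := (norm_one_add_pow_sub_one_le hw p).trans_lt hw
  rwa [add_sub_cancel] at h

/-- The matrix of multiplication diagonalises at the conjugates. -/
theorem vandermonde_mul_frobMatrix (g : Λ) :
    Matrix.vandermonde (fun j : Fin p => w * η ^ (j : ℕ)) *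
        (frobMatrix p g).map (seriesHom (norm_pow_sub_one_lt hη hw)) =
      Matrix.diagonal (fun j : Fin p => seriesValue (w * η ^ (j : ℕ) - 1) g) *
        Matrix.vandermonde (fun j : Fin p => w * η ^ (j : ℕ)) := by
  refine Matrix.ext fun j l => ?_
  have hj := norm_conj_sub_one_lt hη hw (j : ℕ)
  have hω : seriesHom hj ((1 + PowerSeries.X : Λ)) = w * η ^ (j : ℕ) := by
    rw [map_add, map_one, seriesHom_apply, seriesValue_X, add_sub_cancel]
  have key : seriesHom hj g * (w * η ^ (j : ℕ)) ^ (l : ℕ) =
      seriesHom hj (g * (1 + PowerSeries.X) ^ (l : ℕ)) := by rw [map_mul, map_pow, hω]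
  rw [Matrix.mul_apply, Matrix.diagonal_mul, Matrix.vandermonde_apply,
    ← seriesHom_apply hj g, key,
    ← frobExpand_frobCoord p (g * (1 + PowerSeries.X) ^ (l : ℕ)), frobExpand, map_sum]
  refine Finset.sum_congr rfl fun i _ => ?_
  rw [Matrix.vandermonde_apply, Matrix.map_apply, frobMatrix_apply, map_mul (seriesHom hj),
    map_pow (seriesHom hj), hω,
    seriesHom_apply, seriesHom_apply, seriesValue_frobSubst hj, add_sub_cancel,
    show (w * η ^ (j : ℕ)) ^ p = w ^ p by
      rw [mul_pow, ← pow_mul, mul_comm (j : ℕ), pow_mul η p, hη.pow_eq_one, one_pow,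
        mul_one]]
  ring

theorem vandermonde_det_ne_zero (hw0 : w ≠ 0) :
    (Matrix.vandermonde (fun j : Fin p => w * η ^ (j : ℕ))).det ≠ 0 :=
  Matrix.det_vandermonde_ne_zero_iff.2 fun i j h =>
    Fin.ext (hη.pow_inj i.2 j.2 (mul_left_cancel₀ hw0 h))

/-- **The value of the norm.** -/
theorem seriesValue_normSeries (hw0 : w ≠ 0) (g : Λ) :
    seriesValue (w ^ p - 1) (normSeries p g) =
      ∏ j : Fin p, seriesValue (w * η ^ (j : ℕ) - 1) g := by
  have h := congrArg Matrix.det (vandermonde_mul_frobMatrix hη hw g)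
  rw [Matrix.det_mul, Matrix.det_mul, Matrix.det_diagonal, mul_comm (∏ _, _),
    ← RingHom.mapMatrix_apply, ← RingHom.map_det] at h
  exact mul_left_cancel₀ (vandermonde_det_ne_zero hη hw hw0) h

/-- **The value of the derivative of the norm.** -/
theorem seriesValue_amiceD_normSeries (hw0 : w ≠ 0) (g : Λ) :
    (p : C) * seriesValue (w ^ p - 1) (amiceD (normSeries p g)) =
      ∑ j : Fin p, seriesValue (w * η ^ (j : ℕ) - 1) (amiceD g) *
        ∏ i ∈ univ.erase j, seriesValue (w * η ^ (i : ℕ) - 1) g := by
  classical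
  set E := seriesHom (p := p) (norm_pow_sub_one_lt hη hw)
  set V := Matrix.vandermonde (fun j : Fin p => w * η ^ (j : ℕ))
  set f : Fin p → C := fun j => seriesValue (w * η ^ (j : ℕ) - 1) g
  set f' : Fin p → C := fun j => seriesValue (w * η ^ (j : ℕ) - 1) (amiceD g)
  have hV : V * (frobMatrix p g).map E = Matrix.diagonal f * V :=
    vandermonde_mul_frobMatrix hη hw g
  have hV' : V * (frobMatrix p (amiceD g)).map E = Matrix.diagonal f' * V :=
    vandermonde_mul_frobMatrix hη hw (amiceD g)
  have h := congrArg E (trace_adjugate_frobMatrix_amiceD (p := p) g)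
  rw [map_mul, map_natCast, AddMonoidHom.map_trace, Matrix.map_mul,
    show (frobMatrix p g).adjugate.map E = ((frobMatrix p g).map E).adjugate from
      RingHom.map_adjugate E _] at h
  refine mul_left_cancel₀ (vandermonde_det_ne_zero hη hw hw0 : V.det ≠ 0) ?_
  set A := ((frobMatrix p g).map E).adjugate
  set A' := (frobMatrix p (amiceD g)).map E
  set G := (Matrix.diagonal f).adjugate
  have h2 : A * V.adjugate = V.adjugate * G := by
    have := congrArg Matrix.adjugate hV
    rwa [Matrix.adjugate_mul_distrib, Matrix.adjugate_mul_distrib] at this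
  rw [← seriesHom_apply (norm_pow_sub_one_lt hη hw) (amiceD (normSeries p g)), ← h]
  calc V.det * Matrix.trace (A * A')
      = Matrix.trace ((A * V.adjugate) * (V * A')) := by
        rw [← Matrix.mul_assoc (A * V.adjugate), Matrix.mul_assoc A, Matrix.adjugate_mul,
          Matrix.mul_smul, Matrix.mul_one, Matrix.smul_mul, Matrix.trace_smul, smul_eq_mul]
    _ = Matrix.trace (V.adjugate * ((G * Matrix.diagonal f') * V)) := by
        rw [h2, hV']; simp only [Matrix.mul_assoc]
    _ = V.det * ∑ j, f' j * ∏ i ∈ univ.erase j, f i := by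
        rw [Matrix.trace_mul_comm, Matrix.mul_assoc, Matrix.mul_adjugate, Matrix.mul_smul,
          Matrix.mul_one, Matrix.trace_smul, smul_eq_mul]
        simp only [G, Matrix.adjugate_diagonal, Matrix.diagonal_mul_diagonal,
          Matrix.trace_diagonal]
        congr 1
        exact Finset.sum_congr rfl fun j _ => mul_comm _ _

end FA.ExplicitLaw
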