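import Fermat.Agent.ExplicitReciprocity.WildPlace
import Fermat.Agent.ExplicitReciprocity.Corollaries

/-!
# The supplementary laws of Artin and Hasse

`K = ℚ (ζ)`, `ζ` of order `q = p ^ (n + 1) > 2`, and `(ε / α)` the product of the residue symbols
of `ε` at the primes of `α` away from `p`. Then `(ζ / α) = ζ ^ ((N α - 1) / q)` for `α` prime to
`p`, and for `α ≡ 1` modulo `ζ - 1` the symbols of `ζ ^ a - 1`, of the cyclotomic units and of `p`
are `ζ ^ t` with `t ≡ (1 / q) Tr (log α · δ)` modulo `q` and `δ` the logarithmic derivative.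
-/

set_option autoImplicit false
set_option linter.unusedSectionVars false
set_option linter.style.haveILetI false

noncomputable section

open NumberField IsDedekindDomain Polynomial Finset
open FA.HilbertN FA.ArtinRec
open scoped Classical

namespace FA.ExplicitLaw

variable {p : ℕ} [hp : Fact p.Prime] {n : ℕ} {K : Type*} [Field K] [NumberField K]
  [hcyc : IsCyclotomicExtension {p ^ (n + 1)} ℚ K] [HasEnoughRootsOfUnity K (p ^ (n + 1))]
  {v : HeightOneSpectrum (𝓞 K)} (hv : (p : 𝓞 K) ∈ v.asIdeal) {ζ : K}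
  (hζ : IsPrimitiveRoot ζ (p ^ (n + 1))) (hq : 2 < p ^ (n + 1))
include hv hcyc hζ

/-- `ζ ^ a - 1` lives at `v` only. -/
theorem zeta_pow_sub_one_notMem {a : ℕ} (ha : ¬ p ∣ a) {e : 𝓞 K} (he : (e : K) = ζ ^ a - 1)
    {w : HeightOneSpectrum (𝓞 K)} (hw : w ≠ v) : e ∉ w.asIdeal := by
  intro hmem
  have hμ : IsPrimitiveRoot (e + 1) (p ^ (n + 1)) := by
    refine IsPrimitiveRoot.of_map_of_injective (f := algebraMap (𝓞 K) K) ?_
      RingOfIntegers.coe_injective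
    rw [map_add, map_one, show algebraMap (𝓞 K) K e = (e : K) from rfl, he, sub_add_cancel]
    exact hζ.pow_of_coprime a (Nat.Coprime.pow_right _
      (hp.out.coprime_iff_not_dvd.2 ha).symm)
  have h := sub_dvd_eval_sub (e + 1) 1 (cyclotomic (p ^ (n + 1)) (𝓞 K))
  rw [(hμ.isRoot_cyclotomic (pow_pos hp.out.pos _)).eq_zero, eval_one_cyclotomic_prime_pow,
    add_sub_cancel_right, zero_sub, dvd_neg] at h
  exact natCast_pow_notMem n hv hw ((natCast_pow_mem_iff w).2 (w.asIdeal.mem_of_dvd h hmem))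

include hq

/-- **The first supplementary law**: `(ζ / α) = ζ ^ ((N α - 1) / q)`. -/
theorem residueProd_zeta {z : 𝓞 K} (hz : (z : K) = ζ) {α : 𝓞 K} (hα : α ∉ v.asIdeal)
    (hα0 : α ≠ 0) :
    ((residueProd (p ^ (n + 1)) z (intU α hα0) : Kˣ) : K) =
      ζ ^ ((Algebra.norm ℤ α - 1) / ((p ^ (n + 1) : ℕ) : ℤ)) := by
  obtain ⟨m, hm⟩ := dvd_norm_sub_one hv hq hα
  have hz0 : z ≠ 0 := fun h => hζ.ne_zero (pow_ne_zero _ hp.out.ne_zero) (by rw [← hz, h]; rfl)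
  have hzu : z ^ p ^ (n + 1) = 1 := RingOfIntegers.coe_injective (by
    show algebraMap (𝓞 K) K _ = algebraMap (𝓞 K) K _
    rw [map_pow, map_one, show algebraMap (𝓞 K) K z = (z : K) from rfl, hz, hζ.pow_eq_one])
  rw [residueProd_eq_symbol hv hq hz0 hα0 fun w _ hm' => w.isPrime.ne_top
      ((Ideal.eq_top_iff_one _).2 (hzu ▸ w.asIdeal.pow_mem_of_mem hm' _ (pow_pos hp.out.pos _))),
    Subgroup.coe_inv, Units.val_inv_eq_inv_val, ← pairing_units, intU_val, intU_val, hz, hm,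
    Int.mul_ediv_cancel_left _ (by exact_mod_cast pow_ne_zero _ hp.out.ne_zero)]
  push_cast at hm
  have hN : ¬ (p : ℤ) ∣ Algebra.norm ℤ α := fun h => by
    have h1 : (p : ℤ) ∣ Algebra.norm ℤ α - 1 :=
      ⟨(p : ℤ) ^ n * m, by rw [hm, pow_succ]; ring⟩
    have h2 := dvd_sub h h1
    rw [sub_sub_cancel] at h2
    exact hp.out.ne_one (Nat.dvd_one.1 (Int.natCast_dvd_natCast.1 (by exact_mod_cast h2)))
  rw [pairing_zeta_of_norm hv hζ (N := Algebra.norm ℤ α) (D := 1) (t := -m) hN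
    (fun h => hp.out.ne_one (Nat.dvd_one.1 (Int.natCast_dvd_natCast.1 (by exact_mod_cast h))))
    (by rw [← Algebra.coe_norm_int, Int.cast_one, mul_one])
    ⟨-m ^ 2, by rw [sub_eq_iff_eq_add.1 hm]; ring⟩, zpow_neg, inv_inv]

variable {C : Type*} [NontriviallyNormedField C] [CompleteSpace C] [IsUltrametricDist C]
  [NormedAlgebra ℚ_[p] C] [CharZero C] [IsAlgClosed C]

/-- From the symbol at `v` to the residue symbols. -/
theorem exists_residueProd_exponent {ε α : 𝓞 K} (hε : ε ≠ 0) (hα : α ≠ 0)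
    (h : ∀ w : HeightOneSpectrum (𝓞 K), w ≠ v → ε ∉ w.asIdeal) {S : C}
    (hS : ∃ t : ℤ, ‖(t : C) + S / (p : C) ^ (n + 1)‖ ≤ ((p : ℝ)⁻¹) ^ (n + 1) ∧
      ((hilbertSymbol (p ^ (n + 1)) v (intU α hα) (intU ε hε) : Kˣ) : K) = ζ ^ t) :
    ∃ t : ℤ, ‖(t : C) - S / (p : C) ^ (n + 1)‖ ≤ ((p : ℝ)⁻¹) ^ (n + 1) ∧
      ((residueProd (p ^ (n + 1)) ε (intU α hα) : Kˣ) : K) = ζ ^ t := by
  obtain ⟨t, ht, he⟩ := hS
  refine ⟨-t, by rwa [Int.cast_neg, ← neg_add', norm_neg], ?_⟩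
  rw [residueProd_eq_symbol hv hq hε hα h, Subgroup.coe_inv, Units.val_inv_eq_inv_val, he, zpow_neg]

omit hq in
/-- Exponents in the same class give the same root of unity. -/
theorem zeta_zpow_eq_of_close {S : C} {t t' : ℤ}
    (ht : ‖(t : C) - S‖ ≤ ((p : ℝ)⁻¹) ^ (n + 1))
    (ht' : ‖(t' : C) - S‖ ≤ ((p : ℝ)⁻¹) ^ (n + 1)) : ζ ^ t = ζ ^ t' := by
  have hdiff : ‖((t - t' : ℤ) : C)‖ ≤ ((p : ℝ)⁻¹) ^ (n + 1) := by
    rw [Int.cast_sub, ← sub_sub_sub_cancel_right _ _ S, sub_eq_add_neg]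
    exact (IsUltrametricDist.norm_add_le_max _ _).trans (max_le ht (by rwa [norm_neg]))
  rw [FA.Brumer.norm_intCast p, inv_pow, ← zpow_natCast, ← zpow_neg,
    Padic.norm_int_le_pow_iff_dvd] at hdiff
  have hζ0 : ζ ≠ 0 := hζ.ne_zero (pow_ne_zero _ hp.out.ne_zero)
  rw [← div_eq_one_iff_eq (zpow_ne_zero _ hζ0), ← zpow_sub₀ hζ0, hζ.zpow_eq_one_iff_dvd]
  exact_mod_cast hdiff

omit hq in
theorem valuation_sub_one_lt {α : 𝓞 K} (hα : α - 1 ∈ v.asIdeal) :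
    v.valuation K ((α : K) - 1) < 1 := by
  rw [show (α : K) - 1 = algebraMap (𝓞 K) K (α - 1) by rw [map_sub, map_one],
    v.valuation_lt_one_iff_mem]
  exact hα

omit hq in
/-- The symbol at `v` with `± (ζ ^ a - 1)`. -/
theorem exists_exponent_signed {a : ℕ} (ha : ¬ p ∣ a) (x b : Kˣ)
    (hx : v.valuation K ((x : K) - 1) < 1) (hb : (b : K) = (-1) ^ (p - 1) * (ζ ^ a - 1)) :
    ∃ t : ℤ, ‖(t : C) + (∑ σ : K →+* C, logOne (σ (x : K) - 1) *
          σ ((a : K) * ζ ^ a / (ζ ^ a - 1))) / (p : C) ^ (n + 1)‖ ≤ ((p : ℝ)⁻¹) ^ (n + 1) ∧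
      ((hilbertSymbol (p ^ (n + 1)) v x b : Kˣ) : K) = ζ ^ t := by
  have h1 : ζ - 1 ≠ 0 := sub_ne_zero.2 (hζ.ne_one (one_lt_pow₀ hp.out.one_lt n.succ_ne_zero))
  have h2 : ζ ^ a - 1 ≠ 0 := sub_ne_zero.2 fun h => ha ((dvd_pow_self p n.succ_ne_zero).trans
    ((hζ.pow_eq_one_iff_dvd a).1 h))
  set c : Kˣ := Units.mk0 _ (div_ne_zero h2 h1) with hc
  obtain ⟨t₁, ht₁, hs₁⟩ := exists_exponent_uniformizer (C := C) hv hζ x (b / c) hx (by
    rw [Units.val_div_eq_div_val, hb, hc, Units.val_mk0]; field_simp)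
  obtain ⟨t₂, ht₂, hs₂⟩ := exists_exponent_cyclotomic (C := C) hv hζ ha x c hx (Units.val_mk0 _)
  refine ⟨t₁ + t₂, ?_, ?_⟩
  · refine le_trans (le_of_eq (congrArg norm ?_))
      ((IsUltrametricDist.norm_add_le_max _ _).trans (max_le ht₁ ht₂))
    rw [add_add_add_comm, Int.cast_add, ← add_div, ← Finset.sum_add_distrib]
    congr 2
    exact Finset.sum_congr rfl fun σ _ => by rw [← mul_add, ← map_add, add_sub_cancel]
  · rw [show b = b / c * c from (div_mul_cancel b c).symm, hilbertSymbol_mul_right,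
      Subgroup.coe_mul, Units.val_mul, hs₁, hs₂,
      zpow_add₀ (hζ.ne_zero (pow_ne_zero _ hp.out.ne_zero))]

/-- **The law for `± (ζ ^ a - 1)`.** -/
theorem exists_supplement_signed {a : ℕ} (ha : ¬ p ∣ a) {ε α : 𝓞 K}
    (hε : (ε : K) = (-1) ^ (p - 1) * (ζ ^ a - 1)) (hα : α - 1 ∈ v.asIdeal) (hα0 : α ≠ 0) :
    ∃ t : ℤ, ‖(t : C) - (∑ σ : K →+* C, logOne (σ (α : K) - 1) *
          σ ((a : K) * ζ ^ a / (ζ ^ a - 1))) / (p : C) ^ (n + 1)‖ ≤ ((p : ℝ)⁻¹) ^ (n + 1) ∧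
      ((residueProd (p ^ (n + 1)) ε (intU α hα0) : Kˣ) : K) = ζ ^ t := by
  have h2 : ζ ^ a - 1 ≠ 0 := sub_ne_zero.2 fun h => ha ((dvd_pow_self p n.succ_ne_zero).trans
    ((hζ.pow_eq_one_iff_dvd a).1 h))
  have hsq : ((-1 : 𝓞 K) ^ (p - 1)) * (-1) ^ (p - 1) = 1 := by
    rw [← pow_add, ← two_mul, pow_mul, neg_one_sq, one_pow]
  have hsq' : ((-1 : K) ^ (p - 1)) * (-1) ^ (p - 1) = 1 := by
    rw [← pow_add, ← two_mul, pow_mul, neg_one_sq, one_pow]
  have hε0 : ε ≠ 0 := fun h => by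
    rw [h, show ((0 : 𝓞 K) : K) = 0 from rfl] at hε
    exact h2 ((mul_eq_zero.1 hε.symm).resolve_left (pow_ne_zero _ (neg_ne_zero.2 one_ne_zero)))
  obtain ⟨t, ht, hs⟩ := exists_exponent_signed (C := C) hv hζ ha (intU α hα0) (intU ε hε0)
    (valuation_sub_one_lt hv hζ hα) hε
  simp only [intU_val] at ht
  refine exists_residueProd_exponent hv hζ hq hε0 hα0 (fun w hw hmem => ?_) ⟨t, ht, hs⟩
  refine zeta_pow_sub_one_notMem hv hζ ha (e := (-1) ^ (p - 1) * ε) ?_ hw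
    (w.asIdeal.mul_mem_left _ hmem)
  show algebraMap (𝓞 K) K _ = _
  rw [map_mul, map_pow, map_neg, map_one, show algebraMap (𝓞 K) K ε = (ε : K) from rfl, hε,
    ← mul_assoc, hsq', one_mul]

/-- **The law for `1 - ζ ^ a`**, `p` odd, either sign. -/
theorem exists_supplement_one_sub (hp2 : p ≠ 2) {a : ℕ} (ha : ¬ p ∣ a) {ε α : 𝓞 K}
    (hε : (ε : K) = 1 - ζ ^ a ∨ (ε : K) = ζ ^ a - 1) (hα : α - 1 ∈ v.asIdeal) (hα0 : α ≠ 0) :
    ∃ t : ℤ, ‖(t : C) - (∑ σ : K →+* C, logOne (σ (α : K) - 1) *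
          σ ((a : K) * ζ ^ a / (ζ ^ a - 1))) / (p : C) ^ (n + 1)‖ ≤ ((p : ℝ)⁻¹) ^ (n + 1) ∧
      ((residueProd (p ^ (n + 1)) ε (intU α hα0) : Kˣ) : K) = ζ ^ t := by
  have hodd : Odd p := hp.out.odd_of_ne_two hp2
  have h2 : ζ ^ a - 1 ≠ 0 := sub_ne_zero.2 fun h => ha ((dvd_pow_self p n.succ_ne_zero).trans
    ((hζ.pow_eq_one_iff_dvd a).1 h))
  set c : Kˣ := Units.mk0 _ h2 with hc
  obtain ⟨t, ht, hs⟩ := exists_exponent_signed (C := C) hv hζ ha (intU α hα0) c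
    (valuation_sub_one_lt hv hζ hα) (by
      rw [hc, Units.val_mk0, Even.neg_one_pow (Nat.Odd.sub_odd hodd odd_one), one_mul])
  simp only [intU_val] at ht
  have hε0 : ε ≠ 0 := fun h => by
    rw [h, show ((0 : 𝓞 K) : K) = 0 from rfl] at hε
    rcases hε with h' | h'
    · exact h2 (by linear_combination h')
    · exact h2 h'.symm
  refine exists_residueProd_exponent hv hζ hq hε0 hα0 (fun w hw hmem => ?_) ⟨t, ht, ?_⟩
  · rcases hε with h' | h'
    · exact zeta_pow_sub_one_notMem hv hζ ha (e := -ε) (by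
        show algebraMap (𝓞 K) K (-ε) = _
        rw [map_neg]; show -(ε : K) = _
        rw [h', neg_sub]) hw (w.asIdeal.neg_mem hmem)
    · exact zeta_pow_sub_one_notMem hv hζ ha h' hw hmem
  · rw [← hs]
    rcases hε with h' | h'
    · rw [show intU ε hε0 = (-1) ^ p ^ (n + 1) * c from Units.ext (by
          rw [intU_val, h', Units.val_mul, Units.val_pow_eq_pow_val, Units.val_neg, Units.val_one,
            hodd.pow.neg_one_pow, hc, Units.val_mk0]
          ring),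
        hilbertSymbol_mul_right, hilbertSymbol_pow_right, one_mul]
    · rw [show intU ε hε0 = c from Units.ext (by rw [intU_val, h', hc, Units.val_mk0])]

/-- **The law for the cyclotomic units.** -/
theorem exists_supplement_cyclotomic {a : ℕ} (ha : ¬ p ∣ a) {ε α : 𝓞 K}
    (hε : (ε : K) = (ζ ^ a - 1) / (ζ - 1)) (hα : α - 1 ∈ v.asIdeal) (hα0 : α ≠ 0) :
    ∃ t : ℤ, ‖(t : C) - (∑ σ : K →+* C, logOne (σ (α : K) - 1) *
          σ ((a : K) * ζ ^ a / (ζ ^ a - 1) - ζ / (ζ - 1))) / (p : C) ^ (n + 1)‖ ≤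
        ((p : ℝ)⁻¹) ^ (n + 1) ∧
      ((residueProd (p ^ (n + 1)) ε (intU α hα0) : Kˣ) : K) = ζ ^ t := by
  have h1 : ζ - 1 ≠ 0 := sub_ne_zero.2 (hζ.ne_one (one_lt_pow₀ hp.out.one_lt n.succ_ne_zero))
  have h2 : ζ ^ a - 1 ≠ 0 := sub_ne_zero.2 fun h => ha ((dvd_pow_self p n.succ_ne_zero).trans
    ((hζ.pow_eq_one_iff_dvd a).1 h))
  have hε0 : ε ≠ 0 := fun h => by
    rw [h, show ((0 : 𝓞 K) : K) = 0 from rfl] at hε
    exact div_ne_zero h2 h1 hε.symm
  obtain ⟨t, ht, hs⟩ := exists_exponent_cyclotomic (C := C) hv hζ ha (intU α hα0) (intU ε hε0)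
    (valuation_sub_one_lt hv hζ hα) hε
  simp only [intU_val] at ht
  refine exists_residueProd_exponent hv hζ hq hε0 hα0 (fun w hw hmem => ?_) ⟨t, ht, hs⟩
  refine zeta_pow_sub_one_notMem hv hζ ha (e := ε * (hζ.toInteger - 1)) ?_ hw
    (w.asIdeal.mul_mem_right _ hmem)
  show algebraMap (𝓞 K) K _ = _
  rw [map_mul, map_sub, map_one, show algebraMap (𝓞 K) K ε = (ε : K) from rfl, hε,
    show algebraMap (𝓞 K) K hζ.toInteger = ζ from rfl, div_mul_cancel₀ _ h1]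

omit hv hq in
/-- The exponents prime to `p` below `q` give the primitive roots. -/
theorem prod_zeta_pow_sub_one :
    ∏ a ∈ (range (p ^ (n + 1))).filter (fun a => ¬ p ∣ a), (1 - ζ ^ a) = (p : K) := by
  haveI : NeZero (p ^ (n + 1)) := ⟨pow_ne_zero _ hp.out.ne_zero⟩
  have h : (cyclotomic (p ^ (n + 1)) K).eval 1 = (p : K) := eval_one_cyclotomic_prime_pow n
  rw [cyclotomic_eq_prod_X_sub_primitiveRoots hζ, eval_prod] at h
  refine Eq.trans ?_ h
  have hcop : ∀ a, ¬ p ∣ a ↔ a.Coprime (p ^ (n + 1)) := fun a => by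
    rw [Nat.coprime_pow_right_iff n.succ_pos, Nat.coprime_comm, hp.out.coprime_iff_not_dvd]
  refine Finset.prod_bij (fun a _ => ζ ^ a) (fun a ha => ?_) (fun a ha b hb e => ?_)
    (fun μ hμ => ?_) fun a _ => by simp
  · exact (mem_primitiveRoots (pow_pos hp.out.pos _)).2
      (hζ.pow_of_coprime a ((hcop a).1 (Finset.mem_filter.1 ha).2))
  · exact hζ.pow_inj (Finset.mem_range.1 (Finset.mem_filter.1 ha).1)
      (Finset.mem_range.1 (Finset.mem_filter.1 hb).1) e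
  · have hμ' := (mem_primitiveRoots (pow_pos hp.out.pos _)).1 hμ
    obtain ⟨a, ha, rfl⟩ := hζ.eq_pow_of_pow_eq_one hμ'.pow_eq_one
    exact ⟨a, Finset.mem_filter.2 ⟨Finset.mem_range.2 ha,
      (hcop a).2 ((hζ.pow_iff_coprime (pow_pos hp.out.pos _) a).1 hμ')⟩, rfl⟩

omit hv in
theorem even_card_exponents :
    Even ((range (p ^ (n + 1))).filter (fun a => ¬ p ∣ a)).card := by
  have h : (range (p ^ (n + 1))).filter (fun a => ¬ p ∣ a) =
      (range (p ^ (n + 1))).filter (fun a => (p ^ (n + 1)).Coprime a) :=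
    Finset.filter_congr fun a _ => by
      rw [Nat.coprime_pow_left_iff n.succ_pos, hp.out.coprime_iff_not_dvd]
  rw [h, ← Nat.totient_eq_card_coprime]
  exact Nat.totient_even hq

/-- **The law for `p`.** -/
theorem exists_supplement_prime {α : 𝓞 K} (hα : α - 1 ∈ v.asIdeal) (hα0 : α ≠ 0) :
    ∃ t : ℤ, ‖(t : C) - (∑ σ : K →+* C, logOne (σ (α : K) - 1) *
          σ (∑ a ∈ (range (p ^ (n + 1))).filter (fun a => ¬ p ∣ a),
            (a : K) * ζ ^ a / (ζ ^ a - 1))) / (p : C) ^ (n + 1)‖ ≤ ((p : ℝ)⁻¹) ^ (n + 1) ∧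
      ((residueProd (p ^ (n + 1)) (p : 𝓞 K) (intU α hα0) : Kˣ) : K) = ζ ^ t := by
  have hp0 : (p : 𝓞 K) ≠ 0 := Nat.cast_ne_zero.2 hp.out.ne_zero
  refine exists_residueProd_exponent hv hζ hq hp0 hα0
    (fun w hw hmem => natCast_pow_notMem n hv hw ((natCast_pow_mem_iff w).2 hmem)) ?_
  set x := intU α hα0
  set T := (range (p ^ (n + 1))).filter (fun a => ¬ p ∣ a) with hT
  have hne : ∀ a, ¬ p ∣ a → (-1 : K) ^ (p - 1) * (ζ ^ a - 1) ≠ 0 := fun a ha =>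
    mul_ne_zero (pow_ne_zero _ (neg_ne_zero.2 one_ne_zero)) (sub_ne_zero.2 fun h =>
      ha ((dvd_pow_self p n.succ_ne_zero).trans ((hζ.pow_eq_one_iff_dvd a).1 h)))
  have key : ∀ a ∈ T, ∃ (t : ℤ) (b : Kˣ), (b : K) = (-1) ^ (p - 1) * (ζ ^ a - 1) ∧
      ‖(t : C) + (∑ σ : K →+* C, logOne (σ (α : K) - 1) *
          σ ((a : K) * ζ ^ a / (ζ ^ a - 1))) / (p : C) ^ (n + 1)‖ ≤ ((p : ℝ)⁻¹) ^ (n + 1) ∧
      ((hilbertSymbol (p ^ (n + 1)) v x b : Kˣ) : K) = ζ ^ t := fun a ha => by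
    have ha' := (Finset.mem_filter.1 ha).2
    obtain ⟨t, ht, hs⟩ := exists_exponent_signed (C := C) hv hζ ha' x
      (Units.mk0 _ (hne a ha')) (valuation_sub_one_lt hv hζ hα) (Units.val_mk0 _)
    simp only [x, intU_val] at ht
    exact ⟨t, _, Units.val_mk0 _, ht, hs⟩
  choose! t b hb ht hs using key
  refine ⟨∑ a ∈ T, t a, ?_, ?_⟩
  · have e : (((∑ a ∈ T, t a : ℤ)) : C) + (∑ σ : K →+* C, logOne (σ (α : K) - 1) *
        σ (∑ a ∈ T, (a : K) * ζ ^ a / (ζ ^ a - 1))) / (p : C) ^ (n + 1) =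
        ∑ a ∈ T, ((t a : C) + (∑ σ : K →+* C, logOne (σ (α : K) - 1) *
          σ ((a : K) * ζ ^ a / (ζ ^ a - 1))) / (p : C) ^ (n + 1)) := by
      rw [Finset.sum_add_distrib, Int.cast_sum, ← Finset.sum_div, Finset.sum_comm (s := T)]
      simp only [map_sum, Finset.mul_sum]
    rw [e]
    exact IsUltrametricDist.norm_sum_le_of_forall_le_of_nonneg (by positivity) ht
  · have hprod : intU (p : 𝓞 K) hp0 = ∏ a ∈ T, b a := Units.ext (by
      rw [intU_val, Units.coe_prod, Finset.prod_congr rfl hb, Finset.prod_mul_distrib,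
        Finset.prod_const, ← pow_mul, mul_comm, ← mul_one ((p : 𝓞 K) : K)]
      congr 1
      · rw [show ((p : 𝓞 K) : K) = (p : K) from map_natCast (algebraMap (𝓞 K) K) p,
          ← prod_zeta_pow_sub_one hζ,
          Finset.prod_congr rfl (fun a _ => (show 1 - ζ ^ a = -1 * (ζ ^ a - 1) by ring)),
          Finset.prod_mul_distrib, Finset.prod_const, (even_card_exponents hζ hq).neg_one_pow,
          one_mul]
      · rw [mul_comm (p - 1), pow_mul, (even_card_exponents hζ hq).neg_one_pow, one_pow])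
    rw [hprod, show hilbertSymbol (p ^ (n + 1)) v x (∏ a ∈ T, b a) =
        ∏ a ∈ T, hilbertSymbol (p ^ (n + 1)) v x (b a) from
      map_prod (hilbertHom (p ^ (n + 1)) v x) b T, SubmonoidClass.coe_finsetProd, Units.coe_prod,
      Finset.prod_congr rfl hs]
    have hζ0 : ζ ≠ 0 := hζ.ne_zero (pow_ne_zero _ hp.out.ne_zero)
    clear hprod hs ht hb hT
    induction T using Finset.induction_on with
    | empty => simp
    | insert i s hi ih => rw [Finset.prod_insert hi, Finset.sum_insert hi, zpow_add₀ hζ0, ih]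

end FA.ExplicitLaw
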