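import Fermat.Agent.ExplicitReciprocity.PrimaryLaws
import Fermat.Agent.PowerReciprocity.Symbol

/-!
# The two residue symbols agree

The symbol of an ideal, a product over its prime factors, is the symbol built from the orders of a
generator, so Kummer's law at `p = 3` is the law of cubic reciprocity for these symbols.
-/

set_option autoImplicit false
set_option linter.unusedSectionVars false
set_option linter.style.haveILetI false

noncomputable section

open NumberField IsDedekindDomain UniqueFactorizationMonoid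
open FA.HilbertN FA.ArtinRec FA.PowerReciprocity
open scoped Classical

namespace FA.ExplicitLaw

variable {K : Type*} [Field K] [NumberField K] (m : ℕ) [NeZero m] [HasEnoughRootsOfUnity K m]

theorem symbolPrime_eq_rootInt {w : HeightOneSpectrum (𝓞 K)} (hw : (m : 𝓞 K) ∉ w.asIdeal)
    {x : 𝓞 K} (hx : x ∉ w.asIdeal) :
    symbolPrime m w.asIdeal x = rootInt m (residueSymbol m w x) := by
  haveI := w.isPrime
  have hs := residueSymbol_spec m hw hx
  have h : ∃ c : 𝓞 K, c ^ m = 1 ∧
      x ^ ((Ideal.absNorm w.asIdeal - 1) / m) - c ∈ w.asIdeal :=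
    ⟨_, rootInt_pow_eq_one m _, hs⟩
  rw [symbolPrime, dif_pos h]
  refine FA.GaussValuation.eq_of_mk_eq hw h.choose_spec.1 (rootInt_pow_eq_one m _)
    (Ideal.Quotient.eq.2 ?_)
  have h1 := w.asIdeal.sub_mem hs h.choose_spec.2
  rwa [sub_sub_sub_cancel_left] at h1

/-- **The bridge.** -/
theorem symbol_eq_residueProd {b : 𝓞 K} (hb : b ≠ 0) {x : 𝓞 K}
    (hgood : ∀ w : HeightOneSpectrum (𝓞 K), b ∈ w.asIdeal →
      (m : 𝓞 K) ∉ w.asIdeal ∧ x ∉ w.asIdeal) :
    symbol m (Ideal.span {b}) x = rootInt m (residueProd m x (intU b hb)) := by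
  have hI : Ideal.span {b} ≠ 0 := by simpa using hb
  let φ : rootsOfUnity m K →* 𝓞 K :=
    { toFun := rootInt m
      map_one' := rootInt_one m
      map_mul' := rootInt_mul m }
  set S := ((normalizedFactors (Ideal.span {b})).toFinset).preimage
    (fun w : HeightOneSpectrum (𝓞 K) => w.asIdeal)
    (fun _ _ _ _ e => HeightOneSpectrum.ext e) with hS
  have hmem : ∀ w : HeightOneSpectrum (𝓞 K), w ∈ S ↔ b ∈ w.asIdeal := fun w => by
    rw [hS, Finset.mem_preimage, Multiset.mem_toFinset, Ideal.mem_normalizedFactors_iff hI,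
      Ideal.span_singleton_le_iff_mem]
    exact and_iff_right w.isPrime
  have hsupp : (Function.mulSupport fun w : HeightOneSpectrum (𝓞 K) =>
      if (m : 𝓞 K) ∈ w.asIdeal then 1 else residueSymbol m w x ^ ord w (intU b hb)) ⊆
      (S : Set (HeightOneSpectrum (𝓞 K))) := fun w hw => by
    by_contra h
    refine hw ?_
    simp only [(ord_intU_eq_zero_iff w hb).2 fun h' => h ((hmem w).2 h'), zpow_zero, ite_self]
  rw [residueProd, finprod_eq_prod_of_mulSupport_subset _ hsupp,
    show rootInt m (∏ w ∈ S, _) = φ (∏ w ∈ S, _) from rfl, map_prod, symbol,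
    Finset.prod_multiset_map_count]
  symm
  refine Finset.prod_bij (fun w _ => w.asIdeal) (fun w hw => by
      rwa [hS, Finset.mem_preimage] at hw) (fun _ _ _ _ e => HeightOneSpectrum.ext e)
    (fun P hP => ?_) fun w hw => ?_
  · have hP' := Multiset.mem_toFinset.1 hP
    exact ⟨⟨P, ((Ideal.mem_normalizedFactors_iff hI).1 hP').1,
      (prime_of_normalized_factor P hP').ne_zero⟩, by rw [hS, Finset.mem_preimage]; exact hP, rfl⟩
  · obtain ⟨hm, hx⟩ := hgood w ((hmem w).1 hw)
    have hcount : ord w (intU b hb) =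
        ((normalizedFactors (Ideal.span {b})).count w.asIdeal : ℤ) := by
      rw [ord_intU, multiplicity_eq_count_normalizedFactors w.irreducible hI, normalize_eq]
    rw [if_neg hm, hcount, zpow_natCast, map_pow, symbolPrime_eq_rootInt m hm hx]
    rfl

variable {p : ℕ} [hp : Fact p.Prime] {L : Type*} [Field L] [NumberField L]
  [hcyc : IsCyclotomicExtension {p ^ (0 + 1)} ℚ L] [HasEnoughRootsOfUnity L (p ^ (0 + 1))]
  {v : HeightOneSpectrum (𝓞 L)} (hv : (p : 𝓞 L) ∈ v.asIdeal) {ζ : L}
  (hζ : IsPrimitiveRoot ζ (p ^ (0 + 1)))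
include hv hcyc hζ

/-- **Cubic reciprocity** for the symbols of ideals, from the explicit law. -/
theorem symbol_symm_cubic (h3 : p = 3) {α β : 𝓞 L} (hα : SemiPrimaryAt v α)
    (hβ : SemiPrimaryAt v β) (hco : IsCoprime (Ideal.span {α}) (Ideal.span {β})) :
    symbol p (Ideal.span {β}) α = symbol p (Ideal.span {α}) β := by
  have hne : ∀ {x : 𝓞 L}, SemiPrimaryAt v x → x ≠ 0 := fun hx h =>
    hx.1 (h ▸ v.asIdeal.zero_mem)
  have hgood : ∀ {x y : 𝓞 L}, SemiPrimaryAt v y → IsCoprime (Ideal.span {x}) (Ideal.span {y}) →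
      ∀ w : HeightOneSpectrum (𝓞 L), y ∈ w.asIdeal →
        ((p ^ (0 + 1) : ℕ) : 𝓞 L) ∉ w.asIdeal ∧ x ∉ w.asIdeal := fun {x y} hy hxy w hw =>
    ⟨natCast_pow_notMem 0 hv fun e => hy.1 (e ▸ hw), fun hx => w.isPrime.ne_top (top_le_iff.1 (by
      rw [← Ideal.isCoprime_iff_sup_eq.1 hxy]
      exact sup_le ((Ideal.span_singleton_le_iff_mem _).2 hx)
        ((Ideal.span_singleton_le_iff_mem _).2 hw)))⟩
  have h1 := symbol_eq_residueProd (p ^ (0 + 1)) (hne hβ) (hgood hβ hco)
  have h2 := symbol_eq_residueProd (p ^ (0 + 1)) (hne hα) (hgood hα hco.symm)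
  rw [residueProd_symm_cubic hv hζ (by omega) h3 (hne hα) (hne hβ) hα hβ
    fun w _ => or_iff_not_imp_left.2 fun hw => ((hgood hα hco.symm w (not_not.1 hw)).2)] at h1
  have hpp : p ^ (0 + 1) = p := by rw [zero_add, pow_one]
  calc symbol p (Ideal.span {β}) α = symbol (p ^ (0 + 1)) (Ideal.span {β}) α := by rw [hpp]
    _ = symbol (p ^ (0 + 1)) (Ideal.span {α}) β := h1.trans h2.symm
    _ = symbol p (Ideal.span {α}) β := by rw [hpp]

end FA.ExplicitLaw
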