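import Fermat.Agent.ExplicitReciprocity.Pairing
import Fermat.Agent.ExplicitReciprocity.RatSymbol
import Fermat.Agent.ExplicitReciprocity.CycloNorm
import Fermat.Agent.LocalCFT.Functorial

/-!
# The Hilbert symbol with a root of unity

In the field of the roots of unity of order `p ^ m`, at the prime above `p`, the symbol with a
primitive root `ζ` is read off the norm to `ℚ`: `(a, ζ) = ζ ^ t` whenever
`N a * (1 + p ^ m t) ≡ 1` modulo `p ^ (2 m)`. To first order this is the trace.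
-/

set_option autoImplicit false
set_option linter.unusedSectionVars false
set_option linter.style.haveILetI false

noncomputable section

open NumberField IsDedekindDomain Polynomial WithZero IsMulCommutative
open FA.ArtinRec FA.NormResidue FA.HilbertN FA.LocalCFT
open FA.HasseCyclic (nearOne mem_nearOne)
open scoped Classical

namespace FA.ExplicitLaw

/-! ### Rational numbers -/

section rat

variable {p : ℕ} [hp : Fact p.Prime] {M : ℕ} {L : Type*} [Field L] [NumberField L]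
  [IsCyclotomicExtension {p ^ M} ℚ L] [IsGalois ℚ L] [IsMulCommutative (L ≃ₐ[ℚ] L)]

/-- An integer prime to `p` as a rational unit. -/
def intUnit {N : ℤ} (hN : ¬ (p : ℤ) ∣ N) : ℚˣ :=
  Units.mk0 (N : ℚ) (Int.cast_ne_zero.2 fun h => hN (h ▸ dvd_zero _))

/-- At `p` the symbol of an integer `N` prime to `p` raises roots of unity to `N⁻¹`. -/
theorem normSymbol_intUnit {v : HeightOneSpectrum (𝓞 ℚ)} (hv : (p : 𝓞 ℚ) ∈ v.asIdeal) {N : ℤ}
    (hN : ¬ (p : ℤ) ∣ N) {z : L} (hz : z ^ p ^ M = 1) :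
    normSymbol L v (intUnit hN) z ^ N = z := by
  set k := nrLevel ℚ L + 1 + M
  have hP : (0 : ℤ) < (p : ℤ) ^ k := pow_pos (mod_cast hp.out.pos) k
  obtain ⟨a, ha⟩ : ∃ a : ℕ, (a : ℤ) = N % (p : ℤ) ^ k :=
    ⟨_, Int.toNat_of_nonneg (Int.emod_nonneg _ hP.ne')⟩
  have hsub : (p : ℤ) ^ k ∣ N - a := ha ▸ Int.dvd_self_sub_emod
  have hpa : ¬ p ∣ a := fun h => hN (by
    have h1 : (p : ℤ) ∣ N - a := (dvd_pow_self _ (by omega)).trans hsub
    simpa using dvd_add h1 (Int.natCast_dvd_natCast.2 h))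
  have hva : v.valuation ℚ (a : ℚ) = 1 := by
    rw [← map_natCast (algebraMap (𝓞 ℚ) ℚ) a, HeightOneSpectrum.valuation_of_algebraMap,
      HeightOneSpectrum.intValuation_eq_one_iff_mem_primeCompl]
    intro h
    rw [asIdeal_eq_span_rat hp.out hv] at h
    have h2 := map_dvd Rat.ringOfIntegersEquiv (Ideal.mem_span_singleton.1 h)
    rw [map_natCast, map_natCast, Int.natCast_dvd_natCast] at h2
    exact hpa h2
  have hnear : intUnit hN / natUnit hpa ∈ nearOne v (nrLevel ℚ L) := by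
    obtain ⟨c, hc⟩ := hsub
    have ha0 : (a : ℚ) ≠ 0 := Nat.cast_ne_zero.2 fun h => hpa (h ▸ dvd_zero p)
    rw [mem_nearOne, Units.val_div_eq_div_val, intUnit, natUnit, Units.val_mk0, Units.val_mk0,
      div_sub_one ha0, map_div₀, hva, div_one,
      show (N : ℚ) - (a : ℚ) = ((p : ℚ) ^ k) * ((c : ℤ) : ℚ) by exact_mod_cast hc,
      map_mul, map_pow]
    refine (mul_le_of_le_one_right zero_le (valuation_intCast_le c)).trans ?_
    exact (valuation_pow_le_exp hv k).trans (exp_le_exp.2 (by omega))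
  have heq : normSymbol L v (intUnit hN) = normSymbol L v (natUnit hpa) := by
    rw [← div_eq_one, ← _root_.map_div]
    exact (nearOne_le_ker_normSymbol (L := L) v hnear)
  have hz0 : z ≠ 0 := fun h => by
    rw [h, zero_pow (pow_ne_zero _ hp.out.ne_zero)] at hz
    exact zero_ne_one hz
  obtain ⟨c, hc⟩ : (p : ℤ) ^ M ∣ N - a := (pow_dvd_pow _ (by omega)).trans hsub
  rw [heq, show N = (a : ℤ) + (p : ℤ) ^ M * c by linarith, zpow_add₀ ((_root_.map_ne_zero _).2 hz0),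
    zpow_natCast, normSymbol_natUnit hv hpa hz, zpow_mul]
  norm_cast
  rw [← map_pow, hz, map_one, one_zpow, mul_one]

/-- The symbol of a fraction. -/
theorem normSymbol_eq_zpow {v : HeightOneSpectrum (𝓞 ℚ)} (hv : (p : 𝓞 ℚ) ∈ v.asIdeal) {r : ℚˣ}
    {N D u : ℤ} (hN : ¬ (p : ℤ) ∣ N) (hD : ¬ (p : ℤ) ∣ D) (hr : (r : ℚ) * D = N)
    (hu : (p : ℤ) ^ M ∣ N * u - D) {z : L} (hz : z ^ p ^ M = 1) :
    normSymbol L v r z = z ^ u := by
  have hrD : r * intUnit hD = intUnit hN := Units.ext hr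
  set s := normSymbol L v r z with hs
  have hz0 : z ≠ 0 := fun h => by
    rw [h, zero_pow (pow_ne_zero _ hp.out.ne_zero)] at hz
    exact zero_ne_one hz
  have h1 : normSymbol L v (intUnit hD) s = normSymbol L v (intUnit hN) z := by
    rw [← hrD, mul_comm r, map_mul, AlgEquiv.mul_apply]
  have h2 : s ^ N = z ^ D := by
    refine (normSymbol L v (intUnit hD)).injective ?_
    rw [map_zpow₀, h1, map_zpow₀, normSymbol_intUnit hv hN hz, normSymbol_intUnit hv hD hz]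
  obtain ⟨c, hc⟩ := hu
  have hz' : z ^ ((p : ℤ) ^ M) = 1 := by exact_mod_cast hz
  have h3 : (s / z ^ u) ^ N = 1 := by
    rw [div_zpow, h2, ← zpow_mul, mul_comm u, show N * u = D + (p : ℤ) ^ M * c by linarith,
      zpow_add₀ hz0, zpow_mul, hz', one_zpow, mul_one, div_self (zpow_ne_zero _ hz0)]
  have h4 : (s / z ^ u) ^ p ^ M = 1 := by
    rw [div_pow, hs, ← map_pow, hz, map_one, ← zpow_natCast, ← zpow_mul, mul_comm, zpow_mul,
      Nat.cast_pow, hz', one_zpow, div_one]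
  have h5 : (s / z ^ u) ^ N.natAbs = 1 := by
    rcases Int.natAbs_eq N with h | h <;> rw [h] at h3
    · rwa [zpow_natCast] at h3
    · rwa [zpow_neg, zpow_natCast, inv_eq_one] at h3
  have hcop : (p ^ M).gcd N.natAbs = 1 :=
    Nat.Coprime.pow_left _ (hp.out.coprime_iff_not_dvd.2 fun h => hN (Int.natCast_dvd.2 h))
  have h6 := pow_gcd_eq_one.2 ⟨h4, h5⟩
  rw [hcop, pow_one] at h6
  exact (div_eq_one_iff_eq (zpow_ne_zero _ hz0)).1 h6

end rat

/-! ### The field of the roots of unity -/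

variable {p : ℕ} [hp : Fact p.Prime] {n : ℕ} {K : Type*} [Field K] [NumberField K]
  [hcyc : IsCyclotomicExtension {p ^ (n + 1)} ℚ K] {v : HeightOneSpectrum (𝓞 K)}
  (hv : (p : 𝓞 K) ∈ v.asIdeal)
include hv hcyc

variable (n) in
/-- There is only one prime above `p`. -/
theorem eq_of_natCast_mem_cyclo {w : HeightOneSpectrum (𝓞 K)} (hw : (p : 𝓞 K) ∈ w.asIdeal) :
    w = v := by
  haveI : NeZero (p ^ (n + 1)) := ⟨pow_ne_zero _ hp.out.ne_zero⟩
  haveI hmax : (Ideal.span {(p : ℤ)}).IsMaximal :=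
    PrincipalIdealRing.isMaximal_of_irreducible (Nat.prime_iff_prime_int.1 hp.out).irreducible
  have hover : ∀ P : HeightOneSpectrum (𝓞 K), (p : 𝓞 K) ∈ P.asIdeal →
      P.asIdeal = Ideal.span {(IsCyclotomicExtension.zeta_spec (p ^ (n + 1)) ℚ K).toInteger - 1} :=
    fun P hP => by
    haveI := P.isPrime
    haveI : P.asIdeal.LiesOver (Ideal.span {(p : ℤ)}) := ⟨hmax.eq_of_le
      (Ideal.IsPrime.under ℤ P.asIdeal).ne_top ((Ideal.span_singleton_le_iff_mem _).2 (by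
        rw [Ideal.mem_comap, map_natCast]; exact hP))⟩
    exact IsCyclotomicExtension.Rat.eq_span_zeta_sub_one_of_liesOver p n K _ P.asIdeal
  exact HeightOneSpectrum.ext ((hover w hw).trans (hover v hv).symm)

variable (n) in
/-- An element divisible by `p ^ A` at `v` is `p ^ A` times an integer over an integer prime to
`p`. -/
theorem exists_intCast_mul_eq {A : ℕ} {x : K} (hx : Deep v p A x) :
    ∃ (c : 𝓞 K) (d : ℤ), ¬ (p : ℤ) ∣ d ∧ (d : K) * x = (p : K) ^ A * (c : K) := by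
  have hp0 : (p : K) ≠ 0 := Nat.cast_ne_zero.2 hp.out.ne_zero
  set y := x / (p : K) ^ A with hy
  have hyv : v.valuation K y ≤ 1 := by
    rw [hy, map_div₀, map_pow]
    exact (div_le_one₀ (zero_lt_iff.2 (pow_ne_zero _ (by simpa using hp0)))).2 hx
  obtain ⟨D, hD0, hDint⟩ : ∃ D : ℤ, D ≠ 0 ∧ IsIntegral ℤ ((D : K) * y) := by
    obtain ⟨D, hD, hint⟩ := ((IsFractionRing.isAlgebraic_iff ℤ ℚ K).2
      (Algebra.IsAlgebraic.isAlgebraic y)).exists_integral_multiple
    exact ⟨D, hD, by rwa [zsmul_eq_mul] at hint⟩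
  obtain ⟨j, d, hd, rfl⟩ := WfDvdMonoid.max_power_factor hD0
    (Nat.prime_iff_prime_int.1 hp.out).irreducible
  have hint : ∀ w : HeightOneSpectrum (𝓞 K), w.valuation K ((d : K) * y) ≤ 1 := by
    intro w
    by_cases hw : (p : 𝓞 K) ∈ w.asIdeal
    · rw [eq_of_natCast_mem_cyclo n hv hw, map_mul]
      exact mul_le_one' (valuation_intCast_le d) hyv
    · have h1 : w.valuation K (p : K) = 1 := by
        rw [← map_natCast (algebraMap (𝓞 K) K) p, HeightOneSpectrum.valuation_of_algebraMap,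
          HeightOneSpectrum.intValuation_eq_one_iff_mem_primeCompl]
        exact hw
      have h2 : w.valuation K ((((p : ℤ) ^ j * d : ℤ) : K) * y) ≤ 1 := by
        obtain ⟨c, hc⟩ : ∃ c : 𝓞 K, (c : K) = ((((p : ℤ) ^ j * d : ℤ) : K) * y) :=
          ⟨⟨_, hDint⟩, rfl⟩
        rw [← hc]
        exact w.valuation_le_one c
      push_cast at h2
      rwa [mul_assoc, map_mul, map_pow, h1, one_pow, one_mul] at h2
  obtain ⟨c, hc⟩ := HeightOneSpectrum.mem_integers_of_valuation_le_one K _ hint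
  refine ⟨c, d, hd, ?_⟩
  rw [show (c : K) = algebraMap (𝓞 K) K c from rfl, hc, hy]
  field_simp

variable [HasEnoughRootsOfUnity K (p ^ (n + 1))] {ζ : K} (hζ : IsPrimitiveRoot ζ (p ^ (n + 1)))
include hζ

omit hv in
/-- `ζ` in the group of the roots of unity. -/
theorem exists_zetaRoot : ∃ ξ : rootsOfUnity (p ^ (n + 1)) K, ((ξ : Kˣ) : K) = ζ :=
  haveI : NeZero (p ^ (n + 1)) := ⟨pow_ne_zero _ hp.out.ne_zero⟩
  ⟨rootsOfUnity.mkOfPowEq ζ hζ.pow_eq_one, rootsOfUnity.val_mkOfPowEq_coe _ _⟩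

/-- **The symbol with `ζ` from the norm.** -/
theorem pairing_zeta_of_norm {a : K} {N D t : ℤ} (hN : ¬ (p : ℤ) ∣ N) (hD : ¬ (p : ℤ) ∣ D)
    (hna : Algebra.norm ℚ a * D = N)
    (ht : (p : ℤ) ^ (2 * (n + 1)) ∣ N * (1 + (p : ℤ) ^ (n + 1) * t) - D) :
    ((pairing v p (n + 1) a ζ : Kˣ) : K) = ζ ^ t := by
  haveI : NeZero (p ^ (n + 1)) := ⟨pow_ne_zero _ hp.out.ne_zero⟩
  haveI : NeZero (p ^ (2 * (n + 1))) := ⟨pow_ne_zero _ hp.out.ne_zero⟩
  set L := CyclotomicField (p ^ (2 * (n + 1))) ℚ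
  haveI : IsCyclotomicExtension {p ^ (2 * (n + 1))} ℚ L := CyclotomicField.isCyclotomicExtension _ ℚ
  haveI : NumberField L := IsCyclotomicExtension.numberField {p ^ (2 * (n + 1))} ℚ L
  haveI : IsGalois ℚ L := IsCyclotomicExtension.isGalois {p ^ (2 * (n + 1))} ℚ L
  haveI hab : IsMulCommutative (L ≃ₐ[ℚ] L) :=
    IsCyclotomicExtension.isMulCommutative {p ^ (2 * (n + 1))} ℚ L
  set ξ := IsCyclotomicExtension.zeta (p ^ (2 * (n + 1))) ℚ L with hξdef
  have hξ : IsPrimitiveRoot ξ (p ^ (2 * (n + 1))) := IsCyclotomicExtension.zeta_spec _ ℚ L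
  have hy : IsPrimitiveRoot (ξ ^ p ^ (n + 1)) (p ^ (n + 1)) :=
    hξ.pow (pow_pos hp.out.pos _) (by rw [← pow_add]; congr 1; omega)
  have haev : aeval (ξ ^ p ^ (n + 1)) (minpoly ℚ (hζ.powerBasis ℚ).gen) = 0 := by
    rw [IsPrimitiveRoot.powerBasis_gen, ← hζ.minpoly_eq_cyclotomic_of_irreducible
      (cyclotomic.irreducible_rat (pow_pos hp.out.pos _)), aeval_def, eval₂_eq_eval_map,
      map_cyclotomic]
    exact hy.isRoot_cyclotomic (pow_pos hp.out.pos _)
  let f : K →ₐ[ℚ] L := (hζ.powerBasis ℚ).lift _ haev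
  let := f.toRingHom.toAlgebra
  haveI : IsScalarTower ℚ K L := IsScalarTower.of_algebraMap_eq fun x => (f.commutes x).symm
  haveI : IsGalois K L := IsGalois.tower_top_of_isGalois ℚ K L
  haveI : IsMulCommutative (L ≃ₐ[K] L) := ⟨⟨fun g h => AlgEquiv.ext fun x => by
    have h1 := AlgEquiv.congr_fun (hab.is_comm.comm (g.restrictScalars ℚ) (h.restrictScalars ℚ)) x
    exact h1⟩⟩
  have hfζ : algebraMap K L ζ = ξ ^ p ^ (n + 1) := by
    show f ζ = _
    conv_lhs => rw [← hζ.powerBasis_gen ℚ]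
    exact PowerBasis.lift_gen _ _ _
  have hN0 : (N : ℚ) ≠ 0 := Int.cast_ne_zero.2 fun h => hN (h ▸ dvd_zero _)
  have ha : a ≠ 0 := by
    rintro rfl
    rw [Algebra.norm_zero, zero_mul] at hna
    exact hN0 hna.symm
  have hζ0 : ζ ≠ 0 := hζ.ne_zero (pow_ne_zero _ hp.out.ne_zero)
  have hβ : ξ ^ p ^ (n + 1) = algebraMap K L (Units.mk0 ζ hζ0 : Kˣ) := hfζ.symm
  have hu : (normU' (K := ℚ) (Units.mk0 a ha) : ℚ) * D = N := by
    rw [show (normU' (K := ℚ) (Units.mk0 a ha) : ℚ) = Algebra.norm ℚ a from rfl, hna]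
  have hbelow : (p : 𝓞 ℚ) ∈ (belowP ℚ v).asIdeal := by
    show (p : 𝓞 ℚ) ∈ v.asIdeal.under (𝓞 ℚ)
    rw [Ideal.under_def, Ideal.mem_comap, map_natCast]
    exact hv
  have hσ : normSymbol L v (Units.mk0 a ha) ξ =
      ξ ^ (1 + (p : ℤ) ^ (n + 1) * t) := by
    have h := restrictBelow_normSymbol (K := ℚ) (L := L) (N := L) v (fun P hP =>
      eq_of_natCast_mem_cyclo n hv (by
        have h1 : (p : 𝓞 ℚ) ∈ P.asIdeal.under (𝓞 ℚ) :=
          (show P.asIdeal.under (𝓞 ℚ) = (belowP ℚ v).asIdeal from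
            congrArg HeightOneSpectrum.asIdeal hP) ▸ hbelow
        rw [Ideal.under_def, Ideal.mem_comap, map_natCast] at h1
        exact h1)) (Units.mk0 a ha)
    have h2 := restrictBelow_apply (K := ℚ) (M := K) (L := L) (N := L)
      (normSymbol L v (Units.mk0 a ha)) ξ
    rw [h, Algebra.algebraMap_self, RingHom.id_apply, RingHom.id_apply] at h2
    rw [← h2]
    exact normSymbol_eq_zpow hbelow hN hD hu ht hξ.pow_eq_one
  obtain ⟨ζr, hζr⟩ := exists_zetaRoot hζ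
  have hkum : kummerChar (p ^ (n + 1)) hβ (normSymbol L v (Units.mk0 a ha)) = ζr ^ t := by
    refine kummerChar_eq _ hβ ?_
    rw [hσ, SubgroupClass.coe_zpow, Units.val_zpow_eq_zpow_val, hζr, map_zpow₀, hfζ,
      zpow_add₀ (hξ.ne_zero (pow_ne_zero _ hp.out.ne_zero)), zpow_one, mul_comm,
      ← Nat.cast_pow, zpow_mul, zpow_natCast]
  rw [pairing_eq p (n + 1) ha hζ0, hilbertSymbol_eq (p ^ (n + 1)) hβ, hkum,
    SubgroupClass.coe_zpow, Units.val_zpow_eq_zpow_val, hζr]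

variable {k : ℕ} (hk : n + 3 ≤ 2 * k)
include hk

/-- The symbol of `1 + p ^ k g(ζ)` with `ζ`. -/
theorem exists_trace_and_pairing (g : ℤ[X]) : ∃ t : ℤ,
    Algebra.trace ℚ K ((p : K) ^ k * aeval ζ g) = -((p : ℚ) ^ (n + 1) * t) ∧
      ((pairing v p (n + 1) (1 + (p : K) ^ k * aeval ζ g) ζ : Kˣ) : K) = ζ ^ t := by
  have hζd : Deep v p 0 ζ := by
    have h : ((hζ.toInteger : 𝓞 K) : K) = ζ := rfl
    rw [deep_zero_iff, ← h]
    exact v.valuation_le_one _
  have hdeep : ∀ g : ℤ[X], Deep v p k ((p : K) ^ k * aeval ζ g) := fun g =>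
    (deep_natCast_pow k).mul_right (deep_aeval hζd g)
  induction g using Polynomial.induction_on' with
  | add f g hf hg =>
    obtain ⟨t, ht, ht'⟩ := hf
    obtain ⟨s, hs, hs'⟩ := hg
    refine ⟨t + s, by rw [map_add, mul_add, map_add, ht, hs]; push_cast; ring, ?_⟩
    rw [map_add, mul_add, pairing_one_add_add hv (by omega : n + 1 + 2 ≤ 2 * k) (hdeep f)
      (hdeep g), Subgroup.coe_mul, Units.val_mul, ht', hs',
      zpow_add₀ (hζ.ne_zero (pow_ne_zero _ hp.out.ne_zero))]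
  | monomial i c =>
    obtain ⟨T, r, hT, hr⟩ := exists_norm_one_add_pow_zeta p hζ hk i
    obtain ⟨s, rfl⟩ : ∃ s, k = s + 1 := ⟨k - 1, by omega⟩
    set N : ℤ := 1 + (p : ℤ) ^ (s + 1) * ((p : ℤ) ^ n * T) + (p : ℤ) ^ (2 * (n + 1)) * r with hN
    have hpN : ¬ (p : ℤ) ∣ N := fun h => by
      have h1 : (p : ℤ) ∣ (p : ℤ) ^ (s + 1) * ((p : ℤ) ^ n * T) :=
        dvd_mul_of_dvd_left (dvd_pow_self _ (by omega)) _
      have h2 : (p : ℤ) ∣ (p : ℤ) ^ (2 * (n + 1)) * r :=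
        dvd_mul_of_dvd_left (dvd_pow_self _ (by omega)) _
      have h3 := dvd_sub (dvd_sub h h2) h1
      rw [hN, add_sub_cancel_right, add_sub_cancel_right] at h3
      exact hp.out.ne_one (Nat.dvd_one.1 (Int.natCast_dvd_natCast.1 (by exact_mod_cast h3)))
    have hmon : (pairing v p (n + 1) (1 + (p : K) ^ (s + 1) * ζ ^ i) ζ : Kˣ) =
        (ζ ^ (-((p : ℤ) ^ s * T))) := by
      refine pairing_zeta_of_norm hv hζ (N := N) (D := 1) hpN
        (fun h => hp.out.ne_one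
          (Nat.dvd_one.1 (Int.natCast_dvd_natCast.1 (by exact_mod_cast h)))) ?_ ?_
      · rw [hr, hN]; push_cast; ring
      · obtain ⟨e, he⟩ : ∃ e, 2 * (s + n + 1) = 2 * (n + 1) + e :=
          ⟨2 * (s + n + 1) - 2 * (n + 1), by omega⟩
        have he' : (p : ℤ) ^ (2 * (n + 1)) * (p : ℤ) ^ e = ((p : ℤ) ^ (s + n + 1)) ^ 2 := by
          rw [← pow_add, ← he, ← pow_mul, mul_comm]
        refine ⟨r * (1 - (p : ℤ) ^ (s + n + 1) * T) - (p : ℤ) ^ e * T ^ 2, ?_⟩
        rw [hN]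
        linear_combination T ^ 2 * he'
    refine ⟨c * -((p : ℤ) ^ s * T), ?_, ?_⟩
    · rw [aeval_monomial, algebraMap_int_eq, eq_intCast,
        show (p : K) ^ (s + 1) * ((c : K) * ζ ^ i) = ((p ^ (s + 1) * c : ℚ)) • ζ ^ i by
          rw [Algebra.smul_def, map_mul, map_pow, map_natCast, map_intCast]; ring,
        map_smul, hT, smul_eq_mul]
      push_cast
      ring
    · have hpd : Deep v p (s + 1) ((p : K) ^ (s + 1) * ζ ^ i) :=
        (deep_natCast_pow _).mul_right (deep_pow hζd i)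
      rw [aeval_monomial, algebraMap_int_eq, eq_intCast,
        show (p : K) ^ (s + 1) * ((c : K) * ζ ^ i) = (c : K) * ((p : K) ^ (s + 1) * ζ ^ i) by ring,
        pairing_one_add_intCast_mul hv (by omega) hpd, SubgroupClass.coe_zpow,
        Units.val_zpow_eq_zpow_val, hmon, ← zpow_mul, mul_comm]

end FA.ExplicitLaw
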