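import Fermat.Agent.HilbertN.Reciprocity
import Fermat.Agent.ExplicitReciprocity.ZetaSymbol
import Fermat.Agent.ArtinReciprocity.RayNorm

/-!
# The wild place of a cyclotomic field of prime power order

In `K = ℚ (ζ)`, `ζ` of order `q = p ^ (n + 1) > 2`, only the prime above `p` divides `q` and there
is no real place, so the product of the wild symbols is the symbol at this prime. Norms are positive
and the norm of an element prime to `p` is congruent to one modulo `q`.
-/

set_option autoImplicit false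
set_option linter.unusedSectionVars false
set_option linter.style.haveILetI false

noncomputable section

open NumberField IsDedekindDomain Polynomial
open FA.HilbertN FA.ArtinRec
open scoped Classical

namespace FA.ExplicitLaw

variable {p : ℕ} [hp : Fact p.Prime] {n : ℕ} {K : Type*} [Field K] [NumberField K]
  [hcyc : IsCyclotomicExtension {p ^ (n + 1)} ℚ K] [HasEnoughRootsOfUnity K (p ^ (n + 1))]

omit hcyc [HasEnoughRootsOfUnity K (p ^ (n + 1))] in
theorem natCast_pow_mem_iff (w : HeightOneSpectrum (𝓞 K)) :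
    ((p ^ (n + 1) : ℕ) : 𝓞 K) ∈ w.asIdeal ↔ (p : 𝓞 K) ∈ w.asIdeal := by
  rw [Nat.cast_pow]
  exact ⟨w.isPrime.mem_of_pow_mem _, fun h => w.asIdeal.pow_mem_of_mem h _ n.succ_pos⟩

omit hcyc in
/-- No real place. -/
theorem not_exists_realEmbedding (hq : 2 < p ^ (n + 1)) (ψ : K →+* ℝ) : False := by
  obtain ⟨ζ, hζ⟩ := HasEnoughRootsOfUnity.exists_primitiveRoot K (p ^ (n + 1))
  have h := hζ.map_of_injective ψ.injective
  have h1 : (ψ ζ ^ 2) ^ p ^ (n + 1) = 1 := by
    rw [← pow_mul, mul_comm, pow_mul, h.pow_eq_one, one_pow]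
  have h2 := (pow_eq_one_iff_of_nonneg (sq_nonneg _) (by omega)).1 h1
  exact absurd (Nat.le_of_dvd two_pos (h.dvd_of_pow_eq_one 2 h2)) (by omega)

omit hcyc in
/-- Norms are positive. -/
theorem norm_int_pos (hq : 2 < p ^ (n + 1)) {α : 𝓞 K} (hα : α ≠ 0) : 0 < Algebra.norm ℤ α := by
  have h := norm_pos_of_totallyPositive (K := ℚ) (E := K)
    (RingOfIntegers.coe_ne_zero_iff.2 hα) (fun ψ => (not_exists_realEmbedding hq ψ).elim)
    (Rat.castHom ℝ)
  rw [Rat.coe_castHom, Rat.cast_pos, ← Algebra.coe_norm_int, Int.cast_pos] at h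
  exact h

variable {v : HeightOneSpectrum (𝓞 K)} (hv : (p : 𝓞 K) ∈ v.asIdeal)
include hv hcyc

variable (n) in
theorem natCast_pow_notMem {w : HeightOneSpectrum (𝓞 K)} (hw : w ≠ v) :
    ((p ^ (n + 1) : ℕ) : 𝓞 K) ∉ w.asIdeal := fun h =>
  hw (eq_of_natCast_mem_cyclo n hv ((natCast_pow_mem_iff w).1 h))

variable (n) in
/-- The absolute norm of an ideal prime to `v`. -/
theorem absNorm_modEq_one (I : Ideal (𝓞 K)) (h : ¬ I ≤ v.asIdeal) :
    Ideal.absNorm I ≡ 1 [MOD p ^ (n + 1)] := by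
  induction I using UniqueFactorizationMonoid.induction_on_prime with
  | h₁ => exact absurd bot_le h
  | h₂ I hI => rw [Ideal.isUnit_iff.1 hI, Ideal.absNorm_top]
  | h₃ J P hJ hP ih =>
    haveI : NeZero (p ^ (n + 1)) := ⟨pow_ne_zero _ hp.out.ne_zero⟩
    have hP0 : P ≠ ⊥ := hP.ne_zero
    let w : HeightOneSpectrum (𝓞 K) := ⟨P, Ideal.isPrime_of_prime hP, hP0⟩
    have hw : w ≠ v := fun e => h (Ideal.mul_le_left.trans (le_of_eq (by rw [← e])))
    have hJv : ¬ J ≤ v.asIdeal := fun e => h (Ideal.mul_le_right.trans e)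
    have h1 := dvd_absNorm_sub_one (p ^ (n + 1)) (natCast_pow_notMem n hv hw)
    rw [map_mul]
    refine (((Nat.modEq_iff_dvd' (one_lt_absNorm w).le).2 h1).symm.mul (ih hJv)).trans ?_
    rw [one_mul]

/-- **The norm of an element prime to `p`.** -/
theorem dvd_norm_sub_one (hq : 2 < p ^ (n + 1)) {α : 𝓞 K} (hα : α ∉ v.asIdeal) :
    ((p ^ (n + 1) : ℕ) : ℤ) ∣ Algebra.norm ℤ α - 1 := by
  have hα0 : α ≠ 0 := fun h => hα (h ▸ v.asIdeal.zero_mem)
  have h := absNorm_modEq_one n hv (Ideal.span {α}) fun e =>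
    hα (e (Ideal.mem_span_singleton_self α))
  rw [Ideal.absNorm_span_singleton] at h
  have h1 := Nat.modEq_iff_dvd.1 h.symm
  rwa [Int.natAbs_of_nonneg (norm_int_pos hq hα0).le, Nat.cast_one] at h1

/-- **The wild part is the symbol at `v`.** -/
theorem wildPart_eq_hilbertSymbol (hq : 2 < p ^ (n + 1)) (a b : Kˣ) :
    wildPart (p ^ (n + 1)) a b = hilbertSymbol (p ^ (n + 1)) v a b := by
  rw [wildPart_of_two_lt _ hq,
    finprod_eq_single _ v fun w hw => if_neg (natCast_pow_notMem n hv hw),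
    if_pos ((natCast_pow_mem_iff v).2 hv)]

/-- **The supplementary law in terms of the symbol at `v`.** -/
theorem residueProd_eq_symbol (hq : 2 < p ^ (n + 1)) {ε α : 𝓞 K} (hε : ε ≠ 0) (hα : α ≠ 0)
    (h : ∀ w : HeightOneSpectrum (𝓞 K), w ≠ v → ε ∉ w.asIdeal) :
    residueProd (p ^ (n + 1)) ε (intU α hα) =
      (hilbertSymbol (p ^ (n + 1)) v (intU α hα) (intU ε hε))⁻¹ := by
  rw [residueProd_supplement _ hε hα fun w hw => h w fun e => hw (e ▸ (natCast_pow_mem_iff v).2 hv),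
    wildPart_eq_hilbertSymbol hv hq, hilbertSymbol_symm]

/-- **The reciprocity law in terms of the symbol at `v`.** -/
theorem residueProd_reciprocity_cyclo (hq : 2 < p ^ (n + 1)) {α β : 𝓞 K} (hα : α ≠ 0)
    (hβ : β ≠ 0)
    (hco : ∀ w : HeightOneSpectrum (𝓞 K), w ≠ v → α ∉ w.asIdeal ∨ β ∉ w.asIdeal) :
    residueProd (p ^ (n + 1)) α (intU β hβ) * (residueProd (p ^ (n + 1)) β (intU α hα))⁻¹ =
      hilbertSymbol (p ^ (n + 1)) v (intU α hα) (intU β hβ) := by
  rw [residueProd_reciprocity _ hα hβ fun w hw =>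
      hco w fun e => hw (e ▸ (natCast_pow_mem_iff v).2 hv),
    wildPart_eq_hilbertSymbol hv hq]

end FA.ExplicitLaw
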